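import Fermat.Prelude.Def_EllipticCurve_FrobeniusTrace
import Mathlib.RingTheory.Invariant.Profinite
import Mathlib.FieldTheory.Galois.Profinite
import Mathlib.RingTheory.Valuation.LocalSubring
import Mathlib.RingTheory.IntegralClosure.IsIntegralClosure.Basic
import Mathlib.RingTheory.Ideal.GoingUp
import Mathlib.RingTheory.Polynomial.Content
import Mathlib.FieldTheory.IsAlgClosed.Basic
import Mathlib.FieldTheory.Galois.Infinite

/-!
# Frobenius elements in the absolute Galois group of `ℚ`
-/

set_option autoImplicit false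

noncomputable section

open Polynomial
open scoped Pointwise

namespace FA.Deform

/-- The algebraic integers in `AlgebraicClosure ℚ`. -/
abbrev ZBar := integralClosure ℤ (AlgebraicClosure ℚ)

lemma zbar_mem_valuationSubring (A : ValuationSubring (AlgebraicClosure ℚ)) (x : ZBar) :
    (x : AlgebraicClosure ℚ) ∈ A := by
  have hx : IsIntegral A.toSubring (x : AlgebraicClosure ℚ) := by
    obtain ⟨p, hp, hpx⟩ := x.2
    refine ⟨p.map (Int.castRingHom A.toSubring), hp.map _, ?_⟩
    rw [eval₂_map, RingHom.ext_int ((algebraMap A.toSubring (AlgebraicClosure ℚ)).comp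
      (Int.castRingHom _)) (algebraMap ℤ (AlgebraicClosure ℚ))]
    exact hpx
  have : IsIntegrallyClosedIn A.toSubring (AlgebraicClosure ℚ) :=
    inferInstanceAs (IsIntegrallyClosedIn A (AlgebraicClosure ℚ))
  exact Subring.isIntegrallyClosedIn_iff.mp this hx

/-- The inclusion of the algebraic integers in a valuation subring. -/
def zbarIncl (A : ValuationSubring (AlgebraicClosure ℚ)) : ZBar →+* A :=
  (ZBar.val.toRingHom).codRestrict A.toSubring (zbar_mem_valuationSubring A)

/-- The prime of the algebraic integers cut out by a valuation subring. -/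
def primeAt (A : ValuationSubring (AlgebraicClosure ℚ)) : Ideal ZBar :=
  (IsLocalRing.maximalIdeal A).comap (zbarIncl A)

instance (A : ValuationSubring (AlgebraicClosure ℚ)) : (primeAt A).IsPrime :=
  Ideal.comap_isPrime _ _

lemma mem_primeAt {A : ValuationSubring (AlgebraicClosure ℚ)} {x : ZBar} :
    x ∈ primeAt A ↔ (x : AlgebraicClosure ℚ) ∈ A.nonunits := by
  rw [primeAt, Ideal.mem_comap, ← A.coe_mem_nonunits_iff]
  rfl

lemma intCast_mem_primeAt_iff {A : ValuationSubring (AlgebraicClosure ℚ)} {ℓ : ℕ}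
    (hℓ : ℓ.Prime) (hA : A.LiesOverPrime ℓ) (n : ℤ) :
    (n : ZBar) ∈ primeAt A ↔ (ℓ : ℤ) ∣ n := by
  have hmem : ((ℓ : ℤ) : ZBar) ∈ primeAt A := by
    rw [mem_primeAt]; simpa [ValuationSubring.LiesOverPrime] using hA
  constructor
  · intro hn
    by_contra h
    have hcop : IsCoprime (ℓ : ℤ) n :=
      (Nat.prime_iff_prime_int.mp hℓ).coprime_iff_not_dvd.mpr h
    obtain ⟨a, b, hab⟩ := hcop
    have h1 : (1 : ZBar) ∈ primeAt A := by
      have := (primeAt A).add_mem ((primeAt A).mul_mem_left (a : ZBar) hmem)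
        ((primeAt A).mul_mem_left (b : ZBar) hn)
      rwa [← Int.cast_mul, ← Int.cast_mul, ← Int.cast_add, hab, Int.cast_one] at this
    exact (inferInstance : (primeAt A).IsPrime).ne_top ((Ideal.eq_top_iff_one _).mpr h1)
  · rintro ⟨c, rfl⟩
    rw [Int.cast_mul]
    exact (primeAt A).mul_mem_right _ hmem

/-- An element of the valuation subring is a fraction of algebraic integers with denominator
outside the prime, as soon as it is a root of a polynomial which is nonzero modulo the prime. -/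
lemma exists_fraction_aux (A : ValuationSubring (AlgebraicClosure ℚ)) (x : AlgebraicClosure ℚ)
    (hx : x ∈ A) : ∀ n : ℕ, ∀ c : ℕ → ZBar,
    ∑ i ∈ Finset.range (n + 1), (c i : AlgebraicClosure ℚ) * x ^ i = 0 →
    (∃ i ≤ n, c i ∉ primeAt A) →
    ∃ b s : ZBar, s ∉ primeAt A ∧ (s : AlgebraicClosure ℚ) * x = b := by
  intro n
  induction n with
  | zero =>
    intro c h ⟨i, hi, hci⟩
    obtain rfl : i = 0 := by omega
    have h0 : c 0 = 0 := Subtype.ext (by simpa using h)
    exact absurd (h0 ▸ (primeAt A).zero_mem) hci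
  | succ n ih =>
    intro c h ⟨i, hi, hci⟩
    have he : IsIntegral ℤ ((c (n + 1) : AlgebraicClosure ℚ) * x) := by
      let p : ZBar[X] := ∑ i ∈ Finset.range (n + 1 + 1), monomial i (c i)
      have hp : aeval x p = 0 := by
        rw [← h]
        simp only [p, map_sum, aeval_monomial]
        rfl
      by_cases h0 : c (n + 1) = 0
      · rw [h0]; simpa using isIntegral_zero
      have hdeg : p.natDegree = n + 1 := by
        refine le_antisymm (natDegree_sum_le_of_forall_le _ _ fun j hj => ?_)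
          (le_natDegree_of_ne_zero ?_)
        · exact (natDegree_monomial_le _).trans (by simp at hj; omega)
        · simpa [p, finsetSum_coeff, coeff_monomial] using h0
      have hlead : p.leadingCoeff = c (n + 1) := by
        simp [leadingCoeff, hdeg, p, finsetSum_coeff, coeff_monomial]
      have := isIntegral_leadingCoeff_smul p x hp
      rw [hlead, Algebra.smul_def] at this
      exact isIntegral_trans (R := ℤ) (A := ZBar) _ this
    let e : ZBar := ⟨_, he⟩
    let c' : ℕ → ZBar := fun j => if j = n then e + c n else c j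
    have h' : ∑ i ∈ Finset.range (n + 1), (c' i : AlgebraicClosure ℚ) * x ^ i = 0 := by
      rw [← h, Finset.sum_range_succ _ (n + 1), Finset.sum_range_succ, Finset.sum_range_succ]
      have : ∀ j ∈ Finset.range n,
          (c' j : AlgebraicClosure ℚ) * x ^ j = (c j : AlgebraicClosure ℚ) * x ^ j := by
        intro j hj
        simp only [c', if_neg (Finset.mem_range.mp hj).ne]
      rw [Finset.sum_congr rfl this]
      simp only [c', if_pos, e, AddMemClass.coe_add]
      ring
    by_cases hex : ∃ j ≤ n, c' j ∉ primeAt A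
    · exact ih c' h' hex
    push Not at hex
    by_cases ha : c (n + 1) ∈ primeAt A
    · exfalso
      have hemem : e ∈ primeAt A := by
        rw [mem_primeAt] at ha ⊢
        show (c (n + 1) : AlgebraicClosure ℚ) * x ∈ A.nonunits
        rw [ValuationSubring.mem_nonunits_iff] at ha ⊢
        rw [map_mul]
        exact mul_lt_one_of_lt_of_le ha ((A.valuation_le_one_iff x).mpr hx)
      rcases Nat.lt_or_ge i n with hlt | hge
      · have := hex i hlt.le
        simp only [c', if_neg hlt.ne] at this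
        exact hci this
      · rcases (show i = n ∨ i = n + 1 by omega) with rfl | rfl
        · have := hex i le_rfl
          simp only [c', if_pos] at this
          exact hci ((Ideal.add_mem_iff_right _ hemem).mp this)
        · exact hci ha
    · exact ⟨e, c (n + 1), ha, rfl⟩

lemma exists_fraction {A : ValuationSubring (AlgebraicClosure ℚ)} {ℓ : ℕ}
    (hℓ : ℓ.Prime) (hA : A.LiesOverPrime ℓ) {x : AlgebraicClosure ℚ} (hx : x ∈ A) :
    ∃ b s : ZBar, s ∉ primeAt A ∧ (s : AlgebraicClosure ℚ) * x = b := by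
  obtain ⟨f, hf0, hf⟩ : ∃ f : ℤ[X], f ≠ 0 ∧ aeval x f = 0 :=
    (IsFractionRing.isAlgebraic_iff ℤ ℚ (AlgebraicClosure ℚ)).mpr
      ((AlgebraicClosure.isAlgebraic ℚ).isAlgebraic x)
  have hg : aeval x f.primPart = 0 := by
    rcases mul_eq_zero.mp (show (f.content : AlgebraicClosure ℚ) * aeval x f.primPart = 0 by
      rw [f.eq_C_content_mul_primPart, map_mul, aeval_C] at hf
      simpa using hf) with h | h
    · exact absurd (by exact_mod_cast h) (mt content_eq_zero_iff.mp hf0)
    · exact h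
  refine exists_fraction_aux A x hx f.primPart.natDegree (fun i => (f.primPart.coeff i : ZBar)) ?_ ?_
  · rw [aeval_eq_sum_range] at hg
    simpa [zsmul_eq_mul] using hg
  · by_contra hcon
    push Not at hcon
    have hdvd : C (ℓ : ℤ) ∣ f.primPart := by
      rw [C_dvd_iff_dvd_coeff]
      intro i
      rcases Nat.lt_or_ge f.primPart.natDegree i with hlt | hge
      · simp [coeff_eq_zero_of_natDegree_lt hlt]
      · exact (intCast_mem_primeAt_iff hℓ hA _).mp (hcon i hge)
    exact (Nat.prime_iff_prime_int.mp hℓ).not_isUnit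
      (f.isPrimitive_primPart (ℓ : ℤ) hdvd)

/-- Every prime has a place of `AlgebraicClosure ℚ` above it. -/
theorem exists_liesOverPrime {ℓ : ℕ} (hℓ : ℓ.Prime) :
    ∃ A : ValuationSubring (AlgebraicClosure ℚ), A.LiesOverPrime ℓ := by
  let S : Subring (AlgebraicClosure ℚ) := (algebraMap ℤ (AlgebraicClosure ℚ)).range
  let q : S := (algebraMap ℤ (AlgebraicClosure ℚ)).rangeRestrict ℓ
  have hq : Ideal.span {q} ≠ ⊤ := by
    rw [ne_eq, Ideal.span_singleton_eq_top]
    rintro hu
    obtain ⟨⟨_, m, rfl⟩, hb⟩ := isUnit_iff_exists_inv.mp hu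
    have : (ℓ : ℤ) * m = 1 := by
      apply (algebraMap ℤ (AlgebraicClosure ℚ)).injective_int
      simpa [q] using congrArg Subtype.val hb
    exact (Nat.prime_iff_prime_int.mp hℓ).not_isUnit (.of_mul_eq_one m this)
  obtain ⟨A, -, hA⟩ := Ideal.image_subset_nonunits_valuationSubring _ hq
  have := hA ⟨q, Ideal.mem_span_singleton_self q, rfl⟩
  exact ⟨A, by simpa [ValuationSubring.LiesOverPrime, q] using this⟩

section

variable {A : ValuationSubring (AlgebraicClosure ℚ)} {ℓ : ℕ}

/-- A Frobenius element exists at every place above a prime. -/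
theorem exists_isFrobeniusAt (hℓ : ℓ.Prime) (hA : A.LiesOverPrime ℓ) :
    ∃ σ : AlgebraicClosure ℚ ≃ₐ[ℚ] AlgebraicClosure ℚ, A.IsFrobeniusAt σ ℓ := by
  have : Algebra.IsAlgebraic ℚ (AlgebraicClosure ℚ) := AlgebraicClosure.isAlgebraic ℚ
  have : IsAlgClosure ℚ (AlgebraicClosure ℚ) := ⟨inferInstance, inferInstance⟩
  have : Normal ℚ (AlgebraicClosure ℚ) := IsAlgClosure.normal ℚ (AlgebraicClosure ℚ)
  have : IsGalois ℚ (AlgebraicClosure ℚ) := ⟨⟩
  let G := AlgebraicClosure ℚ ≃ₐ[ℚ] AlgebraicClosure ℚ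
  let P := primeAt A
  let p : Ideal ℤ := Ideal.span {(ℓ : ℤ)}
  let : TopologicalSpace ZBar := ⊥
  have : DiscreteTopology ZBar := ⟨rfl⟩
  have : ContinuousSMul G ZBar := by
    rw [continuousSMul_iff_stabilizer_isOpen]
    intro x
    have h := stabilizer_isOpen_of_isIntegral (K := ℚ) (x : AlgebraicClosure ℚ)
    convert h using 2
    ext g
    simp only [MulAction.mem_stabilizer_iff, Subtype.ext_iff, integralClosure.coe_smul]
    exact Iff.rfl
  have : Algebra.IsInvariant ℤ ZBar G := by
    constructor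
    intro b hb
    obtain ⟨r, hr⟩ := (InfiniteGalois.mem_range_algebraMap_iff_fixed (b : AlgebraicClosure ℚ)).mpr
      fun g => congrArg Subtype.val (hb g)
    have hint : IsIntegral ℤ r := by
      rw [← isIntegral_algebraMap_iff (B := AlgebraicClosure ℚ) (algebraMap ℚ _).injective, hr]
      exact b.2
    obtain ⟨n, hn⟩ := IsIntegrallyClosed.isIntegral_iff.mp hint
    refine ⟨n, Subtype.ext ?_⟩
    rw [← hr, ← hn]
    simp
  have hover : P.LiesOver p := ⟨by
    ext n
    rw [Ideal.mem_span_singleton, Ideal.mem_comap]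
    simpa using (intCast_mem_primeAt_iff hℓ hA n).symm⟩
  have hpmax : p.IsMaximal := PrincipalIdealRing.isMaximal_of_irreducible
    (Nat.prime_iff_prime_int.mp hℓ).irreducible
  have hPmax : P.IsMaximal :=
    Ideal.isMaximal_of_isIntegral_of_isMaximal_comap (R := ℤ) P (by rw [← Ideal.under_def, ← hover.over]; exact hpmax)
  have : Fact ℓ.Prime := ⟨hℓ⟩
  have : CharP (ZBar ⧸ P) ℓ := ⟨fun x => by
    rw [← map_natCast (Ideal.Quotient.mk P), Ideal.Quotient.eq_zero_iff_mem, ← Int.cast_natCast,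
      intCast_mem_primeAt_iff hℓ hA, Int.natCast_dvd_natCast]⟩
  let fr : (ZBar ⧸ P) →+* (ZBar ⧸ P) := frobenius _ ℓ
  have hfr : Function.Bijective fr := by
    refine ⟨frobenius_inj _ ℓ, fun y => ?_⟩
    obtain ⟨b, rfl⟩ := Ideal.Quotient.mk_surjective y
    obtain ⟨z, hz⟩ := IsAlgClosed.exists_pow_nat_eq (b : AlgebraicClosure ℚ) hℓ.pos
    refine ⟨Ideal.Quotient.mk P ⟨z, IsIntegral.of_pow hℓ.pos (hz ▸ b.2)⟩, ?_⟩
    rw [frobenius_def, ← map_pow]
    exact congrArg _ (Subtype.ext (by simpa using hz))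
  let e : (ZBar ⧸ P) ≃ₐ[ℤ ⧸ p] (ZBar ⧸ P) :=
    AlgEquiv.ofRingEquiv (f := RingEquiv.ofBijective fr hfr) (by
      intro a
      obtain ⟨n, rfl⟩ := Ideal.Quotient.mk_surjective a
      show fr (Ideal.Quotient.mk P (algebraMap ℤ ZBar n)) = Ideal.Quotient.mk P (algebraMap ℤ ZBar n)
      simp)
  obtain ⟨⟨σ, hσP⟩, hσ⟩ := Ideal.Quotient.stabilizerHom_surjective_of_profinite (G := G) p P e
  have hfrob : ∀ b : ZBar, Ideal.Quotient.mk P (σ • b) = Ideal.Quotient.mk P b ^ ℓ := fun b => by
    have := AlgEquiv.congr_fun hσ (Ideal.Quotient.mk P b)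
    rw [Ideal.Quotient.stabilizerHom_apply] at this
    exact this
  have hfix : ∀ b : ZBar, σ • b ∈ P ↔ b ∈ P := fun b => by
    conv_lhs => rw [← MulAction.mem_stabilizer_iff.mp hσP]
    exact Ideal.smul_mem_pointwise_smul_iff
  have hstab : ∀ (τ : G), (∀ b : ZBar, τ • b ∈ P ↔ b ∈ P) → ∀ x ∈ A, τ x ∈ A := by
    intro τ hτ x hx
    obtain ⟨b, s, hs, hsx⟩ := exists_fraction hℓ hA hx
    have hs' : ((τ • s : ZBar) : AlgebraicClosure ℚ) ∉ A.nonunits := fun h =>
      hs ((hτ s).mp (mem_primeAt.mpr h))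
    rw [ValuationSubring.mem_nonunits_iff_or, not_or, not_not] at hs'
    have : τ x = ((τ • s : ZBar) : AlgebraicClosure ℚ)⁻¹ * ((τ • b : ZBar) : AlgebraicClosure ℚ) := by
      have : τ (s : AlgebraicClosure ℚ) * τ x = τ (b : AlgebraicClosure ℚ) := by
        rw [← map_mul, hsx]
      rw [integralClosure.coe_smul, integralClosure.coe_smul, AlgEquiv.smul_def,
        AlgEquiv.smul_def, ← this, inv_mul_cancel_left₀ (by exact hs'.1)]
    rw [this]
    exact A.mul_mem _ _ hs'.2 (zbar_mem_valuationSubring A _)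
  have hdec : σ ∈ A.decompositionSubgroup ℚ := by
    rw [MulAction.mem_stabilizer_iff]
    ext x
    rw [ValuationSubring.mem_pointwise_smul_iff_inv_smul_mem, AlgEquiv.smul_def]
    constructor
    · intro hx
      have h := hstab σ hfix _ hx
      rwa [AlgEquiv.aut_inv, AlgEquiv.apply_symm_apply] at h
    · intro hx
      exact hstab σ⁻¹ (fun b => by simpa using (hfix (σ⁻¹ • b)).symm) x hx
  refine ⟨σ, hdec, fun r => ?_⟩
  obtain ⟨⟨x, hx⟩, rfl⟩ := IsLocalRing.residue_surjective r
  obtain ⟨b, s, hs, hsx⟩ := exists_fraction hℓ hA hx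
  let g : A.decompositionSubgroup ℚ := ⟨σ, hdec⟩
  let ρ : ZBar →+* IsLocalRing.ResidueField A := (IsLocalRing.residue A).comp (zbarIncl A)
  have hρ : ∀ y : ZBar, g • ρ y = ρ y ^ ℓ := fun y => by
    have h1 : σ • y - y ^ ℓ ∈ P := by rw [← Ideal.Quotient.eq, map_pow]; exact hfrob y
    have h2 : ρ (σ • y - y ^ ℓ) = 0 := (IsLocalRing.residue_eq_zero_iff _).mpr h1
    rw [map_sub, map_pow, sub_eq_zero] at h2
    rw [← h2]
    rfl
  have hne : ρ s ≠ 0 := fun h => hs ((IsLocalRing.residue_eq_zero_iff _).mp h)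
  have hprod : ρ s * IsLocalRing.residue A ⟨x, hx⟩ = ρ b := by
    rw [show ρ s = IsLocalRing.residue A (zbarIncl A s) from rfl, ← map_mul]
    exact congrArg (IsLocalRing.residue A) (Subtype.ext hsx)
  apply mul_left_cancel₀ (pow_ne_zero ℓ hne)
  calc ρ s ^ ℓ * (g • IsLocalRing.residue A ⟨x, hx⟩)
      = g • (ρ s * IsLocalRing.residue A ⟨x, hx⟩) := by rw [smul_mul', hρ]
    _ = ρ b ^ ℓ := by rw [hprod, hρ]
    _ = _ := by rw [← hprod, mul_pow]

end

end FA.Deform
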