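import Mathlib.LinearAlgebra.Matrix.Determinant.Basic
import Mathlib.FieldTheory.IsAlgClosed.AlgebraicClosure
import Mathlib.LinearAlgebra.Dual.Lemmas
import Mathlib.Tactic.LinearCombination

/-!
# Burnside's theorem for two-dimensional representations
-/

set_option autoImplicit false

open Matrix

namespace FA.Deform

/-- A unital multiplicatively closed space of `2 × 2` matrices over an algebraically closed field
without invariant line is everything. -/
theorem eq_top_of_no_invariant_line {L : Type*} [Field L] [IsAlgClosed L]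
    (S : Submodule L (Matrix (Fin 2) (Fin 2) L)) (hone : (1 : Matrix (Fin 2) (Fin 2) L) ∈ S)
    (hmul : ∀ a ∈ S, ∀ b ∈ S, a * b ∈ S)
    (hirr : ∀ v : Fin 2 → L, v ≠ 0 → ∃ s ∈ S, ∀ c : L, s *ᵥ v ≠ c • v) : S = ⊤ := by
  classical
  -- the orbit of a nonzero vector is everything
  have hcyc : ∀ v : Fin 2 → L, v ≠ 0 → ∀ w : Fin 2 → L, ∃ s ∈ S, s *ᵥ v = w := by
    intro v hv w
    obtain ⟨s, hs, hsv⟩ := hirr v hv
    set u := s *ᵥ v with hu
    have hd : v 0 * u 1 - v 1 * u 0 ≠ 0 := by
      intro hd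
      by_cases h0 : v 0 = 0
      · have h1 : v 1 ≠ 0 := fun h1 => hv (funext fun i => by fin_cases i <;> assumption)
        refine hsv (u 1 / v 1) (funext fun i => ?_)
        fin_cases i
        · simp only [h0, zero_mul, zero_sub, neg_eq_zero, mul_eq_zero, h1, false_or] at hd
          simp [h0, hd]
        · simp [div_mul_cancel₀ _ h1]
      · refine hsv (u 0 / v 0) (funext fun i => ?_)
        fin_cases i
        · simp [div_mul_cancel₀ _ h0]
        · show u 1 = u 0 / v 0 * v 1
          field_simp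
          linear_combination hd
    obtain ⟨D, hD⟩ := isUnit_iff_exists_inv.mp hd.isUnit
    refine ⟨((w 0 * u 1 - w 1 * u 0) * D) • 1 + ((v 0 * w 1 - v 1 * w 0) * D) • s,
      S.add_mem (S.smul_mem _ hone) (S.smul_mem _ hs), ?_⟩
    rw [add_mulVec, smul_mulVec, smul_mulVec, one_mulVec, ← hu]
    funext i
    fin_cases i <;>
      simp only [Fin.mk_one, Fin.isValue, Fin.zero_eta, Pi.add_apply, Pi.smul_apply, smul_eq_mul]
    · linear_combination w 0 * hD
    · linear_combination w 1 * hD
  -- a rank one element of `S`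
  obtain ⟨u, hu, φ, hφ, huφ⟩ : ∃ u : Fin 2 → L, u ≠ 0 ∧ ∃ φ : Fin 2 → L, φ ≠ 0 ∧
      vecMulVec u φ ∈ S := by
    obtain ⟨t, ht, htns⟩ := hirr ![1, 0] (by simp)
    obtain ⟨lam, hlam⟩ : ∃ lam : L, (t - lam • 1).det = 0 := by
      obtain ⟨x, hx⟩ := IsAlgClosed.exists_root
        (Polynomial.C 1 * Polynomial.X ^ 2 + Polynomial.C (-(t 0 0 + t 1 1)) * Polynomial.X +
          Polynomial.C (t 0 0 * t 1 1 - t 0 1 * t 1 0))
        (by rw [Polynomial.degree_quadratic one_ne_zero]; exact two_ne_zero)
      refine ⟨x, ?_⟩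
      simp [det_fin_two] at hx ⊢
      linear_combination hx
    have hN : t - lam • 1 ∈ S := S.sub_mem ht (S.smul_mem _ hone)
    have hN0 : t - lam • 1 ≠ 0 := fun h => htns lam (by
      rw [sub_eq_zero.mp h, smul_mulVec, one_mulVec])
    generalize t - lam • 1 = M at hlam hN hN0
    rw [det_fin_two] at hlam
    by_cases h0 : M 0 0 = 0 ∧ M 1 0 = 0
    · refine ⟨fun i => M i 1, fun h => hN0 ?_, ![0, 1], by simp, ?_⟩
      · ext i j
        fin_cases j
        · fin_cases i <;> simp [h0.1, h0.2]
        · simpa using congrFun h i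
      · convert hN using 1
        ext i j
        fin_cases j
        · fin_cases i <;> simp [vecMulVec_apply, h0.1, h0.2]
        · fin_cases i <;> simp [vecMulVec_apply]
    · rw [not_and_or] at h0
      obtain ⟨r, hr0, hr1⟩ : ∃ r : L, M 0 1 = M 0 0 * r ∧ M 1 1 = M 1 0 * r := by
        rcases h0 with h | h
        · exact ⟨M 0 1 / M 0 0, by field_simp, by field_simp; linear_combination hlam⟩
        · exact ⟨M 1 1 / M 1 0, by field_simp; linear_combination -hlam, by field_simp⟩
      refine ⟨fun i => M i 0, fun h => ?_, ![1, r], by simp, ?_⟩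
      · exact h0.elim (fun g => g (congrFun h 0)) (fun g => g (congrFun h 1))
      · convert hN using 1
        ext i j
        fin_cases i <;> fin_cases j <;> simp [vecMulVec_apply, hr0, hr1]
  -- spreading it around
  have key : ∀ w ψ : Fin 2 → L, vecMulVec w ψ ∈ S := by
    intro w
    obtain ⟨a, ha, haw⟩ := hcyc u hu w
    have hw : vecMulVec w φ ∈ S := by
      have := hmul _ ha _ huφ
      rwa [mul_vecMulVec, haw] at this
    obtain ⟨e, he⟩ : ∃ e : Fin 2 → L, φ ⬝ᵥ e ≠ 0 := by
      by_contra hcon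
      push Not at hcon
      exact hφ (funext fun i => by simpa using hcon (Pi.single i 1))
    obtain ⟨b, hb, hbe⟩ := hcyc ![-φ 1, φ 0] (fun h => hφ (funext fun i => by
      have h0 := congrFun h 0
      have h1 := congrFun h 1
      fin_cases i <;> simp_all)) e
    have hw' : vecMulVec w (φ ᵥ* b) ∈ S := by
      have := hmul _ hw _ hb
      rwa [vecMulVec_mul] at this
    intro ψ
    -- `φ` and `φ ᵥ* b` are independent
    set χ := φ ᵥ* b with hχ
    have hne : φ 0 * χ 1 - φ 1 * χ 0 ≠ 0 := by
      have h : χ ⬝ᵥ ![-φ 1, φ 0] = φ ⬝ᵥ e := by rw [hχ, ← dotProduct_mulVec, hbe]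
      have h2 : φ 0 * χ 1 - φ 1 * χ 0 = χ ⬝ᵥ ![-φ 1, φ 0] := by
        simp [dotProduct, Fin.sum_univ_two]
        ring
      rw [h2, h]
      exact he
    obtain ⟨D, hD⟩ := isUnit_iff_exists_inv.mp hne.isUnit
    have : vecMulVec w ψ = ((ψ 0 * χ 1 - ψ 1 * χ 0) * D) • vecMulVec w φ +
        ((φ 0 * ψ 1 - φ 1 * ψ 0) * D) • vecMulVec w χ := by
      ext i j
      fin_cases j <;> simp only [Matrix.add_apply, Matrix.smul_apply, vecMulVec_apply, smul_eq_mul,
        Fin.mk_one, Fin.isValue, Fin.zero_eta]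
      · linear_combination (-(w i * ψ 0)) * hD
      · linear_combination (-(w i * ψ 1)) * hD
    rw [this]
    exact S.add_mem (S.smul_mem _ hw) (S.smul_mem _ hw')
  rw [eq_top_iff]
  intro M _
  rw [matrix_eq_sum_single M]
  refine Submodule.sum_mem _ fun i _ => Submodule.sum_mem _ fun j _ => ?_
  have h : Matrix.single i j (M i j) = vecMulVec (Pi.single i (M i j)) (Pi.single j 1) := by
    ext k l
    fin_cases i <;> fin_cases j <;> fin_cases k <;> fin_cases l <;> simp [vecMulVec_apply]
  rw [h]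
  exact key _ _

end FA.Deform
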