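import Fermat.Prelude.Def_GaloisRep_Adic
import Mathlib.RingTheory.TensorProduct.Free
import Mathlib.LinearAlgebra.Matrix.ToLin
import Mathlib.LinearAlgebra.Matrix.NonsingularInverse
import Mathlib.RingTheory.Henselian
import Fermat.Agent.Deform.Burnside

/-!
# Two-dimensional Galois representations as normalised matrix representations
-/

set_option autoImplicit false

noncomputable section

open IsLocalRing
open scoped TensorProduct

namespace FA.Deform

/-- The absolute Galois group of `ℚ`. -/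
abbrev GQ := AlgebraicClosure ℚ ≃ₐ[ℚ] AlgebraicClosure ℚ

/-- `2 × 2` matrices. -/
abbrev M2 (A : Type) := Matrix (Fin 2) (Fin 2) A

/-- Apply a ring homomorphism to a matrix representation. -/
def mapRep {A B : Type} [CommRing A] [CommRing B] (φ : A →+* B) (r : GQ →* M2 A) : GQ →* M2 B :=
  φ.mapMatrix.toMonoidHom.comp r

lemma mapRep_apply {A B : Type} [CommRing A] [CommRing B] (φ : A →+* B) (r : GQ →* M2 A) (σ : GQ)
    (i j : Fin 2) : mapRep φ r σ i j = φ (r σ i j) := rfl

lemma mapRep_eq {A B : Type} [CommRing A] [CommRing B] (φ : A →+* B) (r : GQ →* M2 A) (σ : GQ) :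
    mapRep φ r σ = φ.mapMatrix (r σ) := rfl

section Intertwine

/-- Matrices of intertwined endomorphisms. -/
lemma intertwine_matrix {A V W : Type} [CommRing A] [AddCommGroup V] [Module A V] [AddCommGroup W]
    [Module A W] (b : Module.Basis (Fin 2) A V) (c : Module.Basis (Fin 2) A W) (e : V ≃ₗ[A] W) :
    IsUnit (LinearMap.toMatrix b c e.toLinearMap) ∧ ∀ (f : Module.End A V) (g : Module.End A W),
      (∀ x, e (f x) = g (e x)) →
      LinearMap.toMatrix b c e.toLinearMap * LinearMap.toMatrix b b f =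
        LinearMap.toMatrix c c g * LinearMap.toMatrix b c e.toLinearMap := by
  constructor
  · refine IsUnit.of_mul_eq_one (LinearMap.toMatrix c b e.symm.toLinearMap) ?_
    rw [← LinearMap.toMatrix_comp c b c]
    simp
  · intro f g h
    rw [← LinearMap.toMatrix_comp b b c, ← LinearMap.toMatrix_comp b c c]
    congr 1
    exact LinearMap.ext h

/-- An invertible matrix intertwining matrices gives an intertwining linear equivalence. -/
lemma exists_intertwine {A V W : Type} [CommRing A] [AddCommGroup V] [Module A V] [AddCommGroup W]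
    [Module A W] (b : Module.Basis (Fin 2) A V) (c : Module.Basis (Fin 2) A W) {U : M2 A}
    (hU : IsUnit U) :
    ∃ e : V ≃ₗ[A] W, ∀ (f : Module.End A V) (g : Module.End A W),
      U * LinearMap.toMatrix b b f = LinearMap.toMatrix c c g * U → ∀ x, e (f x) = g (e x) := by
  obtain ⟨u, rfl⟩ := hU
  refine ⟨LinearEquiv.ofLinearMap (Matrix.toLin b c (u : M2 A)) (Matrix.toLin c b ((u⁻¹ : (M2 A)ˣ) : M2 A))
    ?_ ?_, fun f g h x => ?_⟩
  · rw [← Matrix.toLin_mul, Units.mul_inv, Matrix.toLin_one]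
  · rw [← Matrix.toLin_mul, Units.inv_mul, Matrix.toLin_one]
  · have h' : (Matrix.toLin b c (u : M2 A)).comp f = g.comp (Matrix.toLin b c (u : M2 A)) := by
      apply (LinearMap.toMatrix b c).injective
      rw [LinearMap.toMatrix_comp b b c, LinearMap.toMatrix_comp b c c,
        LinearMap.toMatrix_toLin, h]
    exact LinearMap.congr_fun h' x

end Intertwine

section Adic

variable {A : Type} [CommRing A] [IsLocalRing A]

/-- Adic continuity of a matrix representation. -/
def IsContRep (r : GQ →* M2 A) : Prop :=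
  ∀ n : ℕ, ∃ L : IntermediateField ℚ (AlgebraicClosure ℚ), FiniteDimensional ℚ L ∧
    ∀ σ : GQ, (∀ x ∈ L, σ x = x) → ∀ i j, (r σ - 1) i j ∈ maximalIdeal A ^ n

lemma IsContRep.map {B : Type} [CommRing B] [IsLocalRing B] (φ : A →+* B) [IsLocalHom φ]
    {r : GQ →* M2 A} (h : IsContRep r) : IsContRep (mapRep φ r) := by
  intro n
  obtain ⟨L, hL, hn⟩ := h n
  refine ⟨L, hL, fun σ hσ i j => ?_⟩
  have hle : (maximalIdeal A ^ n).map φ ≤ maximalIdeal B ^ n := by
    rw [Ideal.map_pow]
    exact Ideal.pow_right_mono (((local_hom_TFAE φ).out 0 2).mp (inferInstance : IsLocalHom φ)) n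
  have := hle (Ideal.mem_map_of_mem φ (hn σ hσ i j))
  rw [mapRep_eq, ← map_one φ.mapMatrix, ← map_sub]
  exact this

/-- The representation on `A²` given by matrices. -/
def ofMatrix (r : GQ →* M2 A) (h : IsContRep r) : GaloisRepAdic A where
  V := Fin 2 → A
  finrank_eq := Module.finrank_fin_fun A
  ρ := (Matrix.toLinAlgEquiv (Pi.basisFun A (Fin 2))).toAlgHom.toRingHom.toMonoidHom.comp r
  isAdicContinuous := by
    intro n
    obtain ⟨L, hL, hn⟩ := h n
    refine ⟨L, hL, fun σ hσ v => ?_⟩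
    have hv : Matrix.toLinAlgEquiv (Pi.basisFun A (Fin 2)) (r σ) v - v =
        Matrix.toLinAlgEquiv (Pi.basisFun A (Fin 2)) (r σ - 1) v := by
      rw [map_sub, map_one, LinearMap.sub_apply, Module.End.one_apply]
    show Matrix.toLinAlgEquiv (Pi.basisFun A (Fin 2)) (r σ) v - v ∈ _
    rw [hv, Matrix.toLinAlgEquiv_apply]
    refine Submodule.sum_mem _ fun i _ => Submodule.smul_mem_smul ?_ Submodule.mem_top
    simp only [Matrix.mulVec, dotProduct]
    exact Ideal.sum_mem _ fun j _ => Ideal.mul_mem_right _ _ (hn σ hσ i j)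

/-- A basis of the space of a representation. -/
def repBasis (ρ : GaloisRepAdic A) : Module.Basis (Fin 2) A ρ.V :=
  Module.finBasisOfFinrankEq A ρ.V ρ.finrank_eq

/-- The matrices of a representation in a basis. -/
def matrixOf (ρ : GaloisRepAdic A) (b : Module.Basis (Fin 2) A ρ.V) : GQ →* M2 A :=
  (LinearMap.toMatrixAlgEquiv b).toAlgHom.toRingHom.toMonoidHom.comp ρ.ρ

lemma matrixOf_apply (ρ : GaloisRepAdic A) (b : Module.Basis (Fin 2) A ρ.V) (σ : GQ) :
    matrixOf ρ b σ = LinearMap.toMatrix b b (ρ.ρ σ) := rfl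

lemma matrixOf_ofMatrix (r : GQ →* M2 A) (h : IsContRep r) :
    matrixOf (ofMatrix r h) (Pi.basisFun A (Fin 2)) = r := by
  ext1 σ
  exact LinearMap.toMatrixAlgEquiv_toLinAlgEquiv _ _

lemma isContRep_matrixOf (ρ : GaloisRepAdic A) (b : Module.Basis (Fin 2) A ρ.V) :
    IsContRep (matrixOf ρ b) := by
  intro n
  obtain ⟨L, hL, hn⟩ := ρ.isAdicContinuous n
  refine ⟨L, hL, fun σ hσ i j => ?_⟩
  have : (matrixOf ρ b σ - 1) i j = b.repr (ρ.ρ σ (b j) - b j) i := by
    rw [map_sub, Finsupp.sub_apply, Module.Basis.repr_self, Matrix.sub_apply, matrixOf_apply,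
      LinearMap.toMatrix_apply, Matrix.one_apply, Finsupp.single_apply]
    simp only [eq_comm]
  rw [this]
  refine Submodule.smul_induction_on (hn σ hσ (b j)) (fun a ha v _ => ?_) (fun x y hx hy => ?_)
  · rw [map_smul, Finsupp.smul_apply, smul_eq_mul]
    exact Ideal.mul_mem_right _ _ ha
  · rw [map_add, Finsupp.add_apply]
    exact add_mem hx hy

lemma isEquiv_ofMatrix_matrixOf (ρ : GaloisRepAdic A) (b : Module.Basis (Fin 2) A ρ.V) :
    ρ.IsEquiv (ofMatrix (matrixOf ρ b) (isContRep_matrixOf ρ b)) := by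
  obtain ⟨e, he⟩ := exists_intertwine b (Pi.basisFun A (Fin 2)) (U := 1) isUnit_one
  refine ⟨⟨e, fun σ x => he _ _ ?_ x⟩⟩
  rw [one_mul, mul_one]
  exact (DFunLike.congr_fun
    (matrixOf_ofMatrix (matrixOf ρ b) (isContRep_matrixOf ρ b)) σ).symm

lemma isEquiv_ofMatrix_iff {r r' : GQ →* M2 A} (h : IsContRep r) (h' : IsContRep r') :
    (ofMatrix r h).IsEquiv (ofMatrix r' h') ↔ ∃ U : M2 A, IsUnit U ∧ ∀ σ, U * r σ = r' σ * U := by
  let b := Pi.basisFun A (Fin 2)
  constructor
  · rintro ⟨e⟩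
    obtain ⟨h1, h2⟩ := intertwine_matrix b b e.toLinearEquiv
    refine ⟨_, h1, fun σ => ?_⟩
    have := h2 _ _ (e.map_apply σ)
    rwa [← DFunLike.congr_fun (matrixOf_ofMatrix r h) σ,
      ← DFunLike.congr_fun (matrixOf_ofMatrix r' h') σ]
  · rintro ⟨U, hU, hUr⟩
    obtain ⟨e, he⟩ := exists_intertwine b b hU
    refine ⟨⟨e, fun σ x => he _ _ ?_ x⟩⟩
    have h1 := DFunLike.congr_fun (matrixOf_ofMatrix r h) σ
    have h2 := DFunLike.congr_fun (matrixOf_ofMatrix r' h') σ
    exact (congrArg (U * ·) h1).trans ((hUr σ).trans (congrArg (· * U) h2).symm)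

lemma baseChange_ofMatrix_isEquiv {B : Type} [CommRing B] [IsLocalRing B] (φ : A →+* B)
    (hφ : IsLocalHom φ) {r : GQ →* M2 A} (h : IsContRep r) (h' : IsContRep (mapRep φ r)) :
    ((ofMatrix r h).baseChangeAlong φ hφ).IsEquiv (ofMatrix (mapRep φ r) h') := by
  let : Algebra A B := φ.toAlgebra
  let bb : Module.Basis (Fin 2) B ((ofMatrix r h).baseChangeAlong φ hφ).V :=
    Algebra.TensorProduct.basis B (Pi.basisFun A (Fin 2) : Module.Basis (Fin 2) A (ofMatrix r h).V)
  have heq : matrixOf ((ofMatrix r h).baseChangeAlong φ hφ) bb = mapRep φ r := by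
    ext σ : 1
    refine (LinearMap.toMatrix_baseChange _ _ _ _).trans ?_
    exact congrArg (fun M => Matrix.map M φ) (DFunLike.congr_fun (matrixOf_ofMatrix r h) σ)
  have := isEquiv_ofMatrix_matrixOf _ bb
  convert this using 2
  exact heq.symm

end Adic

section Residual

variable {k : Type} [Field k]

/-- A basis of the space of a residual representation. -/
def resBasis (ρ : ResidualGaloisRep k) : Module.Basis (Fin 2) k ρ.V :=
  Module.finBasisOfFinrankEq k ρ.V ρ.finrank_eq

/-- The matrices of a residual representation in the chosen basis. -/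
def resMatrix (ρ : ResidualGaloisRep k) : GQ →* M2 k :=
  (LinearMap.toMatrixAlgEquiv (resBasis ρ)).toAlgHom.toRingHom.toMonoidHom.comp ρ.ρ

lemma resMatrix_eq_one (ρ : ResidualGaloisRep k) :
    ∃ L : IntermediateField ℚ (AlgebraicClosure ℚ), FiniteDimensional ℚ L ∧
      ∀ σ : GQ, (∀ x ∈ L, σ x = x) → resMatrix ρ σ = 1 := by
  obtain ⟨L, hL, h⟩ := ρ.factorsThroughFiniteLevel
  exact ⟨L, hL, fun σ hσ => (congrArg (LinearMap.toMatrixAlgEquiv (resBasis ρ)) (h σ hσ)).trans
    (map_one _)⟩

lemma toMatrix_baseChangeAlong {k' : Type} [Field k'] (j : k →+* k') (ρ : ResidualGaloisRep k) :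
    ∃ c : Module.Basis (Fin 2) k' (ρ.baseChangeAlong j).V,
      ∀ σ, LinearMap.toMatrix c c ((ρ.baseChangeAlong j).ρ σ) = mapRep j (resMatrix ρ) σ := by
  let : Algebra k k' := j.toAlgebra
  exact ⟨Algebra.TensorProduct.basis k' (resBasis ρ), fun σ =>
    LinearMap.toMatrix_baseChange _ _ _ _⟩

variable {A : Type} [CommRing A] [IsLocalRing A]

lemma toMatrix_residual (ρ : GaloisRepAdic A) (b : Module.Basis (Fin 2) A ρ.V) :
    ∃ c : Module.Basis (Fin 2) (ResidueField A) ρ.residual.V,
      ∀ σ, LinearMap.toMatrix c c (ρ.residual.ρ σ) = mapRep (residue A) (matrixOf ρ b) σ :=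
  ⟨Algebra.TensorProduct.basis (ResidueField A) b, fun σ =>
    LinearMap.toMatrix_baseChange _ _ _ _⟩

lemma residual_ofMatrix_isEquiv (ρ₀ : ResidualGaloisRep k) (j : k →+* ResidueField A)
    {r : GQ →* M2 A} (h : IsContRep r) (hr : mapRep (residue A) r = mapRep j (resMatrix ρ₀)) :
    (ofMatrix r h).residual.IsEquiv (ρ₀.baseChangeAlong j) := by
  obtain ⟨c, hc⟩ := toMatrix_residual (ofMatrix r h) (Pi.basisFun A (Fin 2))
  obtain ⟨c', hc'⟩ := toMatrix_baseChangeAlong j ρ₀
  obtain ⟨e, he⟩ := exists_intertwine c c' (U := 1) isUnit_one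
  refine ⟨⟨e, fun σ x => he _ _ ?_ x⟩⟩
  rw [one_mul, mul_one, hc, hc', matrixOf_ofMatrix, hr]

lemma exists_conj_of_residual (ρ₀ : ResidualGaloisRep k) (j : k →+* ResidueField A)
    (ρ : GaloisRepAdic A) (h : ρ.residual.IsEquiv (ρ₀.baseChangeAlong j)) :
    ∃ (r : GQ →* M2 A) (hc : IsContRep r), ρ.IsEquiv (ofMatrix r hc) ∧
      mapRep (residue A) r = mapRep j (resMatrix ρ₀) := by
  obtain ⟨e⟩ := h
  obtain ⟨c, hc⟩ := toMatrix_residual ρ (repBasis ρ)
  obtain ⟨c', hc'⟩ := toMatrix_baseChangeAlong j ρ₀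
  obtain ⟨hU, hUr⟩ := intertwine_matrix c c' e.toLinearEquiv
  set Ub := LinearMap.toMatrix c c' e.toLinearEquiv.toLinearMap
  choose lift hlift using residue_surjective (R := A)
  let U : M2 A := Ub.map lift
  have hUmap : (residue A).mapMatrix U = Ub := Matrix.ext fun i l => hlift _
  have hUu : IsUnit U := by
    rw [Matrix.isUnit_iff_isUnit_det]
    apply (inferInstance : IsLocalHom (residue A)).map_nonunit
    rw [RingHom.map_det, hUmap, ← Matrix.isUnit_iff_isUnit_det]
    exact hU
  obtain ⟨u, hu⟩ := hUu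
  let r : GQ →* M2 A :=
    { toFun := fun σ => (u : M2 A) * matrixOf ρ (repBasis ρ) σ * ((u⁻¹ : (M2 A)ˣ) : M2 A)
      map_one' := by rw [map_one, mul_one, Units.mul_inv]
      map_mul' := fun σ τ => by
        rw [map_mul]
        simp [mul_assoc] }
  have hr : IsContRep r := by
    intro n
    obtain ⟨L, hL, hn⟩ := isContRep_matrixOf ρ (repBasis ρ) n
    refine ⟨L, hL, fun σ hσ i l => ?_⟩
    have : r σ - 1 =
        (u : M2 A) * (matrixOf ρ (repBasis ρ) σ - 1) * ((u⁻¹ : (M2 A)ˣ) : M2 A) := by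
      rw [mul_sub, sub_mul, mul_one, Units.mul_inv]
      rfl
    rw [this, Matrix.mul_apply]
    refine Ideal.sum_mem _ fun p _ => Ideal.mul_mem_right _ _ ?_
    rw [Matrix.mul_apply]
    exact Ideal.sum_mem _ fun q _ => Ideal.mul_mem_left _ _ (hn σ hσ q p)
  refine ⟨r, hr, ?_, ?_⟩
  · obtain ⟨e₁⟩ := isEquiv_ofMatrix_matrixOf ρ (repBasis ρ)
    obtain ⟨e₂⟩ := (isEquiv_ofMatrix_iff (isContRep_matrixOf ρ (repBasis ρ)) hr).mpr
      ⟨u, u.isUnit, fun σ => by
        show _ = (u : M2 A) * _ * _ * (u : M2 A)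
        rw [Units.inv_mul_cancel_right]⟩
    exact ⟨e₁.trans e₂⟩
  · ext σ : 1
    have h1 := hUr _ _ (e.map_apply σ)
    rw [hc, hc'] at h1
    have h2 : (residue A).mapMatrix (u : M2 A) * (residue A).mapMatrix ((u⁻¹ : (M2 A)ˣ) : M2 A) = 1 := by
      rw [← map_mul, Units.mul_inv, map_one]
    show (residue A).mapMatrix ((u : M2 A) * matrixOf ρ (repBasis ρ) σ * _) = _
    rw [map_mul, map_mul, ← mapRep_eq]
    conv_lhs => rw [hu, hUmap, h1]
    rw [mul_assoc, ← hUmap, ← hu, h2, mul_one]

end Residual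

section Frame

variable {O : Type} [CommRing O]

/-- A linear combination of the values of a matrix representation. -/
def evalComb {A : Type} [CommRing A] [Algebra O A] (c : GQ →₀ O) (r : GQ →* M2 A) : M2 A :=
  c.sum fun g a => algebraMap O A a • r g

lemma evalComb_map {A B : Type} [CommRing A] [Algebra O A] [CommRing B] [Algebra O B]
    (φ : A →+* B) (hφ : φ.comp (algebraMap O A) = algebraMap O B) (c : GQ →₀ O)
    (r : GQ →* M2 A) : evalComb c (mapRep φ r) = φ.mapMatrix (evalComb c r) := by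
  rw [evalComb, evalComb, map_finsuppSum]
  refine Finsupp.sum_congr fun g _ => ?_
  ext i j
  simp only [RingHom.mapMatrix_apply, Matrix.map_apply, Matrix.smul_apply, smul_eq_mul, map_mul,
    mapRep_apply, ← hφ, RingHom.comp_apply]

lemma evalComb_intertwine {A : Type} [CommRing A] [Algebra O A] (c : GQ →₀ O)
    (r r' : GQ →* M2 A) (U : M2 A) (h : ∀ σ, U * r σ = r' σ * U) :
    U * evalComb c r = evalComb c r' * U := by
  rw [evalComb, evalComb, Finsupp.mul_sum, Finsupp.sum_mul]
  refine Finsupp.sum_congr fun g _ => ?_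
  rw [Matrix.mul_smul, Matrix.smul_mul, h]

/-- The two combinations used to rigidify a deformation. -/
structure Frame (O : Type) [CommRing O] where
  cx : GQ →₀ O
  cy : GQ →₀ O

/-- The rigidifying condition. -/
def Frame.IsNormal {A : Type} [CommRing A] [Algebra O A] (F : Frame O) (r : GQ →* M2 A) : Prop :=
  evalComb F.cx r 0 1 = 0 ∧ evalComb F.cx r 1 0 = 0 ∧ evalComb F.cy r 1 0 = 1

/-- The frame sends the residual representation to `E₁₁` and `E₂₁`. -/
def Frame.Adapted {k : Type} [CommRing k] [Algebra O k] (F : Frame O) (r : GQ →* M2 k) : Prop :=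
  evalComb F.cx r = !![1, 0; 0, 0] ∧ evalComb F.cy r = !![0, 0; 1, 0]

lemma Frame.Adapted.isNormal {k : Type} [CommRing k] [Algebra O k] {F : Frame O}
    {r : GQ →* M2 k} (h : F.Adapted r) : F.IsNormal r :=
  ⟨by rw [h.1]; rfl, by rw [h.1]; rfl, by rw [h.2]; rfl⟩

lemma Frame.IsNormal.map {A B : Type} [CommRing A] [Algebra O A] [CommRing B] [Algebra O B]
    {F : Frame O} {r : GQ →* M2 A} (h : F.IsNormal r) (φ : A →+* B)
    (hφ : φ.comp (algebraMap O A) = algebraMap O B) : F.IsNormal (mapRep φ r) := by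
  refine ⟨?_, ?_, ?_⟩ <;> rw [evalComb_map φ hφ, RingHom.mapMatrix_apply, Matrix.map_apply]
  · rw [h.1, map_zero]
  · rw [h.2.1, map_zero]
  · rw [h.2.2, map_one]

variable {A : Type} [CommRing A] [IsLocalRing A] [Algebra O A]

lemma evalComb_residue (c : GQ →₀ O) (r : GQ →* M2 A) :
    evalComb c (mapRep (residue A) r) = (residue A).mapMatrix (evalComb c r) :=
  evalComb_map (residue A) (IsScalarTower.algebraMap_eq O A (ResidueField A)).symm c r

/-- Rigidity: equivalent normalised lifts are equal. -/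
theorem eq_of_isNormal {F : Frame O} {r r' : GQ →* M2 A}
    (hF : F.Adapted (mapRep (residue A) r)) (hF' : F.Adapted (mapRep (residue A) r'))
    (hr : F.IsNormal r) (hr' : F.IsNormal r')
    {U : M2 A} (hU : IsUnit U) (h : ∀ σ, U * r σ = r' σ * U) : r = r' := by
  set X := evalComb F.cx r with hX
  set X' := evalComb F.cx r' with hX'
  have e := evalComb_intertwine F.cx r r' U h
  have ey := evalComb_intertwine F.cy r r' U h
  rw [← hX, ← hX'] at e
  have res : ∀ i j, residue A (X i j) = (!![1, 0; 0, 0] : M2 (ResidueField A)) i j ∧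
      residue A (X' i j) = (!![1, 0; 0, 0] : M2 (ResidueField A)) i j := fun i j =>
    ⟨by rw [← hF.1, evalComb_residue]; rfl, by rw [← hF'.1, evalComb_residue]; rfl⟩
  have hunit : ∀ a b : A, residue A a = 1 → residue A b = 0 → IsUnit (a - b) := fun a b ha hb => by
    apply (inferInstance : IsLocalHom (residue A)).map_nonunit
    rw [map_sub, ha, hb, sub_zero]
    exact isUnit_one
  have e01 := congrFun (congrFun e 0) 1
  have e10 := congrFun (congrFun e 1) 0
  simp only [Matrix.mul_apply, Fin.sum_univ_two, hX, hX', hr.1, hr.2.1, hr'.1, hr'.2.1, mul_zero,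
    zero_mul, add_zero, zero_add] at e01 e10
  have h01 : U 0 1 = 0 :=
    (hunit (X' 0 0) (X 1 1) (res 0 0).2 (res 1 1).1).mul_right_eq_zero.mp (by
      rw [hX, hX']; linear_combination -e01)
  have h10 : U 1 0 = 0 :=
    (hunit (X 0 0) (X' 1 1) (res 0 0).1 (res 1 1).2).mul_right_eq_zero.mp (by
      rw [hX, hX']; linear_combination e10)
  have e21 := congrFun (congrFun ey 1) 0
  simp only [Matrix.mul_apply, Fin.sum_univ_two, h10, hr.2.2, hr'.2.2, mul_one, one_mul, zero_mul,
    mul_zero, add_zero, zero_add] at e21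
  have hscal : U = U 0 0 • (1 : M2 A) := by
    ext i j
    fin_cases i <;> fin_cases j <;> simp [h01, h10, e21]
  have hu : IsUnit (U 0 0) := by
    have := (Matrix.isUnit_iff_isUnit_det _).mp hU
    rw [Matrix.det_fin_two, h01, zero_mul, sub_zero] at this
    exact isUnit_of_mul_isUnit_left this
  refine MonoidHom.ext fun σ => ?_
  have := h σ
  rw [hscal, Matrix.smul_mul, Matrix.mul_smul, one_mul, mul_one] at this
  exact hu.smul_left_cancel.mp this

/-- Existence of a normalised representative. -/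
theorem exists_isNormal [HenselianRing A (maximalIdeal A)] {F : Frame O} {r : GQ →* M2 A}
    (hc : IsContRep r) (hF : F.Adapted (mapRep (residue A) r)) :
    ∃ (r' : GQ →* M2 A) (hc' : IsContRep r'), (ofMatrix r hc).IsEquiv (ofMatrix r' hc') ∧
      mapRep (residue A) r' = mapRep (residue A) r ∧ F.IsNormal r' := by
  set X := evalComb F.cx r with hX
  have res : ∀ i j, residue A (X i j) = (!![1, 0; 0, 0] : M2 (ResidueField A)) i j := fun i j => by
    rw [← hF.1, evalComb_residue]; rfl
  have hm : ∀ a : A, residue A a = 0 → a ∈ maximalIdeal A := fun a h =>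
    (residue_eq_zero_iff a).mp h
  -- an eigenvalue congruent to `1`
  obtain ⟨lam, hlam, hlam1⟩ := HenselianRing.is_henselian (I := maximalIdeal A)
    (Polynomial.X ^ 2 - Polynomial.C (X 0 0 + X 1 1) * Polynomial.X +
      Polynomial.C (X 0 0 * X 1 1 - X 0 1 * X 1 0))
    (by monicity!) 1 (hm _ (by simp [res]))
    (by
      apply IsUnit.map
      apply (inferInstance : IsLocalHom (residue A)).map_nonunit
      simp [res, one_add_one_eq_two, map_ofNat]
      norm_num)
  simp only [Polynomial.IsRoot, Polynomial.eval_add, Polynomial.eval_sub, Polynomial.eval_pow,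
    Polynomial.eval_X, Polynomial.eval_mul, Polynomial.eval_C] at hlam
  have hl1 : residue A lam = 1 := by
    have := (residue_eq_zero_iff _).mpr hlam1
    rwa [map_sub, map_one, sub_eq_zero] at this
  -- change of basis to eigenvectors
  set mu := X 0 0 + X 1 1 - lam with hmu
  let P : M2 A := !![X 0 0 - mu, -X 0 1; X 1 0, lam - X 1 1]
  have hPres : (residue A).mapMatrix P = 1 := by
    ext i j
    fin_cases i <;> fin_cases j <;> simp [P, hmu, res, hl1]
  have hPu : IsUnit P := by
    rw [Matrix.isUnit_iff_isUnit_det]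
    apply (inferInstance : IsLocalHom (residue A)).map_nonunit
    rw [RingHom.map_det, hPres, Matrix.det_one]
    exact isUnit_one
  obtain ⟨p, hp⟩ := hPu
  have hXP : X * P = P * !![lam, 0; 0, mu] := by
    ext i j
    fin_cases i <;> fin_cases j <;>
      simp [P, Matrix.mul_apply, Fin.sum_univ_two, hmu]
    · linear_combination -hlam
    · ring
    · ring
    · linear_combination hlam
  set Y := ((p⁻¹ : (M2 A)ˣ) : M2 A) * evalComb F.cy r * P with hY
  have hpres : (residue A).mapMatrix ((p⁻¹ : (M2 A)ˣ) : M2 A) = 1 := by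
    have h := congrArg (residue A).mapMatrix (Units.inv_mul p)
    rwa [map_mul, hp, hPres, mul_one, map_one] at h
  have hY1 : residue A (Y 1 0) = 1 := by
    show (residue A).mapMatrix Y 1 0 = 1
    rw [hY, map_mul, map_mul, hPres, hpres, one_mul, mul_one, ← evalComb_residue, hF.2]
    rfl
  obtain ⟨v, hv⟩ : IsUnit (Y 1 0) :=
    (inferInstance : IsLocalHom (residue A)).map_nonunit _ (by rw [hY1]; exact isUnit_one)
  -- the final change of basis
  let d : (M2 A)ˣ :=
    { val := !![1, 0; 0, (v : A)]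
      inv := !![1, 0; 0, ((v⁻¹ : Aˣ) : A)]
      val_inv := by ext i j; fin_cases i <;> fin_cases j <;> simp [Matrix.mul_apply]
      inv_val := by ext i j; fin_cases i <;> fin_cases j <;> simp [Matrix.mul_apply] }
  let q : (M2 A)ˣ := p * d
  let r' : GQ →* M2 A :=
    { toFun := fun σ => ((q⁻¹ : (M2 A)ˣ) : M2 A) * r σ * (q : M2 A)
      map_one' := by rw [map_one, mul_one, Units.inv_mul]
      map_mul' := fun σ τ => by
        rw [map_mul]
        simp [mul_assoc] }
  have hc' : IsContRep r' := by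
    intro n
    obtain ⟨L, hL, hn⟩ := hc n
    refine ⟨L, hL, fun σ hσ i l => ?_⟩
    have : r' σ - 1 = ((q⁻¹ : (M2 A)ˣ) : M2 A) * (r σ - 1) * (q : M2 A) := by
      rw [mul_sub, sub_mul, mul_one, Units.inv_mul]
      rfl
    rw [this, Matrix.mul_apply]
    refine Ideal.sum_mem _ fun p _ => Ideal.mul_mem_right _ _ ?_
    rw [Matrix.mul_apply]
    exact Ideal.sum_mem _ fun q _ => Ideal.mul_mem_left _ _ (hn σ hσ q p)
  have hqr : ∀ σ, ((q⁻¹ : (M2 A)ˣ) : M2 A) * r σ = r' σ * ((q⁻¹ : (M2 A)ˣ) : M2 A) := fun σ => by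
    show _ = _ * _ * (q : M2 A) * _
    rw [Units.mul_inv_cancel_right]
  have hev : ∀ c : GQ →₀ O, evalComb c r' = ((q⁻¹ : (M2 A)ˣ) : M2 A) * evalComb c r * (q : M2 A) := fun c => by
    rw [evalComb_intertwine c r r' _ hqr, Units.inv_mul_cancel_right]
  refine ⟨r', hc', (isEquiv_ofMatrix_iff hc hc').mpr ⟨_, Units.isUnit _, hqr⟩, ?_, ?_⟩
  · have hd : (residue A).mapMatrix (d : M2 A) = 1 := by
      have h1 : residue A (v : A) = 1 := by rw [hv]; exact hY1
      ext i j
      fin_cases i <;> fin_cases j <;> simp [d, h1]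
    have hq : (residue A).mapMatrix (q : M2 A) = 1 := by
      rw [Units.val_mul, map_mul, hp, hPres, hd, one_mul]
    have hq' : (residue A).mapMatrix ((q⁻¹ : (M2 A)ˣ) : M2 A) = 1 := by
      have h := congrArg (residue A).mapMatrix (Units.inv_mul q)
      rwa [map_mul, hq, mul_one, map_one] at h
    ext σ : 1
    show (residue A).mapMatrix (_ * r σ * _) = (residue A).mapMatrix (r σ)
    rw [map_mul, map_mul, hq, hq', one_mul, mul_one]
  · have hxd : evalComb F.cx r' = !![lam, 0; 0, mu] := by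
      rw [hev, ← hX]
      have : X * (q : M2 A) = (q : M2 A) * !![lam, 0; 0, mu] := by
        rw [Units.val_mul, ← mul_assoc, hp, hXP, mul_assoc, mul_assoc]
        congr 1
        ext i j
        fin_cases i <;> fin_cases j <;> simp [d, Matrix.mul_apply, mul_comm]
      rw [mul_assoc, this, Units.inv_mul_cancel_left]
    have hyd : evalComb F.cy r' = ((d⁻¹ : (M2 A)ˣ) : M2 A) * Y * (d : M2 A) := by
      rw [hev, hY, ← hp, mul_inv_rev, Units.val_mul, Units.val_mul]
      simp only [mul_assoc]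
    refine ⟨by rw [hxd]; rfl, by rw [hxd]; rfl, ?_⟩
    rw [hyd]
    show ((!![1, 0; 0, ((v⁻¹ : Aˣ) : A)] : M2 A) * Y * !![1, 0; 0, (v : A)]) 1 0 = 1
    simp [Matrix.mul_apply, Matrix.vecMul, dotProduct, Fin.sum_univ_two]
    rw [← hv]

end Frame

end FA.Deform
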