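import Fermat.Prelude.Def_GaloisRep_DeformationCondition
import Fermat.Agent.Deform.MatrixRep

/-!
# Artinian test algebras and residually fixed matrix representations
-/

set_option autoImplicit false

noncomputable section

open IsLocalRing

namespace FA.Deform

variable (O : Type) [CommRing O] [IsLocalRing O]

/-- Complete or Artinian local algebras with the residue field of the base. -/
structure IsCoeff (A : Type) [CommRing A] [IsLocalRing A] [Algebra O A] : Prop where
  isLocalHom : IsLocalHom (algebraMap O A)
  residue_surjective : Function.Surjective (residue A ∘ algebraMap O A)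

variable {O}

omit [IsLocalRing O] in
lemma isCoeff_of_test {A : Type} [CommRing A] [IsLocalRing A] [Algebra O A]
    (h : GaloisRep.IsArtinianTestAlgebra O A) : IsCoeff O A :=
  ⟨h.isLocalHom, h.residue_surjective⟩

lemma exists_maximalIdeal_pow_eq_bot (A : Type) [CommRing A] [IsLocalRing A]
    (h : IsArtinianRing A) : ∃ n : ℕ, maximalIdeal A ^ (n + 1) = ⊥ := by
  obtain ⟨n, hn⟩ := IsArtinianRing.isNilpotent_jacobson_bot (R := A)
  refine ⟨n, ?_⟩
  rw [jacobson_eq_maximalIdeal ⊥ bot_ne_top] at hn
  rw [pow_succ, hn]
  simp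

/-- Maps out of Artinian local rings into local rings are local. -/
lemma isLocalHom_of_isArtinian {A B : Type} [CommRing A] [IsLocalRing A] [CommRing B] [IsLocalRing B]
    (h : IsArtinianRing A) (φ : A →+* B) : IsLocalHom φ := by
  refine ⟨fun a ha => ?_⟩
  by_contra hna
  obtain ⟨n, hn⟩ := exists_maximalIdeal_pow_eq_bot A h
  have : a ^ (n + 1) = 0 := by
    rw [← Ideal.mem_bot, ← hn]
    exact Ideal.pow_mem_pow hna _
  have := congrArg φ this
  rw [map_pow, map_zero] at this
  exact not_isUnit_zero (this ▸ ha.pow (n + 1))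

lemma IsContRep.exists_eq_one {A : Type} [CommRing A] [IsLocalRing A] (hA : IsArtinianRing A)
    {r : GQ →* M2 A} (h : IsContRep r) :
    ∃ L : IntermediateField ℚ (AlgebraicClosure ℚ), FiniteDimensional ℚ L ∧
      ∀ σ : GQ, (∀ x ∈ L, σ x = x) → r σ = 1 := by
  obtain ⟨n, hn⟩ := exists_maximalIdeal_pow_eq_bot A hA
  obtain ⟨L, hL, hr⟩ := h (n + 1)
  refine ⟨L, hL, fun σ hσ => sub_eq_zero.mp ?_⟩
  ext i j
  simpa [hn] using hr σ hσ i j

lemma isContRep_of_eq_one {A : Type} [CommRing A] [IsLocalRing A] {r : GQ →* M2 A}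
    (h : ∃ L : IntermediateField ℚ (AlgebraicClosure ℚ), FiniteDimensional ℚ L ∧
      ∀ σ : GQ, (∀ x ∈ L, σ x = x) → r σ = 1) : IsContRep r := fun n => by
  obtain ⟨L, hL, hr⟩ := h
  exact ⟨L, hL, fun σ hσ i j => by simp [hr σ hσ]⟩

/-- The map of residue fields attached to an algebra with local structure map. -/
def resMap (A : Type) [CommRing A] [IsLocalRing A] [Algebra O A] (h : IsLocalHom (algebraMap O A)) :
    ResidueField O →+* ResidueField A :=
  haveI := h
  ResidueField.map (algebraMap O A)

lemma resMap_residue {A : Type} [CommRing A] [IsLocalRing A] [Algebra O A]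
    (h : IsLocalHom (algebraMap O A)) (c : O) :
    resMap A h (residue O c) = residue A (algebraMap O A c) := rfl

lemma resMap_comp_algebraMap {A : Type} [CommRing A] [IsLocalRing A] [Algebra O A]
    (h : IsLocalHom (algebraMap O A)) :
    (resMap A h).comp (algebraMap O (ResidueField O)) = algebraMap O (ResidueField A) := rfl

variable (ρbar : ResidualGaloisRep (ResidueField O))

/-- A matrix representation reduces to the chosen matrices of `ρbar`. -/
def IsLift {A : Type} [CommRing A] [IsLocalRing A] [Algebra O A] (hA : IsCoeff O A)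
    (r : GQ →* M2 A) : Prop :=
  mapRep (residue A) r = mapRep (resMap A hA.isLocalHom) (resMatrix ρbar)

variable {ρbar}

lemma IsLift.map {A B : Type} [CommRing A] [IsLocalRing A] [Algebra O A] [CommRing B]
    [IsLocalRing B] [Algebra O B] {hA : IsCoeff O A} {hB : IsCoeff O B} (φ : A →ₐ[O] B)
    [IsLocalHom (φ : A →+* B)] {r : GQ →* M2 A} (h : IsLift ρbar hA r) :
    IsLift ρbar hB (mapRep (φ : A →+* B) r) := by
  refine MonoidHom.ext fun σ => Matrix.ext fun i j => ?_
  have h' : residue A (r σ i j) = resMap A hA.isLocalHom (resMatrix ρbar σ i j) :=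
    congrFun (congrFun (DFunLike.congr_fun h σ) i) j
  obtain ⟨c, hc⟩ := residue_surjective (resMatrix ρbar σ i j)
  rw [← hc, resMap_residue] at h'
  rw [mapRep_apply, mapRep_apply, mapRep_apply, ← hc, resMap_residue,
    ← ResidueField.map_residue (φ : A →+* B), h', ResidueField.map_residue]
  simp

lemma IsLift.adapted {A : Type} [CommRing A] [IsLocalRing A] [Algebra O A] {hA : IsCoeff O A}
    {F : Frame O} (hF : F.Adapted (resMatrix ρbar)) {r : GQ →* M2 A} (h : IsLift ρbar hA r) :
    F.Adapted (mapRep (residue A) r) := by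
  rw [show mapRep (residue A) r = _ from h]
  constructor
  · rw [evalComb_map _ (resMap_comp_algebraMap hA.isLocalHom), hF.1]
    ext i j
    fin_cases i <;> fin_cases j <;> simp
  · rw [evalComb_map _ (resMap_comp_algebraMap hA.isLocalHom), hF.2]
    ext i j
    fin_cases i <;> fin_cases j <;> simp

/-- Absolute irreducibility gives a frame. -/
theorem exists_frame (habs : ρbar.IsAbsolutelyIrreducible) :
    ∃ F : Frame O, F.Adapted (resMatrix ρbar) := by
  classical
  let k := ResidueField O
  let K := AlgebraicClosure k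
  let r₀ := resMatrix ρbar
  let rK := mapRep (algebraMap k K) r₀
  have htopK : Submodule.span K (Set.range rK) = ⊤ := by
    refine eq_top_of_no_invariant_line _ (Submodule.subset_span ⟨1, map_one rK⟩) ?_ ?_
    · intro a ha b hb
      induction ha, hb using Submodule.span_induction₂ with
      | mem_mem x y hx hy =>
        obtain ⟨σ, rfl⟩ := hx
        obtain ⟨τ, rfl⟩ := hy
        exact Submodule.subset_span ⟨σ * τ, map_mul rK σ τ⟩
      | zero_left y _ => simp
      | zero_right x _ => simp
      | add_left x y z _ _ _ h1 h2 => rw [add_mul]; exact add_mem h1 h2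
      | add_right x y z _ _ _ h1 h2 => rw [mul_add]; exact add_mem h1 h2
      | smul_left c x y _ _ h1 => rw [Matrix.smul_mul]; exact Submodule.smul_mem _ c h1
      | smul_right c x y _ _ h1 => rw [Matrix.mul_smul]; exact Submodule.smul_mem _ c h1
    · intro v hv
      by_contra hcon
      push Not at hcon
      let b : Module.Basis (Fin 2) K (ρbar.baseChange K).V :=
        Algebra.TensorProduct.basis K (resBasis ρbar)
      have hmat : ∀ σ, LinearMap.toMatrix b b ((ρbar.baseChange K).ρ σ) = rK σ := fun σ =>
        LinearMap.toMatrix_baseChange _ _ _ _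
      let w := b.equivFun.symm v
      have hw : w ≠ 0 := b.equivFun.symm.map_ne_zero_iff.mpr hv
      have hstab : ∀ σ, ∀ x ∈ K ∙ w, (ρbar.baseChange K).ρ σ x ∈ K ∙ w := by
        intro σ x hx
        obtain ⟨c, rfl⟩ := Submodule.mem_span_singleton.mp hx
        obtain ⟨d, hd⟩ := hcon (rK σ) (Submodule.subset_span ⟨σ, rfl⟩)
        rw [map_smul]
        refine Submodule.smul_mem _ _ (Submodule.mem_span_singleton.mpr ⟨d, ?_⟩)
        apply b.equivFun.injective
        rw [map_smul, Module.Basis.equivFun_apply b ((ρbar.baseChange K).ρ σ w),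
          ← LinearMap.toMatrix_mulVec_repr b b, hmat, ← Module.Basis.equivFun_apply,
          LinearEquiv.apply_symm_apply, hd]
      rcases habs (K ∙ w) hstab with h | h
      · exact hw (Submodule.span_singleton_eq_bot.mp h)
      · have h1 : Module.finrank K (K ∙ w) = 1 := finrank_span_singleton hw
        rw [h, finrank_top, (ρbar.baseChange K).finrank_eq] at h1
        exact absurd h1 (by norm_num)
  have htop : Submodule.span k (Set.range r₀) = ⊤ := by
    by_contra hne
    obtain ⟨f, hf0, hf⟩ := Submodule.exists_le_ker_of_lt_top _ (lt_top_iff_ne_top.mpr hne)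
    apply hf0
    let fK : M2 K →ₗ[K] K := ∑ i, ∑ j,
      (algebraMap k K (f (Matrix.single i j 1))) • Matrix.entryLinearMap K K i j
    have hfK : ∀ M : M2 k, fK ((algebraMap k K).mapMatrix M) = algebraMap k K (f M) := by
      intro M
      conv_rhs => rw [Matrix.matrix_eq_sum_single M]
      simp only [fK, LinearMap.sum_apply, LinearMap.smul_apply, Matrix.entryLinearMap_apply,
        RingHom.mapMatrix_apply, Matrix.map_apply, smul_eq_mul, map_sum]
      refine Finset.sum_congr rfl fun i _ => Finset.sum_congr rfl fun j _ => ?_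
      rw [show Matrix.single i j (M i j) = M i j • Matrix.single i j (1 : k) by
        rw [Matrix.smul_single, smul_eq_mul, mul_one], map_smul, smul_eq_mul, map_mul, mul_comm]
    have hz : ∀ M, fK M = 0 := by
      intro M
      have hM : M ∈ Submodule.span K (Set.range rK) := htopK ▸ Submodule.mem_top
      refine (Submodule.span_le.mpr ?_ hM : M ∈ LinearMap.ker fK)
      rintro _ ⟨σ, rfl⟩
      show fK ((algebraMap k K).mapMatrix (r₀ σ)) = 0
      rw [hfK, show f (r₀ σ) = 0 from hf (Submodule.subset_span ⟨σ, rfl⟩), map_zero]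
    refine LinearMap.ext fun M => ?_
    have := hfK M
    rw [hz] at this
    exact (algebraMap k K).injective (by rw [← this, LinearMap.zero_apply, map_zero])
  choose s hs using residue_surjective (R := O)
  let s' : k → O := Function.update s 0 0
  have hs'0 : s' 0 = 0 := Function.update_self 0 0 s
  have hs' : ∀ a, residue O (s' a) = a := fun a => by
    rcases eq_or_ne a 0 with rfl | ha
    · rw [hs'0, map_zero]
    · simp only [s', Function.update_of_ne ha]; exact hs a
  have key : ∀ E : M2 k, ∃ c : GQ →₀ O, evalComb c r₀ = E := by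
    intro E
    obtain ⟨c, hc⟩ := Finsupp.mem_span_range_iff_exists_finsupp.mp
      (htop ▸ Submodule.mem_top (x := E) : E ∈ Submodule.span k (Set.range r₀))
    refine ⟨c.mapRange s' hs'0, ?_⟩
    rw [evalComb, Finsupp.sum_mapRange_index (fun g => by simp), ← hc]
    refine Finsupp.sum_congr fun g _ => ?_
    rw [ResidueField.algebraMap_eq, hs']
  obtain ⟨cx, hcx⟩ := key !![1, 0; 0, 0]
  obtain ⟨cy, hcy⟩ := key !![0, 0; 1, 0]
  exact ⟨⟨cx, cy⟩, hcx, hcy⟩

end FA.Deform
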