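import Mathlib
import Fermat.Prelude.Def_CuspForm_HeckeAlgebra
import Fermat.Prelude.Def_CuspForm_IntegralLattice
import Fermat.Prelude.Def_CuspForm_IntegralStructure
import Fermat.Prelude.Thm_CongruenceSubgroup_one_mem_strictPeriods_Gamma0
import Fermat.Prelude.Thm_CuspForm_intLattice_fg
import Fermat.Prelude.Thm_CuspForm_mem_intLattice_of_mem_heckeAlgebra
import Fermat.Prelude.Thm_ModularFormClass_qCoeff_heckeT
import Fermat.Prelude.Thm_ModularFormClass_qCoeff_heckeU
import Fermat.Prelude.Thm_UpperHalfPlane_eq_of_forall_qCoeff_eq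

/-!
# The Deligne–Serre lifting lemma for `S₂(Γ₀(N))`
-/

set_option autoImplicit false

noncomputable section

open CongruenceSubgroup

namespace FA.Deform

/-- A common eigenvector whose character has kernel inside a given prime. -/
theorem exists_eigenvector_of_prime {T : Type*} [CommRing T] {V : Type*} [AddCommGroup V]
    [Module ℂ V] [FiniteDimensional ℂ V] (act : T →+* Module.End ℂ V)
    (m : Ideal T) [hm : m.IsPrime] (hker : ∀ t, act t = 0 → t ∈ m) :
    ∃ (v : V) (χ : T →+* ℂ), v ≠ 0 ∧ (∀ t, act t v = χ t • v) ∧ RingHom.ker χ ≤ m := by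
  classical
  let P : ℕ → Prop := fun d => ∃ W : Submodule ℂ V, Module.finrank ℂ W = d ∧
    (∀ t, ∀ w ∈ W, act t w ∈ W) ∧ (∀ t, (∀ w ∈ W, act t w = 0) → t ∈ m)
  have hP : ∃ d, P d :=
    ⟨_, ⊤, rfl, fun _ _ _ => Submodule.mem_top,
      fun t h => hker t (LinearMap.ext fun w => h w Submodule.mem_top)⟩
  obtain ⟨W, hW, hst, hann⟩ := Nat.find_spec hP
  have hbot : W ≠ ⊥ := by
    rintro rfl
    exact hm.ne_top ((Ideal.eq_top_iff_one _).mpr (hann 1 fun w hw => by
      rw [(Submodule.mem_bot ℂ).mp hw, map_zero]))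
  have hscal : ∀ t, ∃ c : ℂ, ∀ w ∈ W, act t w = c • w := by
    intro t
    have : Nontrivial W := Submodule.nontrivial_iff_ne_bot.mpr hbot
    let f : W →ₗ[ℂ] W := (act t).restrict (hst t)
    obtain ⟨c, hc⟩ := Module.End.exists_eigenvalue (K := ℂ) f
    obtain ⟨v, hv⟩ := hc.exists_hasEigenvector
    refine ⟨c, ?_⟩
    by_contra hcon
    push Not at hcon
    let g : Module.End ℂ V := act t - c • 1
    have hg : ∀ w, g w = act t w - c • w := fun w => rfl
    have hcomm : ∀ s w, act s (g w) = g (act s w) := by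
      intro s w
      rw [hg, hg, map_sub, map_smul, ← Module.End.mul_apply, ← Module.End.mul_apply, ← map_mul,
        mul_comm, map_mul]
    let W₁ := W ⊓ LinearMap.ker g
    let W₂ := W.map g
    have h2le : W₂ ≤ W := by
      rintro _ ⟨w, hw, rfl⟩
      rw [hg]
      exact W.sub_mem (hst t w hw) (W.smul_mem c hw)
    have h1lt : W₁ < W := by
      refine lt_of_le_of_ne inf_le_left fun h => ?_
      obtain ⟨w, hw, hw'⟩ := hcon
      apply hw'
      have : w ∈ W₁ := h.symm ▸ hw
      have := LinearMap.mem_ker.mp this.2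
      rwa [hg, sub_eq_zero] at this
    have h2lt : W₂ < W := by
      refine lt_of_le_of_ne h2le fun h => ?_
      let g' : W →ₗ[ℂ] W := f - c • 1
      have hinj : ¬ Function.Injective g' := fun hi => hv.2 (hi (by
        rw [map_zero]
        show f v - c • v = 0
        rw [hv.apply_eq_smul, sub_self]))
      apply hinj
      rw [LinearMap.injective_iff_surjective]
      rintro ⟨w, hw⟩
      obtain ⟨u, hu, rfl⟩ : w ∈ W₂ := h.symm ▸ hw
      exact ⟨⟨u, hu⟩, Subtype.ext rfl⟩
    have hno : ∀ U : Submodule ℂ V, U < W → (∀ s, ∀ w ∈ U, act s w ∈ U) →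
        ∃ s, (∀ w ∈ U, act s w = 0) ∧ s ∉ m := by
      intro U hU hUst
      by_contra hcon'
      push Not at hcon'
      exact Nat.find_min hP ((Submodule.finrank_lt_finrank_of_lt hU).trans_eq hW)
        ⟨U, rfl, hUst, hcon'⟩
    obtain ⟨x, hx, hxm⟩ := hno W₁ h1lt fun s w hw => ⟨hst s w hw.1, by
      show g (act s w) = 0
      rw [← hcomm, LinearMap.mem_ker.mp hw.2, map_zero]⟩
    obtain ⟨y, hy, hym⟩ := hno W₂ h2lt (by
      rintro s _ ⟨w, hw, rfl⟩
      exact ⟨act s w, hst s w hw, (hcomm s w).symm⟩)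
    refine (hm.mem_or_mem (hann (x * y) fun w hw => ?_)).elim hxm hym
    rw [map_mul, Module.End.mul_apply]
    exact hx _ ⟨hst y w hw, by
      show g (act y w) = 0
      rw [← hcomm, hy _ ⟨w, hw, rfl⟩]⟩
  choose χ hχ using hscal
  obtain ⟨v, hvW, hv0⟩ := W.ne_bot_iff.mp hbot
  have hu : ∀ {a b : ℂ}, a • v = b • v → a = b := fun h => smul_left_injective ℂ hv0 h
  refine ⟨v,
    { toFun := χ
      map_one' := hu (by rw [← hχ 1 v hvW, map_one, Module.End.one_apply, one_smul])
      map_mul' := fun s t => hu (by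
        rw [← hχ _ v hvW, map_mul, Module.End.mul_apply, hχ t v hvW, map_smul, hχ s v hvW,
          smul_smul, mul_comm])
      map_zero' := hu (by rw [← hχ 0 v hvW, map_zero, LinearMap.zero_apply, zero_smul])
      map_add' := fun s t => hu (by
        rw [← hχ _ v hvW, map_add, LinearMap.add_apply, hχ s v hvW, hχ t v hvW, add_smul]) },
    hv0, fun t => hχ t v hvW, fun t ht => hann t fun w hw => ?_⟩
  rw [hχ t w hw, show χ t = 0 from ht, zero_smul]

variable {N : ℕ}

/-- Coefficients of cusp forms as a linear map. -/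
def qLin (N : ℕ) : CuspForm (Gamma0 N) 2 →ₗ[ℂ] (ℕ → ℂ) where
  toFun f := ModularFormClass.qCoeff f
  map_add' f g := by
    funext n
    have h := ModularForm.qExpansion_add one_pos (one_mem_strictPeriods_Gamma0 N) f g
    simpa [ModularFormClass.qCoeff] using congrArg (PowerSeries.coeff n) h
  map_smul' c f := by
    funext n
    have h := ModularForm.qExpansion_smul one_pos (one_mem_strictPeriods_Gamma0 N) c f
    simpa [ModularFormClass.qCoeff] using congrArg (PowerSeries.coeff n) h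

lemma qLin_apply (f : CuspForm (Gamma0 N) 2) (n : ℕ) :
    qLin N f n = ModularFormClass.qCoeff f n := rfl

lemma qLin_zero_apply (f : CuspForm (Gamma0 N) 2) : qLin N f 0 = 0 :=
  CuspFormClass.qExpansion_coeff_zero f one_pos (one_mem_strictPeriods_Gamma0 N)

lemma qLin_injective : Function.Injective (qLin N) := by
  intro f g h
  have : Fact (IsCusp OnePoint.infty
      ((Gamma0 N).map (Matrix.SpecialLinearGroup.mapGL ℝ))) :=
    ⟨Subgroup.isCusp_of_mem_strictPeriods one_pos (one_mem_strictPeriods_Gamma0 N)⟩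
  apply DFunLike.coe_injective
  refine UpperHalfPlane.eq_of_forall_qCoeff_eq ?_ (CuspFormClass.holo f) ?_ ?_
    (CuspFormClass.holo g) ?_ (fun n => congrFun h n)
  · exact_mod_cast SlashInvariantFormClass.periodic_comp_ofComplex f (one_mem_strictPeriods_Gamma0 N)
  · exact ModularFormClass.bdd_at_infty f
  · exact_mod_cast SlashInvariantFormClass.periodic_comp_ofComplex g (one_mem_strictPeriods_Gamma0 N)
  · exact ModularFormClass.bdd_at_infty g

lemma qLin_heckeT {p : ℕ} (hp : p.Prime) (hpN : ¬ p ∣ N) (f : CuspForm (Gamma0 N) 2) (n : ℕ) :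
    qLin N (CuspForm.heckeTLin 2 hp hpN f) n =
      qLin N f (n * p) + if p ∣ n then (p : ℂ) * qLin N f (n / p) else 0 := by
  rw [qLin_apply, CuspForm.coe_heckeTLin_apply,
    ModularFormClass.qCoeff_heckeT f (one_mem_strictPeriods_Gamma0 N) hp.ne_zero,
    ModularForm.coeffHeckeT_apply]
  norm_num
  rfl

lemma qLin_heckeU [NeZero N] {p : ℕ} (hp : p.Prime) (hpN : p ∣ N) (f : CuspForm (Gamma0 N) 2)
    (n : ℕ) : qLin N (CuspForm.heckeULin 2 hpN f) n = qLin N f (n * p) := by
  rw [qLin_apply, CuspForm.coe_heckeULin_apply,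
    ModularFormClass.qCoeff_heckeU f (one_mem_strictPeriods_Gamma0 N) hp.ne_zero,
    ModularForm.coeffHeckeU_apply]
  rfl

/-- The weight-2 correction factor at a prime. -/
def cor (N p : ℕ) : ℂ := if p ∣ N then 0 else p

/-- Coefficients of a simultaneous eigenform: multiplicativity. -/
lemma mul_of_coprime_of_rec {c : ℕ → ℂ} {e lam : ℕ → ℂ} (h0 : c 0 = 0) (h1 : c 1 = 1)
    (hrec : ∀ p : ℕ, p.Prime → ∀ n,
      c (n * p) + (if p ∣ n then e p * c (n / p) else 0) = lam p * c n) :
    ∀ m n : ℕ, m.Coprime n → c (m * n) = c m * c n := by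
  intro m
  induction m using Nat.strong_induction_on with
  | _ m ih =>
    intro n hcop
    rcases Nat.eq_zero_or_pos m with rfl | hmpos
    · simp [h0]
    rcases eq_or_ne m 1 with rfl | hne
    · simp [h1]
    obtain ⟨p, hp, hpm⟩ := Nat.exists_prime_and_dvd hne
    obtain ⟨m', rfl⟩ := hpm
    have hpn : ¬ p ∣ n := fun h =>
      hp.ne_one (Nat.eq_one_of_dvd_coprimes hcop (dvd_mul_right p m') h)
    have hm' : 0 < m' := Nat.pos_of_mul_pos_left hmpos
    have hlt : m' < p * m' := lt_mul_of_one_lt_left hm' hp.one_lt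
    have hcop' : m'.Coprime n := hcop.coprime_mul_left
    have e1 := hrec p hp (m' * n)
    have e2 := hrec p hp m'
    rw [show m' * n * p = p * m' * n by ring, ih m' hlt n hcop'] at e1
    rw [mul_comm m' p] at e2
    by_cases hpm' : p ∣ m'
    · rw [if_pos (hpm'.mul_right n)] at e1
      rw [if_pos hpm'] at e2
      have hlt' : m' / p < p * m' := (Nat.div_le_self _ _).trans_lt hlt
      rw [show m' * n / p = m' / p * n from Nat.mul_div_right_comm hpm' n,
        ih _ hlt' n (hcop'.coprime_dvd_left (Nat.div_dvd_of_dvd hpm'))] at e1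
      linear_combination e1 - c n * e2
    · rw [if_neg (fun h => (hp.dvd_mul.mp h).elim hpm' hpn)] at e1
      rw [if_neg hpm'] at e2
      linear_combination e1 - c n * e2

/-- A scaled simultaneous eigenvector is a normalised eigenform. -/
theorem exists_normalized_of_eigen [NeZero N] {v : CuspForm (Gamma0 N) 2} (hv : v ≠ 0)
    (χ : CuspForm.heckeAlgebra N 2 ∅ →+* ℂ)
    (heig : ∀ t : CuspForm.heckeAlgebra N 2 ∅,
      (t : Module.End ℂ (CuspForm (Gamma0 N) 2)) v = χ t • v) :
    ∃ f : CuspForm (Gamma0 N) 2, f.IsNormalizedEigenform ∧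
      ∀ (ℓ : ℕ) (hℓ : ℓ.Prime) (hℓN : ¬ ℓ ∣ N), ModularFormClass.qCoeff f ℓ =
        χ (CuspForm.heckeAlgebra.T hℓ hℓN (Set.notMem_empty _)) := by
  classical
  let lam : ℕ → ℂ := fun p => if hp : p.Prime then
    (if h : p ∣ N then χ (CuspForm.heckeAlgebra.U hp h (Set.notMem_empty _))
      else χ (CuspForm.heckeAlgebra.T hp h (Set.notMem_empty _))) else 0
  have hrec : ∀ p : ℕ, p.Prime → ∀ n,
      qLin N v (n * p) + (if p ∣ n then cor N p * qLin N v (n / p) else 0) = lam p * qLin N v n := by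
    intro p hp n
    by_cases hpN : p ∣ N
    · have h := congrArg (fun w => qLin N w n) (heig (CuspForm.heckeAlgebra.U hp hpN
        (Set.notMem_empty _)))
      simp only [CuspForm.heckeAlgebra.coe_U, map_smul, Pi.smul_apply, smul_eq_mul,
        qLin_heckeU hp hpN] at h
      simpa [lam, hp, hpN, cor] using h
    · have h := congrArg (fun w => qLin N w n) (heig (CuspForm.heckeAlgebra.T hp hpN
        (Set.notMem_empty _)))
      simp only [CuspForm.heckeAlgebra.coe_T, map_smul, Pi.smul_apply, smul_eq_mul,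
        qLin_heckeT hp hpN] at h
      simpa [lam, hp, hpN, cor] using h
  have hc1 : qLin N v 1 ≠ 0 := by
    intro h1
    apply hv
    apply qLin_injective
    funext n
    induction n using Nat.strong_induction_on with
    | _ n ih =>
      rw [map_zero, Pi.zero_apply]
      rcases Nat.eq_zero_or_pos n with rfl | hn
      · exact qLin_zero_apply v
      rcases eq_or_ne n 1 with rfl | hne
      · exact h1
      obtain ⟨p, hp, k, rfl⟩ := Nat.exists_prime_and_dvd hne
      have hk : k < p * k := lt_mul_of_one_lt_left (Nat.pos_of_mul_pos_left hn) hp.one_lt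
      have e := hrec p hp k
      simpa [mul_comm p k, ih k hk, ih _ ((Nat.div_le_self k p).trans_lt hk)] using e
  let f := (qLin N v 1)⁻¹ • v
  have hf : ∀ n, ModularFormClass.qCoeff f n = (qLin N v 1)⁻¹ * qLin N v n := fun n => by
    rw [← qLin_apply, map_smul, Pi.smul_apply, smul_eq_mul]
  let c : ℕ → ℂ := fun n => ModularFormClass.qCoeff f n
  have hone : c 1 = 1 := by simp only [c, hf]; exact inv_mul_cancel₀ hc1
  have hrec' : ∀ p : ℕ, p.Prime → ∀ n,
      c (n * p) + (if p ∣ n then cor N p * c (n / p) else 0) = lam p * c n := by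
    intro p hp n
    have e := hrec p hp n
    simp only [c, hf]
    split_ifs with h
    · rw [if_pos h] at e
      linear_combination (qLin N v 1)⁻¹ * e
    · rw [if_neg h] at e
      linear_combination (qLin N v 1)⁻¹ * e
  have hcp : ∀ p : ℕ, p.Prime → c p = lam p := by
    intro p hp
    have e := hrec' p hp 1
    rwa [one_mul, if_neg (fun h => hp.ne_one (Nat.dvd_one.mp h)), add_zero, hone, mul_one] at e
  have hpow : ∀ p r : ℕ, p.Prime →
      c (p ^ (r + 2)) = c p * c (p ^ (r + 1)) - cor N p * c (p ^ r) := by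
    intro p r hp
    have e := hrec' p hp (p ^ (r + 1))
    rw [if_pos (dvd_pow_self p (Nat.succ_ne_zero r)), pow_succ p r,
      Nat.mul_div_cancel _ hp.pos] at e
    rw [hcp p hp, show p ^ (r + 2) = p ^ r * p * p by ring, pow_succ p r]
    linear_combination e
  refine ⟨f, ⟨hone, mul_of_coprime_of_rec (qLin_zero_apply f) hone hrec',
    fun p r hp hpN => ?_, fun p r hp hpN => ?_⟩, fun ℓ hℓ hℓN => ?_⟩
  · simpa [c, cor, hpN] using hpow p r hp
  · simpa [c, cor, hpN] using hpow p r hp
  · exact (hcp ℓ hℓ).trans (by simp [lam, hℓ, hℓN])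

lemma intLattice_int (f : CuspForm (Gamma0 N) 2) (hf : f ∈ CuspForm.intLattice N 2) (n : ℕ) :
    ∃ z : ℤ, qLin N f n = z := by
  induction hf using Submodule.span_induction with
  | mem x hx => exact hx n
  | zero => exact ⟨0, by simp⟩
  | add x y _ _ hx hy =>
    obtain ⟨a, ha⟩ := hx
    obtain ⟨b, hb⟩ := hy
    exact ⟨a + b, by simp [ha, hb]⟩
  | smul z x _ hx =>
    obtain ⟨a, ha⟩ := hx
    refine ⟨z * a, ?_⟩
    rw [map_zsmul, Pi.smul_apply, ha, zsmul_eq_mul]
    push_cast
    rfl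

lemma span_intLattice_eq_top (h : CuspForm.HasIntegralBasis N) :
    Submodule.span ℂ (CuspForm.intLattice N 2 : Set (CuspForm (Gamma0 N) 2)) = ⊤ := by
  refine top_unique (h.ge.trans (Submodule.span_mono fun f hf => Submodule.subset_span fun n => ?_))
  obtain ⟨z, hz⟩ := Subring.mem_bot.mp (hf n)
  exact ⟨z, hz.symm⟩

lemma finite_of_hasIntegralBasis [NeZero N] (h : CuspForm.HasIntegralBasis N) :
    FiniteDimensional ℂ (CuspForm (Gamma0 N) 2) := by
  obtain ⟨s, hs⟩ := CuspForm.intLattice_fg N 2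
  refine ⟨⟨s, top_unique ?_⟩⟩
  rw [← span_intLattice_eq_top h, ← hs, Submodule.span_le]
  exact (Submodule.span_le_restrictScalars ℤ ℂ (s : Set (CuspForm (Gamma0 N) 2)) :)

/-- Every Hecke operator is integral over `ℤ`. -/
lemma isIntegral_heckeAlgebra [NeZero N] (h : CuspForm.HasIntegralBasis N)
    (t : CuspForm.heckeAlgebra N 2 ∅) : IsIntegral ℤ t := by
  let L := CuspForm.intLattice N 2
  have : Module.Finite ℤ L := Module.Finite.iff_fg.mpr (CuspForm.intLattice_fg N 2)
  let res : CuspForm.heckeAlgebra N 2 ∅ →+* Module.End ℤ L :=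
    { toFun := fun s => ((s : Module.End ℂ (CuspForm (Gamma0 N) 2)).restrictScalars ℤ).restrict
        (fun x hx => CuspForm.mem_intLattice_of_mem_heckeAlgebra one_le_two s.2 hx)
      map_one' := rfl
      map_mul' := fun _ _ => rfl
      map_zero' := rfl
      map_add' := fun _ _ => rfl }
  have hinj : Function.Injective res := by
    intro a b hab
    apply Subtype.ext
    refine LinearMap.ext_on (span_intLattice_eq_top h) fun x hx => ?_
    exact congrArg Subtype.val (LinearMap.congr_fun hab ⟨x, hx⟩)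
  obtain ⟨p, hp, -, hpt⟩ := LinearMap.exists_monic_and_natDegree_eq_and_aeval_eq_zero ℤ (res t)
  refine ⟨p, hp, hinj ?_⟩
  rw [map_zero, Polynomial.hom_eval₂, ← hpt, Polynomial.aeval_def]
  congr 1

/-- The Deligne–Serre lifting lemma. -/
theorem exists_eigenform_congruent [NeZero N] (h : CuspForm.HasIntegralBasis N) {q : ℕ}
    (hq : q.Prime) {b : ℕ → ℤ} (f₀ : CuspForm (Gamma0 N) 2) (hf₀ : f₀ ∈ CuspForm.intLattice N 2)
    (h1 : ∀ z : ℤ, qLin N f₀ 1 = (z : ℂ) → ¬ (q : ℤ) ∣ z)
    (heig : ∀ (ℓ : ℕ) (hℓ : ℓ.Prime) (hℓN : ¬ ℓ ∣ N) (n : ℕ), ∃ z : ℤ,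
      qLin N (CuspForm.heckeTLin 2 hℓ hℓN f₀ - (b ℓ : ℂ) • f₀) n = ((q * z : ℤ) : ℂ)) :
    ∃ f : CuspForm (Gamma0 N) 2, f.IsNormalizedEigenform ∧
      ∃ m' : Ideal (integralClosure ℤ ℂ), m'.IsMaximal ∧
        ((q : ℕ) : integralClosure ℤ ℂ) ∈ m' ∧
        ∀ (ℓ : ℕ) (_ : ℓ.Prime) (_ : ¬ ℓ ∣ N),
          ∃ c : integralClosure ℤ ℂ, (c : ℂ) = ModularFormClass.qCoeff f ℓ ∧
            c - (b ℓ : integralClosure ℤ ℂ) ∈ m' := by
  let T := CuspForm.heckeAlgebra N 2 ∅
  let act : T →+* Module.End ℂ (CuspForm (Gamma0 N) 2) := T.val.toRingHom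
  have := finite_of_hasIntegralBasis h
  -- the operators sending `f₀` into `q` times the lattice
  let Dv : CuspForm (Gamma0 N) 2 → Prop := fun g => ∀ n, ∃ z : ℤ, qLin N g n = ((q * z : ℤ) : ℂ)
  have hq0 : (q : ℂ) ≠ 0 := by exact_mod_cast hq.ne_zero
  have hdiv : ∀ g, Dv g → ∃ g', g' ∈ CuspForm.intLattice N 2 ∧ g = (q : ℂ) • g' := by
    intro g hg
    refine ⟨(q : ℂ)⁻¹ • g, Submodule.subset_span fun n => ?_, by rw [smul_smul, mul_inv_cancel₀ hq0, one_smul]⟩
    obtain ⟨z, hz⟩ := hg n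
    refine ⟨z, ?_⟩
    rw [← qLin_apply, map_smul, Pi.smul_apply, hz, smul_eq_mul]
    push_cast
    field_simp
  let I : Ideal T :=
    { carrier := {t | Dv (act t f₀)}
      zero_mem' := fun n => ⟨0, by simp⟩
      add_mem' := fun {a b} ha hb n => by
        obtain ⟨x, hx⟩ := ha n
        obtain ⟨y, hy⟩ := hb n
        refine ⟨x + y, ?_⟩
        rw [map_add, LinearMap.add_apply, map_add, Pi.add_apply, hx, hy]
        push_cast
        ring
      smul_mem' := fun s t ht n => by
        obtain ⟨g, hg, hgt⟩ := hdiv _ ht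
        obtain ⟨z, hz⟩ := intLattice_int _
          (CuspForm.mem_intLattice_of_mem_heckeAlgebra one_le_two s.2 hg) n
        refine ⟨z, ?_⟩
        rw [smul_eq_mul, map_mul, Module.End.mul_apply, hgt, map_smul, map_smul, Pi.smul_apply,
          show act s g = (s : Module.End ℂ (CuspForm (Gamma0 N) 2)) g from rfl, hz, smul_eq_mul]
        push_cast
        ring }
  have hI : I ≠ ⊤ := by
    rw [Ne, Ideal.eq_top_iff_one]
    intro h'
    obtain ⟨z, hz⟩ := h' 1
    rw [map_one, Module.End.one_apply] at hz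
    exact h1 _ hz (dvd_mul_right _ _)
  obtain ⟨m, hmax, hIm⟩ := I.exists_le_maximal hI
  have := hmax.isPrime
  have hqm : (q : T) ∈ m := hIm fun n => by
    obtain ⟨z, hz⟩ := intLattice_int f₀ hf₀ n
    refine ⟨z, ?_⟩
    rw [map_natCast, Module.End.natCast_apply, map_nsmul, Pi.smul_apply, hz, nsmul_eq_mul]
    push_cast
    rfl
  obtain ⟨v, χ, hv, hev, hker⟩ := exists_eigenvector_of_prime act m
    (fun t ht => by rw [show t = 0 from Subtype.ext ht]; exact m.zero_mem)
  obtain ⟨f, hf, hfT⟩ := exists_normalized_of_eigen hv χ hev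
  -- the character lands in the algebraic integers
  let χ' : T →+* integralClosure ℤ ℂ := χ.codRestrict (integralClosure ℤ ℂ).toSubring fun t =>
    (isIntegral_heckeAlgebra h t).map χ.toIntAlgHom
  let : Algebra T (integralClosure ℤ ℂ) := χ'.toAlgebra
  have hZT : IsScalarTower ℤ T (integralClosure ℤ ℂ) := IsScalarTower.of_algebraMap_eq' (RingHom.ext_int _ _)
  have : Algebra.IsIntegral T (integralClosure ℤ ℂ) :=
    ⟨fun x => (Algebra.IsIntegral.isIntegral (R := ℤ) x).tower_top⟩
  obtain ⟨m', hm', hover⟩ :=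
    Ideal.exists_ideal_over_maximal_of_isIntegral (S := integralClosure ℤ ℂ) m (by
      intro t ht
      exact hker (congrArg Subtype.val (RingHom.mem_ker.mp ht)))
  have hmem : ∀ t : T, χ' t ∈ m' ↔ t ∈ m := fun t => by rw [← hover]; rfl
  refine ⟨f, hf, m', hm', ?_, fun ℓ hℓ hℓN => ?_⟩
  · rw [← map_natCast χ', hmem]
    exact hqm
  · refine ⟨χ' (CuspForm.heckeAlgebra.T hℓ hℓN (Set.notMem_empty _)), (hfT ℓ hℓ hℓN).symm, ?_⟩
    rw [← map_intCast χ', ← map_sub, hmem]
    refine hIm fun n => ?_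
    obtain ⟨z, hz⟩ := heig ℓ hℓ hℓN n
    refine ⟨z, ?_⟩
    rw [map_sub, map_intCast, LinearMap.sub_apply, Module.End.intCast_apply,
      ← Int.cast_smul_eq_zsmul ℂ]
    exact hz

end FA.Deform
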