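import Mathlib.RingTheory.Depth.Rees
import Mathlib.RingTheory.Regular.Free
import Mathlib.RingTheory.Ideal.AssociatedPrime.Basic
import Mathlib.RingTheory.Ideal.AssociatedPrime.Finiteness
import Mathlib.RingTheory.MvPowerSeries.Equiv
import Mathlib.RingTheory.MvPowerSeries.NoZeroDivisors
import Mathlib.RingTheory.DiscreteValuationRing.Basic

/-!
# Modules of full depth over a local ring with few generators of the maximal ideal
-/

set_option autoImplicit false

universe u

open IsLocalRing RingTheory.Sequence CategoryTheory CategoryTheory.Abelian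
open scoped Pointwise

namespace FA.Deform

/-- Cutting by any regular element lowers the depth by at most one. -/
lemma exists_isRegular_quotSMulTop {A : Type u} [CommRing A] [IsLocalRing A] [IsNoetherianRing A]
    {N : Type u} [AddCommGroup N] [Module A N] [Module.Finite A N] {n : ℕ} {rs : List A}
    (hlen : rs.length = n + 1) (hmem : ∀ r ∈ rs, r ∈ maximalIdeal A) (hreg : IsRegular N rs)
    {x : A} (hx : x ∈ maximalIdeal A) (hxreg : IsSMulRegular N x) :
    ∃ ss : List A, ss.length = n ∧ (∀ r ∈ ss, r ∈ maximalIdeal A) ∧
      IsRegular (QuotSMulTop x N) ss := by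
  have hnt : Nontrivial N := hreg.nontrivial
  have hlt : maximalIdeal A • (⊤ : Submodule A N) < ⊤ :=
    (Submodule.top_ne_ideal_smul_of_le_jacobson_annihilator
      (IsLocalRing.maximalIdeal_le_jacobson _)).symm.lt_top
  let M := ModuleCat.of A N
  let k := ModuleCat.of A (A ⧸ maximalIdeal A)
  have hsupp : Module.support A k = PrimeSpectrum.zeroLocus (maximalIdeal A : Set A) := by
    show Module.support A (A ⧸ maximalIdeal A) = _
    rw [Module.support_eq_zeroLocus, Ideal.annihilator_quotient]
  have hext : ∀ i < n + 1, Subsingleton (Ext k M i) := fun i hi =>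
    ModuleCat.subsingleton_ext_of_exists_isRegular (maximalIdeal A) k hsupp.subset M hlt rs hmem
      hreg i (hlen ▸ hi)
  have hext' : ∀ i < n, Subsingleton (Ext k (ModuleCat.of A (QuotSMulTop x N)) i) := by
    intro i hi
    have zero1 := AddCommGrpCat.isZero_of_iff_subsingleton.mpr (hext i (by omega))
    have zero2 := AddCommGrpCat.isZero_of_iff_subsingleton.mpr (hext (i + 1) (by omega))
    exact AddCommGrpCat.subsingleton_of_isZero <| ShortComplex.Exact.isZero_of_both_zeros
      ((Ext.covariant_sequence_exact₃' k
        (show IsSMulRegular M x from hxreg).smulShortComplex_shortExact) i (i + 1) rfl)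
      (zero1.eq_zero_of_src _) (zero2.eq_zero_of_tgt _)
  have hntq : Nontrivial (QuotSMulTop x N) := nontrivial_quotSMulTop_of_mem_maximalIdeal N hx
  have hlt' : maximalIdeal A • (⊤ : Submodule A (QuotSMulTop x N)) < ⊤ :=
    (Submodule.top_ne_ideal_smul_of_le_jacobson_annihilator
      (IsLocalRing.maximalIdeal_le_jacobson _)).symm.lt_top
  exact ModuleCat.exists_isRegular_of_exists_subsingleton_ext (maximalIdeal A) n
    (ModuleCat.of A (QuotSMulTop x N)) hlt' k hsupp hext'

/-- A finite module with a regular sequence as long as a generating family of the maximal ideal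
is free. -/
theorem free_of_isRegular_of_span_eq (n : ℕ) : ∀ (A : Type u) [CommRing A] [IsLocalRing A]
    [IsNoetherianRing A] (N : Type u) [AddCommGroup N] [Module A N] [Module.Finite A N]
    (g : Fin n → A), maximalIdeal A = Ideal.span (Set.range g) →
    ∀ rs : List A, rs.length = n → (∀ r ∈ rs, r ∈ maximalIdeal A) → IsRegular N rs →
    Module.Free A N := by
  induction n with
  | zero =>
    intro A _ _ _ N _ _ _ g hg rs _ _ _
    have hbot : maximalIdeal A = ⊥ := by simp [hg]
    let : Field A := (IsLocalRing.isField_iff_maximalIdeal_eq.mpr hbot).toField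
    infer_instance
  | succ n ih =>
    intro A _ _ _ N _ _ _ g hg rs hlen hmem hreg
    have hnt : Nontrivial N := hreg.nontrivial
    obtain ⟨x, hxm, hxsq, hxreg⟩ : ∃ x : A, x ∈ maximalIdeal A ∧ x ∉ maximalIdeal A ^ 2 ∧
        IsSMulRegular N x := by
      match rs, hlen with
      | a :: rs', _ =>
        simp only [isRegular_cons_iff] at hreg
        have ham : a ∈ maximalIdeal A := hmem a List.mem_cons_self
        by_contra hcon
        push Not at hcon
        classical
        have hfin : (associatedPrimes A N).Finite := associatedPrimes.finite A N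
        have hsub : (maximalIdeal A : Set A) ⊆
            ⋃ p ∈ (↑(insert (maximalIdeal A ^ 2) hfin.toFinset) : Set (Ideal A)), (p : Set A) := by
          intro y hy
          by_cases h2 : y ∈ maximalIdeal A ^ 2
          · exact Set.mem_biUnion (by simp) h2
          · have hy' : y ∈ ⋃ p ∈ associatedPrimes A N, (p : Set A) := by
              rw [biUnion_associatedPrimes_eq_compl_regular]
              exact hcon y hy h2
            simp only [Set.mem_iUnion] at hy'
            obtain ⟨p, hp, hyp⟩ := hy'
            exact Set.mem_biUnion (by simp [hp]) hyp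
        obtain ⟨p, hp, hle⟩ := (Ideal.subset_union_prime (maximalIdeal A ^ 2) (maximalIdeal A ^ 2)
          (fun p hp h1 _ => by
            have : p ∈ associatedPrimes A N := by simpa [h1] using hp
            exact this.isPrime)).mp hsub
        rcases Finset.mem_insert.mp hp with rfl | hp
        · have hm : maximalIdeal A = ⊥ :=
            Submodule.eq_bot_of_le_smul_of_le_jacobson_bot (maximalIdeal A) (maximalIdeal A)
              ((isNoetherianRing_iff_ideal_fg A).mp inferInstance _)
              (by simpa [smul_eq_mul, pow_two] using hle)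
              (IsLocalRing.maximalIdeal_le_jacobson _)
          obtain ⟨v, hv⟩ := exists_ne (0 : N)
          apply hv
          apply hreg.1
          simp only [hm, Ideal.mem_bot] at ham
          simp [ham]
        · have hp' : p ∈ associatedPrimes A N := hfin.mem_toFinset.mp hp
          have : a ∈ ⋃ p ∈ associatedPrimes A N, (p : Set A) := Set.mem_biUnion hp' (hle ham)
          rw [biUnion_associatedPrimes_eq_compl_regular] at this
          exact this hreg.1
    obtain ⟨ss, sslen, ssmem, ssreg⟩ := exists_isRegular_quotSMulTop hlen hmem hreg hxm hxreg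
    obtain ⟨c, hc⟩ : ∃ c : Fin (n + 1) → A, ∑ i, c i * g i = x := by
      rw [hg] at hxm
      simpa using (Ideal.mem_span_range_iff_exists_fun.mp hxm)
    obtain ⟨i, hi⟩ : ∃ i, IsUnit (c i) := by
      by_contra hcon
      push Not at hcon
      apply hxsq
      rw [← hc, pow_two]
      refine Ideal.sum_mem _ fun i _ => Ideal.mul_mem_mul (by simpa using hcon i) ?_
      rw [hg]
      exact Ideal.subset_span ⟨i, rfl⟩
    let S := A ⧸ Ideal.span {x}
    have : Nontrivial S := Ideal.Quotient.nontrivial_iff.mpr (by simpa [Ideal.span_singleton_eq_top] using hxm)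
    have : IsLocalRing S := IsLocalRing.of_surjective' (Ideal.Quotient.mk _) Ideal.Quotient.mk_surjective
    have hloc : IsLocalHom (Ideal.Quotient.mk (Ideal.span {x})) :=
      IsLocalHom.of_surjective _ Ideal.Quotient.mk_surjective
    have : IsNoetherianRing S :=
      isNoetherianRing_of_surjective A S (Ideal.Quotient.mk _) Ideal.Quotient.mk_surjective
    let π : A →+* S := Ideal.Quotient.mk _
    have hmax : maximalIdeal S = (maximalIdeal A).map π :=
      (IsLocalRing.map_maximalIdeal_of_surjective π Ideal.Quotient.mk_surjective).symm
    have hg' : maximalIdeal S = Ideal.span (Set.range fun j : Fin n => π (g (i.succAbove j))) := by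
      rw [hmax, hg, Ideal.map_span, ← Set.range_comp]
      apply le_antisymm
      · rw [Ideal.span_le]
        rintro _ ⟨k, rfl⟩
        rcases Fin.eq_self_or_eq_succAbove i k with rfl | ⟨j, rfl⟩
        · have h0 : π (∑ l, c l * g l) = 0 := by
            rw [hc]; exact Ideal.Quotient.eq_zero_iff_mem.mpr (Ideal.mem_span_singleton_self x)
          rw [map_sum, Fin.sum_univ_succAbove _ k] at h0
          simp only [map_mul] at h0
          have hu : IsUnit (π (c k)) := hi.map π
          apply (Ideal.unit_mul_mem_iff_mem _ hu).mp
          simp only [Function.comp_apply]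
          rw [eq_neg_of_add_eq_zero_left h0]
          exact neg_mem (Ideal.sum_mem _ fun l _ =>
            Ideal.mul_mem_left _ _ (Ideal.subset_span ⟨l, rfl⟩))
        · exact Ideal.subset_span ⟨j, rfl⟩
      · apply Ideal.span_mono
        rintro _ ⟨j, rfl⟩
        exact ⟨_, rfl⟩
    have : Module.Finite S (QuotSMulTop x N) := Module.Finite.of_restrictScalars_finite A S _
    have hreg' : IsRegular (QuotSMulTop x N) (ss.map π) := by
      have hmem' : ∀ r ∈ ss.map π, r ∈ maximalIdeal S := by
        simp only [List.mem_map, forall_exists_index, and_imp, forall_apply_eq_imp_iff₂]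
        intro r hr
        rw [hmax]
        exact Ideal.mem_map_of_mem _ (ssmem r hr)
      have : Nontrivial (QuotSMulTop x N) := ssreg.nontrivial
      exact IsRegular.of_isWeaklyRegular_of_mem_maximalIdeal (QuotSMulTop x N) hmem'
        ((isWeaklyRegular_map_algebraMap_iff S (QuotSMulTop x N) ss).mpr ssreg.toIsWeaklyRegular)
    have hfree : Module.Free S (QuotSMulTop x N) := by
      refine ih S (QuotSMulTop x N) _ hg' (ss.map π) (by simpa using sslen) ?_ hreg'
      simp only [List.mem_map, forall_exists_index, and_imp, forall_apply_eq_imp_iff₂]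
      intro r hr
      rw [hmax]
      exact Ideal.mem_map_of_mem _ (ssmem r hr)
    have : Module.FinitePresentation A N := Module.finitePresentation_of_finite A N
    exact (Module.free_quotSMulTop_iff_free A N
      (IsLocalRing.maximalIdeal_le_jacobson _ hxm) hxreg).mp hfree

section PowerSeries

open MvPowerSeries

variable (O : Type u) [CommRing O] [IsDomain O] [IsLocalRing O]

/-- The regular system `X₀, …, X_{r-1}, ϖ` of `O⟦X⟧`. -/
noncomputable def paramList (ϖ : O) (r : ℕ) : List (MvPowerSeries (Fin r) O) :=
  List.ofFn (fun i : Fin r => X i) ++ [C ϖ]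

lemma paramList_spec (ϖ : O) (h0 : ϖ ≠ 0) (hϖ : maximalIdeal O = Ideal.span {ϖ}) :
    ∀ r : ℕ, IsWeaklyRegular (MvPowerSeries (Fin r) O) (paramList O ϖ r) ∧
      maximalIdeal (MvPowerSeries (Fin r) O) = Ideal.ofList (paramList O ϖ r) := by
  intro r
  induction r with
  | zero =>
    have hne : (C ϖ : MvPowerSeries (Fin 0) O) ≠ 0 := fun h => h0 (by
      simpa using congrArg constantCoeff h)
    refine ⟨?_, ?_⟩
    · simp only [paramList, List.ofFn_zero, List.nil_append, isWeaklyRegular_singleton_iff]
      intro a b hab
      exact mul_left_cancel₀ hne hab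
    · ext f
      simp only [paramList, List.ofFn_zero, List.nil_append, Ideal.ofList_singleton,
        IsLocalRing.mem_maximalIdeal, mem_nonunits_iff, Ideal.mem_span_singleton]
      have hf : f = C (constantCoeff f) := ((isEmptyEquiv (Fin 0) O).left_inv f).symm
      constructor
      · intro h
        have hc : constantCoeff f ∈ maximalIdeal O := by
          simpa [MvPowerSeries.isUnit_iff_constantCoeff] using h
        rw [hϖ, Ideal.mem_span_singleton] at hc
        rw [hf]
        exact map_dvd C hc
      · rintro ⟨q, rfl⟩ hu
        rw [MvPowerSeries.isUnit_iff_constantCoeff, map_mul, constantCoeff_C] at hu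
        have : ϖ ∈ maximalIdeal O := hϖ ▸ Ideal.mem_span_singleton_self ϖ
        exact this (isUnit_of_mul_isUnit_left hu)
  | succ r ih =>
    let A := MvPowerSeries (Fin (r + 1)) O
    let B := MvPowerSeries (Fin r) O
    let e : Fin r ↪ Fin (r + 1) := ⟨Fin.succ, Fin.succ_injective r⟩
    let k : A →+* B := (killCompl (R := O) e).toRingHom
    have hksurj : Function.Surjective k := fun b => ⟨rename e b, killCompl_rename_app b⟩
    have hker : RingHom.ker k = Ideal.span {X 0} := by
      ext f
      have hs : f ∈ Ideal.span {(X 0 : A)} ↔
          ∀ m : Fin (r + 1) →₀ ℕ, m 0 = 0 → coeff m f = 0 := by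
        rw [← X_dvd_iff]
        exact Ideal.mem_span_singleton
      rw [RingHom.mem_ker, hs]
      constructor
      · intro hf m hm
        have hm' : m ∈ Set.range (Finsupp.embDomain e) := by
          refine ⟨Finsupp.tail m, ?_⟩
          ext j
          refine Fin.cases ?_ (fun j => ?_) j
          · rw [Finsupp.embDomain_of_notMem_range, hm]
            rintro ⟨l, hl⟩
            exact Fin.succ_ne_zero l hl
          · exact (Finsupp.embDomain_apply_self e (Finsupp.tail m) j).trans (Finsupp.tail_apply j m)
        obtain ⟨y, rfl⟩ := hm'
        have := congrArg (coeff y) hf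
        rw [map_zero] at this
        rw [← coeff_killCompl (e := e) f y]
        exact this
      · intro hf
        ext y
        show coeff y (killCompl e f) = _
        rw [coeff_killCompl, map_zero]
        apply hf
        rw [Finsupp.embDomain_of_notMem_range]
        rintro ⟨l, hl⟩
        exact Fin.succ_ne_zero l hl
    let T : List A := List.ofFn (fun i : Fin r => (X i.succ : A)) ++ [C ϖ]
    have hlist : paramList O ϖ (r + 1) = X 0 :: T := by
      simp [paramList, T, List.ofFn_succ]
    have hT : T.map k = paramList O ϖ r := by
      simp only [T, paramList, List.map_append, List.map_ofFn, List.map_cons, List.map_nil]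
      congr 1
      · congr 1
        funext i
        exact killCompl_X (e := e) i
      · simp only [k, AlgHom.toRingHom_eq_coe, RingHom.coe_coe]; exact congrArg (· :: []) (killCompl_C (e := e) ϖ)
    refine ⟨?_, ?_⟩
    · rw [hlist, isWeaklyRegular_cons_iff]
      refine ⟨fun a b hab => mul_left_cancel₀ ?_ hab, ?_⟩
      · intro h
        have := congrArg (coeff (Finsupp.single (0 : Fin (r + 1)) 1)) h
        simp [coeff_X] at this
      let : Algebra A B := k.toAlgebra
      have hkl : LinearMap.ker (Algebra.linearMap A B) = (X 0 : A) • (⊤ : Submodule A A) := by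
        rw [← Submodule.ideal_span_singleton_smul, smul_eq_mul, Ideal.mul_top, ← hker]
        rfl
      let eq : QuotSMulTop (X 0 : A) A ≃ₗ[A] B :=
        (Submodule.quotEquivOfEq _ _ hkl.symm).trans
          ((Algebra.linearMap A B).quotKerEquivOfSurjective hksurj)
      rw [eq.isWeaklyRegular_congr, ← isWeaklyRegular_map_algebraMap_iff B B T]
      show IsWeaklyRegular B (T.map k)
      rw [hT]
      exact ih.1
    · have hloc : IsLocalHom k := IsLocalHom.of_surjective k hksurj
      have h1 : maximalIdeal A = (maximalIdeal B).comap k := (maximalIdeal_comap k).symm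
      show maximalIdeal A = _
      rw [h1, ih.2, ← hT, ← Ideal.map_ofList, Ideal.comap_map_of_surjective _ hksurj, hlist,
        Ideal.ofList_cons, ← RingHom.ker_eq_comap_bot, hker, sup_comm]

end PowerSeries

end FA.Deform
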