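import Fermat.Agent.Deform.Kernels

/-!
# Bounding the kernels by the tangent space
-/

set_option autoImplicit false

noncomputable section

open IsLocalRing
open scoped Pointwise

namespace FA.Deform

variable {O : Type} [CommRing O] [IsLocalRing O] [IsNoetherianRing O] [Finite (ResidueField O)]
  {ρbar : ResidualGaloisRep (ResidueField O)} {D : DefPred O} {F : Frame O}

omit [IsNoetherianRing O] [Finite (ResidueField O)] in
/-- An ideal with the tangent cut at `x` gives an identification with the dual numbers. -/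
lemma exists_dual_point {I : Ideal (EntryRing O)} {x : EntryRing O} (hIm : I ≤ barIdeal ρbar)
    (hxm : x ∈ barIdeal ρbar) (hxI : x ∉ I) (hsq : barIdeal ρbar ^ 2 ≤ I)
    (hO : ∀ c ∈ maximalIdeal O, MvPolynomial.C c ∈ I)
    (hspan : barIdeal ρbar ≤ Ideal.span {x} ⊔ I) :
    ∃ θ : DualNumber (ResidueField O) ≃+* (EntryRing O ⧸ I),
      ∀ c : O, θ (TrivSqZeroExt.inl (residue O c)) = Ideal.Quotient.mk I (MvPolynomial.C c) := by
  have hle : maximalIdeal O ≤
      RingHom.ker ((Ideal.Quotient.mk I).comp (MvPolynomial.C : O →+* EntryRing O)) := fun c hc => by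
    rw [RingHom.mem_ker, RingHom.comp_apply, Ideal.Quotient.eq_zero_iff_mem]
    exact hO c hc
  let f : ResidueField O →+* EntryRing O ⧸ I := Ideal.Quotient.lift (maximalIdeal O)
    ((Ideal.Quotient.mk I).comp MvPolynomial.C) (fun c hc => RingHom.mem_ker.mp (hle hc))
  have hf : ∀ c, f (residue O c) = Ideal.Quotient.mk I (MvPolynomial.C c) := fun c => rfl
  have hxx : Ideal.Quotient.mk I x * Ideal.Quotient.mk I x = 0 := by
    rw [← map_mul, Ideal.Quotient.eq_zero_iff_mem]
    exact hsq (by rw [pow_two]; exact Ideal.mul_mem_mul hxm hxm)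
  let θ₀ : DualNumber (ResidueField O) →+* EntryRing O ⧸ I :=
    { toFun := fun z => f z.fst + f z.snd * Ideal.Quotient.mk I x
      map_one' := by simp
      map_zero' := by simp
      map_add' := fun a b => by
        rw [TrivSqZeroExt.fst_add, TrivSqZeroExt.snd_add, map_add, map_add]; ring
      map_mul' := fun a b => by
        rw [TrivSqZeroExt.fst_mul, DualNumber.snd_mul, map_add, map_mul, map_mul, map_mul]
        linear_combination -(f a.snd * f b.snd) * hxx }
  have hbij : Function.Bijective θ₀ := by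
    constructor
    · rw [injective_iff_map_eq_zero]
      intro z hz
      obtain ⟨a, ha⟩ := residue_surjective z.fst
      obtain ⟨b, hb⟩ := residue_surjective z.snd
      change f z.fst + f z.snd * Ideal.Quotient.mk I x = 0 at hz
      rw [← ha, ← hb, hf, hf, ← map_mul, ← map_add, Ideal.Quotient.eq_zero_iff_mem] at hz
      have hCa : MvPolynomial.C a ∈ barIdeal ρbar := by
        have := sub_mem (hIm hz) ((barIdeal ρbar).mul_mem_left (MvPolynomial.C b) hxm)
        simpa using this
      have ha' := (C_mem_barIdeal_iff a).mp hCa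
      have hbx : MvPolynomial.C b * x ∈ I := by
        have := sub_mem hz (hO a ha')
        simpa using this
      have hb' : b ∈ maximalIdeal O := by
        by_contra hb'
        apply hxI
        exact (Ideal.unit_mul_mem_iff_mem I ((not_not.mp hb').map MvPolynomial.C)).mp hbx
      refine TrivSqZeroExt.ext ?_ ?_
      · rw [← ha, TrivSqZeroExt.fst_zero, residue_eq_zero_iff]; exact ha'
      · rw [← hb, TrivSqZeroExt.snd_zero, residue_eq_zero_iff]; exact hb'
    · intro y
      obtain ⟨p, rfl⟩ := Ideal.Quotient.mk_surjective y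
      obtain ⟨a, ha⟩ := exists_C_sub_mem (ρbar := ρbar) p
      obtain ⟨u, hu, i, hi, hui⟩ := Submodule.mem_sup.mp (hspan ha)
      obtain ⟨q, rfl⟩ := Ideal.mem_span_singleton'.mp hu
      obtain ⟨b, hb⟩ := exists_C_sub_mem (ρbar := ρbar) q
      refine ⟨TrivSqZeroExt.inl (residue O a) + TrivSqZeroExt.inr (residue O b), ?_⟩
      show f _ + f _ * _ = _
      simp only [TrivSqZeroExt.fst_add, TrivSqZeroExt.fst_inl, TrivSqZeroExt.fst_inr, add_zero,
        TrivSqZeroExt.snd_add, TrivSqZeroExt.snd_inl, TrivSqZeroExt.snd_inr, zero_add, hf]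
      rw [← map_mul, ← map_add, Ideal.Quotient.eq]
      have hbx : (q - MvPolynomial.C b) * x ∈ I := hsq (by
        rw [pow_two]; exact Ideal.mul_mem_mul hb hxm)
      rw [show MvPolynomial.C a + MvPolynomial.C b * x - p = -((q - MvPolynomial.C b) * x + i) by
        linear_combination hui]
      exact neg_mem (add_mem hbx hi)
  refine ⟨RingEquiv.ofBijective θ₀ hbij, fun c => ?_⟩
  rw [RingEquiv.ofBijective_apply]
  simp [θ₀, hf]

set_option maxHeartbeats 800000 in
/-- The tangent condition gives finitely many generators for all the residual maximal ideals. -/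
theorem exists_generators (hD : GaloisRep.IsDeformationCondition O D)
    (hbar : D (GaloisRepAdic.ofResidualGaloisRep ρbar)) (hF : F.Adapted (resMatrix ρbar))
    (hfin : GaloisRep.TangentFinite O ρbar D) :
    ∃ Y : Finset (EntryRing O), (↑Y : Set (EntryRing O)) ⊆ barIdeal ρbar ∧
      ∀ I, IsKer ρbar D F I → barIdeal ρbar ≤ Ideal.span (↑Y : Set (EntryRing O)) ⊔ I := by
  classical
  let E := DualNumber (ResidueField O)
  let alg : Algebra O E :=
    ((algebraMap (ResidueField O) E).comp (algebraMap O (ResidueField O))).toAlgebra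
  have halg : ∀ c : O, algebraMap O E c = TrivSqZeroExt.inl (residue O c) := fun c => rfl
  have : Finite E := Finite.of_injective (fun z : E => (z.fst, z.snd)) fun a b h =>
    TrivSqZeroExt.ext (Prod.ext_iff.mp h).1 (Prod.ext_iff.mp h).2
  have hloc : IsLocalHom (algebraMap O E) := ⟨fun c hc => by
    have h : IsUnit (residue O c) := by
      have := hc.map (TrivSqZeroExt.fstHom (ResidueField O) (ResidueField O) (ResidueField O))
      rw [halg, TrivSqZeroExt.fstHom_apply, TrivSqZeroExt.fst_inl] at this
      exact this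
    exact (inferInstance : IsLocalHom (residue O)).map_nonunit c h⟩
  have hsurj : Function.Surjective (residue E ∘ algebraMap O E) := fun a => by
    obtain ⟨z, rfl⟩ := residue_surjective a
    obtain ⟨c, hc⟩ := residue_surjective z.fst
    refine ⟨c, ?_⟩
    rw [Function.comp_apply, eq_comm, ← sub_eq_zero, ← map_sub, residue_eq_zero_iff]
    intro hu
    have := hu.map (TrivSqZeroExt.fstHom (ResidueField O) (ResidueField O) (ResidueField O))
    rw [map_sub, halg, TrivSqZeroExt.fstHom_apply, TrivSqZeroExt.fstHom_apply,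
      TrivSqZeroExt.fst_inl, hc, sub_self] at this
    exact not_isUnit_zero this
  have hE : GaloisRep.IsArtinianTestAlgebra O E := ⟨hloc, hsurj, inferInstance⟩
  let Pts := {r : GQ →* M2 E // IsLift ρbar (isCoeff_of_test hE) r ∧ IsGood D F r}
  let j : ResidueField O →+* ResidueField E :=
    (residue E).comp (algebraMap (ResidueField O) E)
  have hj : resMap E hloc = j := RingHom.ext fun a => by
    obtain ⟨c, rfl⟩ := residue_surjective a
    rfl
  have hres : ∀ x : Pts, (ofMatrix x.1 x.2.2.choose).residual.IsEquiv (ρbar.baseChangeAlong j) :=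
    fun x => residual_ofMatrix_isEquiv ρbar j x.2.2.choose (hj ▸ x.2.1)
  have : Finite Pts := by
    refine @Finite.of_injective Pts _ hfin
      (fun x => Quotient.mk _ ⟨ofMatrix x.1 x.2.2.choose, x.2.2.choose_spec.1, hres x⟩) ?_
    intro x y hxy
    obtain ⟨U, hU, hUr⟩ := (isEquiv_ofMatrix_iff x.2.2.choose y.2.2.choose).mp (Quotient.exact hxy)
    exact Subtype.ext (eq_of_isNormal (x.2.1.adapted hF) (y.2.1.adapted hF)
      x.2.2.choose_spec.2 y.2.2.choose_spec.2 hU hUr)
  cases nonempty_fintype Pts
  let kerPt : Pts → Ideal (EntryRing O) := fun x => RingHom.ker (evalRep (O := O) x.1)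
  let Jt := barIdeal ρbar ⊓ Finset.univ.inf kerPt
  have hJt : IsKer ρbar D F Jt :=
    isKer_finset_inf hD hbar hF _ _ fun x _ => isKer_ker hD hE x.2.1 x.2.2
  have := hJt.fin
  obtain ⟨gO, hgO⟩ : (maximalIdeal O).FG := (isNoetherianRing_iff_ideal_fg O).mp ‹_› _
  choose lift hlift using fun t : ((barIdeal ρbar).map (Ideal.Quotient.mk Jt) :) =>
    (Ideal.mem_map_iff_of_surjective _ Ideal.Quotient.mk_surjective).mp t.2
  cases nonempty_fintype ((barIdeal ρbar).map (Ideal.Quotient.mk Jt) :)
  let Y : Finset (EntryRing O) := gO.image MvPolynomial.C ∪ Finset.univ.image lift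
  refine ⟨Y, ?_, fun I hI => ?_⟩
  · intro y hy
    simp only [Y, Finset.coe_union, Finset.coe_image, Set.mem_union, Set.mem_image] at hy
    rcases hy with ⟨c, hc, rfl⟩ | ⟨t, -, rfl⟩
    · exact (C_mem_barIdeal_iff c).mpr (hgO ▸ Ideal.subset_span hc)
    · exact (hlift t).1
  set W := Ideal.span (↑Y : Set (EntryRing O)) ⊔ I
  -- modulo squares
  have h2 : barIdeal ρbar ≤ W ⊔ barIdeal ρbar ^ 2 := by
    have hCO : ∀ c ∈ maximalIdeal O, MvPolynomial.C c ∈ W := fun c hc => by
      rw [← hgO] at hc
      have := Ideal.mem_map_of_mem (MvPolynomial.C : O →+* EntryRing O) hc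
      rw [Ideal.map_span] at this
      exact Ideal.mem_sup_left (Ideal.span_mono (by simp [Y]) this)
    set I' := I ⊔ barIdeal ρbar ^ 2 ⊔ (maximalIdeal O).map MvPolynomial.C with hI'
    have hI'm : I' ≤ barIdeal ρbar := by
      refine sup_le (sup_le hI.le (Ideal.pow_le_self two_ne_zero)) (Ideal.map_le_iff_le_comap.mpr ?_)
      exact fun c hc => (C_mem_barIdeal_iff c).mpr hc
    have hI'W : I' ≤ W ⊔ barIdeal ρbar ^ 2 :=
      sup_le (sup_le (le_sup_right.trans le_sup_left) le_sup_right)
        (Ideal.map_le_iff_le_comap.mpr fun c hc => Ideal.mem_sup_left (hCO c hc))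
    have hJI' : Jt ≤ I' := by
      intro x hx
      by_contra hxI
      let Φ : Set (Ideal (EntryRing O)) := {J | I' ≤ J ∧ J ≤ barIdeal ρbar ∧ x ∉ J}
      have hΦfin : Φ.Finite := by
        have := hI.fin
        have : Finite (Ideal (EntryRing O ⧸ I)) := Finite.of_injective _ SetLike.coe_injective
        refine Set.Finite.of_finite_image (f := Ideal.map (Ideal.Quotient.mk I))
          (Set.toFinite _) ?_
        intro J hJ J' hJ' h
        have hc : ∀ {J}, J ∈ Φ → (J.map (Ideal.Quotient.mk I)).comap (Ideal.Quotient.mk I) = J :=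
          fun {J} hJ => by
            rw [Ideal.comap_map_of_surjective _ Ideal.Quotient.mk_surjective,
              ← RingHom.ker_eq_comap_bot, Ideal.mk_ker, sup_eq_left]
            exact (le_sup_left.trans le_sup_left).trans hJ.1
        rw [← hc hJ, ← hc hJ', h]
      obtain ⟨J, ⟨hJ1, hJ2, hJ3⟩, hJmax⟩ := hΦfin.exists_maximal ⟨I', le_rfl, hI'm, hxI⟩
      have hsq : barIdeal ρbar ^ 2 ≤ J := (le_sup_right.trans le_sup_left).trans hJ1
      have hxm : x ∈ barIdeal ρbar := (inf_le_left : Jt ≤ _) hx
      have hspan : barIdeal ρbar ≤ Ideal.span {x} ⊔ J := by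
        intro z hz
        by_cases hzJ : z ∈ J
        · exact Ideal.mem_sup_right hzJ
        have hx' : x ∈ J ⊔ Ideal.span {z} := by
          by_contra hx'
          exact hzJ (hJmax ⟨hJ1.trans le_sup_left,
            sup_le hJ2 (Ideal.span_le.mpr (by simpa using hz)), hx'⟩ le_sup_left
            (Ideal.mem_sup_right (Ideal.mem_span_singleton_self z)))
        obtain ⟨i, hi, u, hu, hiu⟩ := Submodule.mem_sup.mp hx'
        obtain ⟨p, rfl⟩ := Ideal.mem_span_singleton'.mp hu
        by_cases hp : p ∈ barIdeal ρbar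
        · exact absurd (hiu ▸ add_mem hi (hsq (by rw [pow_two]; exact Ideal.mul_mem_mul hp hz))) hJ3
        obtain ⟨c, hc⟩ := exists_C_sub_mem (ρbar := ρbar) p
        obtain ⟨v, hv⟩ : IsUnit c := by
          by_contra hcu
          exact hp (by simpa using add_mem hc ((C_mem_barIdeal_iff c).mpr hcu))
        rw [Submodule.mem_sup]
        refine ⟨MvPolynomial.C ((v⁻¹ : Oˣ) : O) * x, Ideal.mem_span_singleton'.mpr ⟨_, rfl⟩,
          -(MvPolynomial.C ((v⁻¹ : Oˣ) : O) * (i + (p - MvPolynomial.C c) * z)),
          neg_mem (J.mul_mem_left _ (add_mem hi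
            (hsq (by rw [pow_two]; exact Ideal.mul_mem_mul hc hz)))), ?_⟩
        have h1 : MvPolynomial.C ((v⁻¹ : Oˣ) : O) * MvPolynomial.C c =
            (1 : EntryRing O) := by
          rw [← map_mul, ← hv, Units.inv_mul, map_one]
        linear_combination z * h1 - MvPolynomial.C ((v⁻¹ : Oˣ) : O) * hiu
      have hIJ : I ≤ J := (le_sup_left.trans le_sup_left).trans hJ1
      have hJk : IsKer ρbar D F J := hI.of_le hD hIJ hJ2
      obtain ⟨θ, hθ⟩ := exists_dual_point hJ2 hxm hJ3 hsq
        (fun c hc => hJ1 (Ideal.mem_sup_right (Ideal.mem_map_of_mem _ hc))) hspan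
      have := quot_isLocalRing hJk.le hJk.nilp
      let g : (EntryRing O ⧸ J) →ₐ[O] E :=
        { (θ.symm : (EntryRing O ⧸ J) →+* E) with
          commutes' := fun c => by
            apply θ.injective
            show θ (θ.symm (Ideal.Quotient.mk J (MvPolynomial.C c))) = θ (algebraMap O E c)
            rw [θ.apply_symm_apply, halg, hθ] }
      obtain ⟨r, hr, hgood⟩ := hJk.rep
      have tJ := quot_test hJk.le hJk.nilp hJk.fin
      have hg : IsLocalHom (g : (EntryRing O ⧸ J) →+* E) := isLocalHom_of_isArtinian tJ.isArtinian _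
      have hlift' : IsLift ρbar (isCoeff_of_test tJ) r := by
        refine MonoidHom.ext fun σ => Matrix.ext fun a b => ?_
        obtain ⟨c, hc⟩ := residue_surjective (resMatrix ρbar σ a b)
        rw [mapRep_apply, mapRep_apply, ← hc, resMap_residue, ← sub_eq_zero, ← map_sub,
          residue_eq_zero_iff, hr]
        show Ideal.Quotient.mk J _ - Ideal.Quotient.mk J (MvPolynomial.C c) ∈ _
        rw [← map_sub, mk_mem_maximalIdeal_iff hJk.le hJk.nilp, barIdeal, RingHom.mem_ker, map_sub,
          evalBar, MvPolynomial.aeval_X, MvPolynomial.aeval_C, ← hc]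
        exact sub_self _
      let pt : Pts := ⟨_, hlift'.map (hB := isCoeff_of_test hE) g, IsGood.map hD tJ hE g hgood⟩
      have hker : ∀ p, evalRep (O := O) pt.1 p = g (Ideal.Quotient.mk J p) := fun p => by
        refine AlgHom.congr_fun (algHom_ext_entries (f := evalRep (O := O) pt.1)
          (g := g.comp (Ideal.Quotient.mkₐ O J)) fun σ a b => ?_) p
        rw [evalRep_X, AlgHom.comp_apply, Ideal.Quotient.mkₐ_eq_mk, ← hr]
        rfl
      have hx0 : evalRep (O := O) pt.1 x = 0 :=
        RingHom.mem_ker.mp (Finset.inf_le (f := kerPt) (Finset.mem_univ pt)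
          ((inf_le_right : Jt ≤ Finset.univ.inf kerPt) hx))
      rw [hker] at hx0
      exact hJ3 (Ideal.Quotient.eq_zero_iff_mem.mp (θ.symm.injective (hx0.trans (map_zero θ.symm).symm)))
    intro z hz
    let t : ((barIdeal ρbar).map (Ideal.Quotient.mk Jt) :) :=
      ⟨Ideal.Quotient.mk Jt z, Ideal.mem_map_of_mem _ hz⟩
    have hzt : z - lift t ∈ Jt := Ideal.Quotient.eq.mp (hlift t).2.symm
    have := add_mem (hI'W (hJI' hzt))
      (Ideal.mem_sup_left (Ideal.mem_sup_left (Ideal.subset_span (by simp [Y] : lift t ∈ (↑Y : Set _)))))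
    simpa using this
  -- nilpotency
  have hstep : ∀ m, barIdeal ρbar ≤ W ⊔ barIdeal ρbar ^ (m + 2) := by
    intro m
    induction m with
    | zero => exact h2
    | succ m ih =>
      refine h2.trans (sup_le le_sup_left ?_)
      rw [pow_two]
      refine (Ideal.mul_mono_right ih).trans ?_
      rw [Ideal.mul_sup]
      refine sup_le_sup (Ideal.mul_le_right) (le_of_eq ?_)
      rw [← pow_succ']
  obtain ⟨n, hn⟩ := hI.nilp
  refine (hstep n).trans (sup_le le_rfl ?_)
  exact ((Ideal.pow_le_pow_right (by omega)).trans hn).trans le_sup_right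

end FA.Deform
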