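import Fermat.Agent.Deform.TestAlgebra

/-!
# The kernels of the universal polynomial representation
-/

set_option autoImplicit false

noncomputable section

open IsLocalRing

namespace FA.Deform

/-- Representations, as a predicate. -/
abbrev DefPred (O : Type) [CommRing O] :=
  ∀ ⦃A : Type⦄ [CommRing A] [IsLocalRing A] [Algebra O A], GaloisRepAdic A → Prop

variable {O : Type} [CommRing O] [IsLocalRing O] {ρbar : ResidualGaloisRep (ResidueField O)}
  (D : DefPred O) (F : Frame O)

/-- Continuous normalised representations satisfying the condition. -/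
def IsGood {A : Type} [CommRing A] [IsLocalRing A] [Algebra O A] (r : GQ →* M2 A) : Prop :=
  ∃ hc : IsContRep r, D (ofMatrix r hc) ∧ F.IsNormal r

variable {D F}

lemma IsGood.map (hD : GaloisRep.IsDeformationCondition O D) {A B : Type} [CommRing A]
    [IsLocalRing A] [Algebra O A] [CommRing B] [IsLocalRing B] [Algebra O B]
    (hA : GaloisRep.IsArtinianTestAlgebra O A) (hB : GaloisRep.IsArtinianTestAlgebra O B)
    (φ : A →ₐ[O] B) {r : GQ →* M2 A} (h : IsGood D F r) :
    IsGood D F (mapRep (φ : A →+* B) r) := by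
  obtain ⟨hc, hd, hn⟩ := h
  have hl : IsLocalHom (φ : A →+* B) := isLocalHom_of_isArtinian hA.isArtinian _
  refine ⟨hc.map _, hD.of_isEquiv hB (baseChange_ofMatrix_isEquiv _ hl hc (hc.map _))
    (hD.baseChangeAlong hA hB φ hl hd), hn.map _ φ.comp_algebraMap⟩

lemma IsGood.of_injective (hD : GaloisRep.IsDeformationCondition O D) {A B : Type} [CommRing A]
    [IsLocalRing A] [Algebra O A] [CommRing B] [IsLocalRing B] [Algebra O B]
    (hA : GaloisRep.IsArtinianTestAlgebra O A) (hB : GaloisRep.IsArtinianTestAlgebra O B)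
    (φ : A →ₐ[O] B) (hinj : Function.Injective φ) {r : GQ →* M2 A}
    (h : IsGood D F (mapRep (φ : A →+* B) r)) : IsGood D F r := by
  obtain ⟨hc', hd, h1, h2, h3⟩ := h
  have hl : IsLocalHom (φ : A →+* B) := isLocalHom_of_isArtinian hA.isArtinian _
  have hc : IsContRep r := isContRep_of_eq_one (by
    obtain ⟨L, hL, hr⟩ := hc'.exists_eq_one hB.isArtinian
    exact ⟨L, hL, fun σ hσ => Matrix.map_injective (f := (φ : A →+* B)) hinj
      ((hr σ hσ).trans (map_one (φ : A →+* B).mapMatrix).symm)⟩)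
  have e := baseChange_ofMatrix_isEquiv _ hl hc hc'
  refine ⟨hc, hD.of_baseChangeAlong_injective hA hB φ hl hinj
    (hD.of_isEquiv hB ⟨e.some.symm⟩ hd), ?_, ?_, ?_⟩
  all_goals apply hinj
  · rw [map_zero]
    rwa [evalComb_map (φ : A →+* B) φ.comp_algebraMap, RingHom.mapMatrix_apply,
      Matrix.map_apply] at h1
  · rw [map_zero]
    rwa [evalComb_map (φ : A →+* B) φ.comp_algebraMap, RingHom.mapMatrix_apply,
      Matrix.map_apply] at h2
  · rw [map_one]
    rwa [evalComb_map (φ : A →+* B) φ.comp_algebraMap, RingHom.mapMatrix_apply,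
      Matrix.map_apply] at h3

variable (O) in
/-- The polynomial ring in the matrix entries. -/
abbrev EntryRing := MvPolynomial (GQ × Fin 2 × Fin 2) O

variable (ρbar) in
/-- Evaluation of the entries at the residual representation. -/
def evalBar : EntryRing O →ₐ[O] ResidueField O :=
  MvPolynomial.aeval fun x => resMatrix ρbar x.1 x.2.1 x.2.2

variable (ρbar) in
/-- The residual point. -/
def barIdeal : Ideal (EntryRing O) := RingHom.ker (evalBar ρbar)

lemma evalBar_surjective : Function.Surjective (evalBar ρbar) := fun a => by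
  obtain ⟨c, rfl⟩ := residue_surjective a
  exact ⟨MvPolynomial.C c, MvPolynomial.aeval_C _ c⟩

instance barIdeal_isMaximal : (barIdeal ρbar).IsMaximal :=
  RingHom.ker_isMaximal_of_surjective _ evalBar_surjective

lemma exists_C_sub_mem (p : EntryRing O) : ∃ c : O, p - MvPolynomial.C c ∈ barIdeal ρbar := by
  obtain ⟨c, hc⟩ := residue_surjective (evalBar ρbar p)
  refine ⟨c, ?_⟩
  rw [barIdeal, RingHom.mem_ker, map_sub]
  show evalBar ρbar p - MvPolynomial.aeval _ (MvPolynomial.C c) = 0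
  rw [MvPolynomial.aeval_C, ← hc]
  exact sub_self _

lemma C_mem_barIdeal_iff (c : O) : MvPolynomial.C c ∈ barIdeal ρbar ↔ c ∈ maximalIdeal O := by
  rw [barIdeal, RingHom.mem_ker, evalBar, MvPolynomial.aeval_C, ResidueField.algebraMap_eq,
    residue_eq_zero_iff]

/-- Evaluation of the entries at a matrix representation. -/
def evalRep {A : Type} [CommRing A] [Algebra O A] (r : GQ →* M2 A) : EntryRing O →ₐ[O] A :=
  MvPolynomial.aeval fun x => r x.1 x.2.1 x.2.2

lemma evalRep_X {A : Type} [CommRing A] [Algebra O A] (r : GQ →* M2 A) (σ : GQ) (i j : Fin 2) :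
    evalRep (O := O) r (MvPolynomial.X (σ, i, j)) = r σ i j := MvPolynomial.aeval_X _ _

lemma algHom_ext_entries {A : Type} [CommRing A] [Algebra O A] {f g : EntryRing O →ₐ[O] A}
    (h : ∀ σ i j, f (MvPolynomial.X (σ, i, j)) = g (MvPolynomial.X (σ, i, j))) : f = g :=
  MvPolynomial.algHom_ext fun x => h x.1 x.2.1 x.2.2

lemma residue_evalRep {A : Type} [CommRing A] [IsLocalRing A] [Algebra O A] {hA : IsCoeff O A}
    {r : GQ →* M2 A} (hr : IsLift ρbar hA r) (p : EntryRing O) :
    residue A (evalRep r p) = resMap A hA.isLocalHom (evalBar ρbar p) := by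
  refine RingHom.congr_fun (f := (residue A).comp (evalRep (O := O) r : EntryRing O →+* A))
    (g := (resMap A hA.isLocalHom).comp (evalBar ρbar : EntryRing O →+* ResidueField O)) ?_ p
  refine MvPolynomial.ringHom_ext (fun c => ?_) fun x => ?_
  · simp only [RingHom.comp_apply, RingHom.coe_coe, evalRep, evalBar, MvPolynomial.aeval_C,
      ResidueField.algebraMap_eq]
    rfl
  · simp only [RingHom.comp_apply, RingHom.coe_coe, evalRep, evalBar, MvPolynomial.aeval_X]
    exact congrFun (congrFun (DFunLike.congr_fun hr x.1) x.2.1) x.2.2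

/-- The ideals cutting out a good deformation of `ρbar`. -/
structure IsKer (ρbar : ResidualGaloisRep (ResidueField O)) (D : DefPred O) (F : Frame O)
    (I : Ideal (EntryRing O)) : Prop where
  le : I ≤ barIdeal ρbar
  nilp : ∃ n, barIdeal ρbar ^ (n + 1) ≤ I
  fin : Finite (EntryRing O ⧸ I)
  rep : ∀ [IsLocalRing (EntryRing O ⧸ I)], ∃ r : GQ →* M2 (EntryRing O ⧸ I),
    (∀ σ i j, r σ i j = Ideal.Quotient.mk I (MvPolynomial.X (σ, i, j))) ∧ IsGood D F r

section Quot

variable {I : Ideal (EntryRing O)} (hle : I ≤ barIdeal ρbar)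
  (hn : ∃ n, barIdeal ρbar ^ (n + 1) ≤ I)
include hle hn

lemma quot_isMaximal_iff (M : Ideal (EntryRing O ⧸ I)) :
    M.IsMaximal ↔ M = (barIdeal ρbar).map (Ideal.Quotient.mk I) := by
  have hmax : ((barIdeal ρbar).map (Ideal.Quotient.mk I)).IsMaximal :=
    barIdeal_isMaximal.map_of_surjective_of_ker_le Ideal.Quotient.mk_surjective
      (by rwa [Ideal.mk_ker])
  refine ⟨fun hM => ?_, fun h => h ▸ hmax⟩
  have hcomap : (M.comap (Ideal.Quotient.mk I)).IsMaximal :=
    Ideal.comap_isMaximal_of_surjective _ Ideal.Quotient.mk_surjective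
  obtain ⟨n, hn⟩ := hn
  have h1 : barIdeal ρbar ≤ M.comap (Ideal.Quotient.mk I) :=
    hcomap.isPrime.le_of_pow_le (hn.trans (fun x hx => by
      rw [Ideal.mem_comap, Ideal.Quotient.eq_zero_iff_mem.mpr hx]; exact M.zero_mem))
  rw [barIdeal_isMaximal.eq_of_le hcomap.ne_top h1,
    Ideal.map_comap_of_surjective _ Ideal.Quotient.mk_surjective]

lemma quot_isLocalRing : IsLocalRing (EntryRing O ⧸ I) :=
  IsLocalRing.of_unique_max_ideal ⟨_, (quot_isMaximal_iff hle hn _).mpr rfl,
    fun M hM => (quot_isMaximal_iff hle hn M).mp hM⟩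

lemma quot_maximalIdeal [IsLocalRing (EntryRing O ⧸ I)] :
    maximalIdeal (EntryRing O ⧸ I) = (barIdeal ρbar).map (Ideal.Quotient.mk I) :=
  (quot_isMaximal_iff hle hn _).mp inferInstance

lemma mk_mem_maximalIdeal_iff [IsLocalRing (EntryRing O ⧸ I)] (p : EntryRing O) :
    Ideal.Quotient.mk I p ∈ maximalIdeal (EntryRing O ⧸ I) ↔ p ∈ barIdeal ρbar := by
  rw [quot_maximalIdeal hle hn]
  exact Ideal.mem_quotient_iff_mem hle

lemma quot_test (hfin : Finite (EntryRing O ⧸ I)) [IsLocalRing (EntryRing O ⧸ I)] :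
    GaloisRep.IsArtinianTestAlgebra O (EntryRing O ⧸ I) where
  isLocalHom := ⟨fun c hc => by
    by_contra hcu
    have := (mk_mem_maximalIdeal_iff hle hn (MvPolynomial.C c)).mpr ((C_mem_barIdeal_iff c).mpr hcu)
    exact this hc⟩
  residue_surjective := fun a => by
    obtain ⟨x, rfl⟩ := residue_surjective a
    obtain ⟨p, rfl⟩ := Ideal.Quotient.mk_surjective x
    obtain ⟨c, hc⟩ := exists_C_sub_mem (ρbar := ρbar) p
    refine ⟨c, ?_⟩
    rw [Function.comp_apply, eq_comm, ← sub_eq_zero, ← map_sub, residue_eq_zero_iff]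
    show Ideal.Quotient.mk I p - Ideal.Quotient.mk I (MvPolynomial.C c) ∈ _
    rw [← map_sub]
    exact (mk_mem_maximalIdeal_iff hle hn _).mpr hc
  isArtinian := inferInstance

end Quot

/-- The kernel of a good lift over a finite test algebra. -/
lemma isKer_ker (hD : GaloisRep.IsDeformationCondition O D) {A : Type} [CommRing A] [IsLocalRing A]
    [Algebra O A] [Finite A] (hA : GaloisRep.IsArtinianTestAlgebra O A) {r : GQ →* M2 A}
    (hr : IsLift ρbar (isCoeff_of_test hA) r) (hg : IsGood D F r) :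
    IsKer ρbar D F (RingHom.ker (evalRep (O := O) r)) := by
  set χ := evalRep (O := O) r
  have hle : RingHom.ker χ ≤ barIdeal ρbar := by
    intro p hp
    have := residue_evalRep hr p
    rw [show χ p = 0 from hp, map_zero] at this
    exact (resMap A _).injective (by rw [← this, map_zero])
  have hn : ∃ n, barIdeal ρbar ^ (n + 1) ≤ RingHom.ker χ := by
    obtain ⟨n, hn⟩ := exists_maximalIdeal_pow_eq_bot A hA.isArtinian
    refine ⟨n, ?_⟩
    rw [RingHom.ker_eq_comap_bot, ← Ideal.map_le_iff_le_comap, ← hn, Ideal.map_pow]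
    refine Ideal.pow_right_mono (Ideal.map_le_iff_le_comap.mpr fun p hp => ?_) _
    rw [Ideal.mem_comap, ← residue_eq_zero_iff, residue_evalRep hr,
      show evalBar ρbar p = 0 from hp, map_zero]
  let g : (EntryRing O ⧸ RingHom.ker χ) →ₐ[O] A := Ideal.kerLiftAlg χ
  have hg' : Function.Injective g := Ideal.kerLiftAlg_injective χ
  have hfin : Finite (EntryRing O ⧸ RingHom.ker χ) := Finite.of_injective g hg'
  refine ⟨hle, hn, hfin, fun {_} => ?_⟩
  have hgX : ∀ σ i j, g (Ideal.Quotient.mk _ (MvPolynomial.X (σ, i, j))) = r σ i j :=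
    fun σ i j => evalRep_X r σ i j
  let E : GQ → M2 (EntryRing O ⧸ RingHom.ker χ) := fun σ =>
    Matrix.of fun i j => Ideal.Quotient.mk _ (MvPolynomial.X (σ, i, j))
  have hE : ∀ σ, (g : _ →+* A).mapMatrix (E σ) = r σ := fun σ => Matrix.ext (hgX σ)
  have hgm : Function.Injective
      ((g : (EntryRing O ⧸ RingHom.ker χ) →+* A).mapMatrix (m := Fin 2)) :=
    Matrix.map_injective (f := (g : (EntryRing O ⧸ RingHom.ker χ) →+* A)) hg'
  let r' : GQ →* M2 (EntryRing O ⧸ RingHom.ker χ) :=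
    { toFun := E
      map_one' := hgm (by rw [hE, map_one, map_one])
      map_mul' := fun σ τ => hgm (by rw [map_mul, hE, hE, hE, map_mul]) }
  refine ⟨r', fun _ _ _ => rfl,
    IsGood.of_injective hD (quot_test hle hn hfin) hA g hg' ?_⟩
  rwa [show mapRep (g : _ →+* A) r' = r from MonoidHom.ext hE]

/-- Larger ideals still cut out good deformations. -/
lemma IsKer.of_le (hD : GaloisRep.IsDeformationCondition O D) {I J : Ideal (EntryRing O)}
    (hI : IsKer ρbar D F I) (hIJ : I ≤ J) (hJ : J ≤ barIdeal ρbar) : IsKer ρbar D F J := by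
  obtain ⟨n, hn⟩ := hI.nilp
  have hfin : Finite (EntryRing O ⧸ J) :=
    have := hI.fin
    Finite.of_surjective _ (Ideal.Quotient.factor_surjective hIJ)
  refine ⟨hJ, ⟨n, hn.trans hIJ⟩, hfin, fun {_} => ?_⟩
  have hloc := quot_isLocalRing hI.le hI.nilp
  obtain ⟨r, hr, hg⟩ := hI.rep
  let φ : (EntryRing O ⧸ I) →ₐ[O] (EntryRing O ⧸ J) := Ideal.Quotient.factorₐ O hIJ
  have tI := quot_test hI.le hI.nilp hI.fin
  have tJ := quot_test hJ ⟨n, hn.trans hIJ⟩ hfin
  refine ⟨mapRep (φ : (EntryRing O ⧸ I) →+* (EntryRing O ⧸ J)) r, fun σ i j => ?_,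
    IsGood.map hD tI tJ φ hg⟩
  rw [mapRep_apply, hr]
  rfl

/-- The fibre product step. -/
lemma IsKer.inf (hD : GaloisRep.IsDeformationCondition O D) {I J : Ideal (EntryRing O)}
    (hI : IsKer ρbar D F I) (hJ : IsKer ρbar D F J) : IsKer ρbar D F (I ⊓ J) := by
  obtain ⟨n, hn⟩ := hI.nilp
  obtain ⟨n', hn'⟩ := hJ.nilp
  have hnn : ∃ m, barIdeal ρbar ^ (m + 1) ≤ I ⊓ J :=
    ⟨max n n', le_inf ((Ideal.pow_le_pow_right (by omega)).trans hn)
      ((Ideal.pow_le_pow_right (by omega)).trans hn')⟩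
  have := hI.fin
  have := hJ.fin
  let pA := Ideal.Quotient.factorₐ O (inf_le_left : I ⊓ J ≤ I)
  let pB := Ideal.Quotient.factorₐ O (inf_le_right : I ⊓ J ≤ J)
  let fC := Ideal.Quotient.factorₐ O (le_sup_left : I ≤ I ⊔ J)
  let gC := Ideal.Quotient.factorₐ O (le_sup_right : J ≤ I ⊔ J)
  have hinj : Function.Injective fun x => (pA x, pB x) := by
    intro x y h
    obtain ⟨a, rfl⟩ := Ideal.Quotient.mk_surjective x
    obtain ⟨b, rfl⟩ := Ideal.Quotient.mk_surjective y
    obtain ⟨h1, h2⟩ := Prod.ext_iff.mp h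
    exact Ideal.Quotient.eq.mpr ⟨Ideal.Quotient.eq.mp h1, Ideal.Quotient.eq.mp h2⟩
  have hfin : Finite (EntryRing O ⧸ I ⊓ J) := Finite.of_injective _ hinj
  refine ⟨inf_le_left.trans hI.le, hnn, hfin, fun {_} => ?_⟩
  have := quot_isLocalRing hI.le hI.nilp
  have := quot_isLocalRing hJ.le hJ.nilp
  have hsle : I ⊔ J ≤ barIdeal ρbar := sup_le hI.le hJ.le
  have hsn : ∃ m, barIdeal ρbar ^ (m + 1) ≤ I ⊔ J := ⟨n, hn.trans le_sup_left⟩
  have hsfin : Finite (EntryRing O ⧸ I ⊔ J) :=
    Finite.of_surjective _ (Ideal.Quotient.factor_surjective (le_sup_left : I ≤ I ⊔ J))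
  have := quot_isLocalRing hsle hsn
  have tA := quot_test hI.le hI.nilp hI.fin
  have tB := quot_test hJ.le hJ.nilp hJ.fin
  have tP := quot_test (inf_le_left.trans hI.le) hnn hfin
  obtain ⟨rA, hrA, hcA, hdA, hnA⟩ := hI.rep
  obtain ⟨rB, hrB, hcB, hdB, hnB⟩ := hJ.rep
  let qA : (EntryRing O ⧸ I ⊓ J) →+* (EntryRing O ⧸ I) := pA
  let qB : (EntryRing O ⧸ I ⊓ J) →+* (EntryRing O ⧸ J) := pB
  let E : GQ → M2 (EntryRing O ⧸ I ⊓ J) := fun σ =>
    Matrix.of fun i j => Ideal.Quotient.mk _ (MvPolynomial.X (σ, i, j))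
  have hEA : ∀ σ, qA.mapMatrix (E σ) = rA σ := fun σ =>
    Matrix.ext fun i j => (hrA σ i j).symm
  have hEB : ∀ σ, qB.mapMatrix (E σ) = rB σ := fun σ =>
    Matrix.ext fun i j => (hrB σ i j).symm
  have hext : ∀ M M' : M2 (EntryRing O ⧸ I ⊓ J),
      qA.mapMatrix M = qA.mapMatrix M' →
      qB.mapMatrix M = qB.mapMatrix M' → M = M' := fun M M' h1 h2 =>
    Matrix.ext fun i j => hinj (Prod.ext (congrFun (congrFun h1 i) j) (congrFun (congrFun h2 i) j))
  let r : GQ →* M2 (EntryRing O ⧸ I ⊓ J) :=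
    { toFun := E
      map_one' := hext _ _ (by rw [hEA, map_one, map_one]) (by rw [hEB, map_one, map_one])
      map_mul' := fun σ τ => hext _ _ (by rw [map_mul, hEA, hEA, hEA, map_mul])
        (by rw [map_mul, hEB, hEB, hEB, map_mul]) }
  have hpA : mapRep qA r = rA := MonoidHom.ext hEA
  have hpB : mapRep qB r = rB := MonoidHom.ext hEB
  have hc : IsContRep r := isContRep_of_eq_one (by
    obtain ⟨L, hL, hL'⟩ := hcA.exists_eq_one tA.isArtinian
    obtain ⟨M, hM, hM'⟩ := hcB.exists_eq_one tB.isArtinian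
    refine ⟨L ⊔ M, IntermediateField.finiteDimensional_sup L M, fun σ hσ => hext _ _ ?_ ?_⟩
    · rw [map_one]
      exact (hEA σ).trans (hL' σ fun x hx => hσ x ((le_sup_left : L ≤ L ⊔ M) hx))
    · rw [map_one]
      exact (hEB σ).trans (hM' σ fun x hx => hσ x ((le_sup_right : M ≤ L ⊔ M) hx)))
  have hlA : IsLocalHom qA := isLocalHom_of_isArtinian tP.isArtinian _
  have hlB : IsLocalHom qB := isLocalHom_of_isArtinian tP.isArtinian _
  refine ⟨r, fun _ _ _ => rfl, hc, ?_, ?_⟩
  · refine hD.of_fibreProduct tA tB (quot_test hsle hsn hsfin) tP fC gC pA pB hlA hlB ?_ hinj ?_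
      (hD.of_isEquiv tA ?_ hdA) (hD.of_isEquiv tB ?_ hdB)
    · exact AlgHom.ext fun x => by
        obtain ⟨p, rfl⟩ := Ideal.Quotient.mk_surjective x
        rfl
    · intro a b hab
      obtain ⟨x, rfl⟩ := Ideal.Quotient.mk_surjective a
      obtain ⟨y, rfl⟩ := Ideal.Quotient.mk_surjective b
      obtain ⟨i, hi, j, hj, hij⟩ := Submodule.mem_sup.mp (Ideal.Quotient.eq.mp hab)
      refine ⟨Ideal.Quotient.mk _ (x - i), ?_, ?_⟩
      · exact Ideal.Quotient.eq.mpr (by simpa using neg_mem hi)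
      · exact Ideal.Quotient.eq.mpr (by rwa [show x - i - y = j by linear_combination -hij])
    · obtain ⟨e⟩ := baseChange_ofMatrix_isEquiv _ hlA hc (hpA ▸ hcA)
      exact ⟨(by simpa only [hpA] using e.symm)⟩
    · obtain ⟨e⟩ := baseChange_ofMatrix_isEquiv _ hlB hc (hpB ▸ hcB)
      exact ⟨(by simpa only [hpB] using e.symm)⟩
  · have key : ∀ c : GQ →₀ O, ∀ i j,
        pA (evalComb c r i j) = evalComb c rA i j ∧ pB (evalComb c r i j) = evalComb c rB i j := by
      intro c i j
      rw [← hpA, ← hpB, evalComb_map _ pA.comp_algebraMap, evalComb_map _ pB.comp_algebraMap]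
      exact ⟨rfl, rfl⟩
    refine ⟨hinj ?_, hinj ?_, hinj ?_⟩
    · exact Prod.ext (by simp [(key _ 0 1).1, hnA.1]) (by simp [(key _ 0 1).2, hnB.1])
    · exact Prod.ext (by simp [(key _ 1 0).1, hnA.2.1]) (by simp [(key _ 1 0).2, hnB.2.1])
    · exact Prod.ext (by simp [(key _ 1 0).1, hnA.2.2]) (by simp [(key _ 1 0).2, hnB.2.2])

/-- The residual point. -/
lemma isKer_barIdeal [Finite (ResidueField O)] (hD : GaloisRep.IsDeformationCondition O D)
    (hbar : D (GaloisRepAdic.ofResidualGaloisRep ρbar)) (hF : F.Adapted (resMatrix ρbar)) :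
    IsKer ρbar D F (barIdeal ρbar) := by
  have hl : IsLocalHom (algebraMap O (ResidueField O)) :=
    IsLocalHom.of_surjective _ residue_surjective
  have hs : Function.Surjective (residue (ResidueField O) ∘ algebraMap O (ResidueField O)) :=
    residue_surjective.comp residue_surjective
  have hk : GaloisRep.IsArtinianTestAlgebra O (ResidueField O) := ⟨hl, hs, inferInstance⟩
  have hc : IsContRep (resMatrix ρbar) := isContRep_of_eq_one (resMatrix_eq_one ρbar)
  have hlift : IsLift ρbar (isCoeff_of_test hk) (resMatrix ρbar) := by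
    refine MonoidHom.ext fun σ => Matrix.ext fun i j => ?_
    obtain ⟨c, hc⟩ := residue_surjective (resMatrix ρbar σ i j)
    rw [mapRep_apply, mapRep_apply, ← hc, resMap_residue]
    rfl
  have hgood : IsGood D F (resMatrix ρbar) := ⟨hc, hD.of_isEquiv hk
    (isEquiv_ofMatrix_matrixOf (GaloisRepAdic.ofResidualGaloisRep ρbar) (resBasis ρbar)) hbar,
    hF.isNormal⟩
  exact isKer_ker hD hk hlift hgood

/-- Finite intersections. -/
lemma isKer_finset_inf [Finite (ResidueField O)] (hD : GaloisRep.IsDeformationCondition O D)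
    (hbar : D (GaloisRepAdic.ofResidualGaloisRep ρbar)) (hF : F.Adapted (resMatrix ρbar))
    {ι : Type*} (s : Finset ι) (f : ι → Ideal (EntryRing O)) (h : ∀ i ∈ s, IsKer ρbar D F (f i)) :
    IsKer ρbar D F (barIdeal ρbar ⊓ s.inf f) := by
  classical
  induction s using Finset.induction_on with
  | empty => simpa using isKer_barIdeal hD hbar hF
  | insert i s hi ih =>
    rw [Finset.inf_insert, inf_left_comm]
    exact (h i (Finset.mem_insert_self i s)).inf hD
      (ih fun j hj => h j (Finset.mem_insert_of_mem hj))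

end FA.Deform
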