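import Mathlib.RingTheory.AdicCompletion.Basic
import Mathlib.RingTheory.AdicCompletion.LocalRing
import Mathlib.RingTheory.Ideal.Quotient.Operations
import Mathlib.RingTheory.Ideal.Maps

/-!
# Limits of compatible quotients of an adically complete ring
-/

set_option autoImplicit false

noncomputable section

namespace FA.Deform

variable {S : Type*} [CommRing S] (I : Ideal S) (J : ℕ → Ideal S)

/-- A compatible system of kernels for an `I`-adically complete ring. -/
structure IsLimitSystem : Prop where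
  pow_le : ∀ n, I ^ (n + 1) ≤ J n
  eq_sup : ∀ n, J n = J (n + 1) ⊔ I ^ (n + 1)

namespace IsLimitSystem

variable {I J} (h : IsLimitSystem I J)
include h

lemma antitone : Antitone J :=
  antitone_nat_of_succ_le fun n => (h.eq_sup n).ge.trans' le_sup_left

lemma le_zero (n : ℕ) : J n ≤ J 0 := h.antitone (Nat.zero_le n)

variable [IsAdicComplete I S]

/-- Any compatible sequence has a limit, in any prescribed starting class. -/
lemma exists_limit (m : ℕ) (x : ℕ → S) (hx : ∀ j, x (j + 1) - x j ∈ J (m + j))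
    (t₀ : S) (h₀ : t₀ - x 0 ∈ J m) :
    ∃ L : S, L - t₀ ∈ I ^ (m + 1) ∧ ∀ j, L - x j ∈ J (m + j) := by
  have step : ∀ j, ∀ t, t - x j ∈ J (m + j) →
      ∃ t', t' - x (j + 1) ∈ J (m + (j + 1)) ∧ t' - t ∈ I ^ (m + j + 1) := by
    intro j t ht
    have hd : x (j + 1) - t ∈ J (m + j) := by
      rw [show x (j + 1) - t = (x (j + 1) - x j) - (t - x j) by ring]
      exact sub_mem (hx j) ht
    rw [h.eq_sup, Submodule.mem_sup] at hd
    obtain ⟨a, ha, b, hb, hab⟩ := hd
    refine ⟨t + b, ?_, by simpa using hb⟩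
    rw [show t + b - x (j + 1) = -a by linear_combination hab]
    exact neg_mem ha
  choose! next hnext using step
  let t : ℕ → S := fun j => Nat.rec (motive := fun _ => S) t₀ (fun i v => next i v) j
  have ht : ∀ j, t j - x j ∈ J (m + j) := fun j => by
    induction j with
    | zero => exact h₀
    | succ j ih => exact (hnext j (t j) ih).1
  have hinc : ∀ j, t (j + 1) - t j ∈ I ^ (m + j + 1) := fun j => (hnext j (t j) (ht j)).2
  have hcauchy : ∀ {a b : ℕ}, a ≤ b → t a ≡ t b [SMOD (I ^ a • ⊤ : Submodule S S)] := by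
    intro a b hab
    rw [SModEq.sub_mem, smul_eq_mul, Ideal.mul_top]
    induction hab with
    | refl => simp
    | @step b hab ih =>
      have hab' : a ≤ b := hab
      rw [show t a - t (b + 1) = (t a - t b) - (t (b + 1) - t b) by ring]
      exact sub_mem ih (Ideal.pow_le_pow_right (by omega) (hinc b))
  obtain ⟨L, hL⟩ := IsPrecomplete.prec' t hcauchy
  have hL' : ∀ j, L - t j ∈ I ^ (m + j + 1) := by
    intro j
    have h1 := hL (m + j + 1)
    rw [SModEq.sub_mem, smul_eq_mul, Ideal.mul_top] at h1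
    have h2 : ∀ e, t (j + e) - t j ∈ I ^ (m + j + 1) := by
      intro e
      induction e with
      | zero => simp
      | succ e ih =>
        rw [show t (j + (e + 1)) - t j = (t (j + e + 1) - t (j + e)) + (t (j + e) - t j) by
          rw [← add_assoc]; ring]
        exact add_mem (Ideal.pow_le_pow_right (by omega) (hinc (j + e))) ih
    rw [show L - t j = -(t (m + j + 1) - L) + (t (j + (m + 1)) - t j) by
      rw [show j + (m + 1) = m + j + 1 by omega]; ring]
    exact add_mem (neg_mem h1) (h2 (m + 1))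
  refine ⟨L, hL' 0, fun j => ?_⟩
  rw [show L - x j = (L - t j) + (t j - x j) by ring]
  exact add_mem (h.pow_le _ (hL' j)) (ht j)

/-- A finite level kernel is generated by the limit kernel and a power of the ideal. -/
lemma eq_iInf_sup (n : ℕ) : J n = (⨅ j, J j) ⊔ I ^ (n + 1) := by
  refine le_antisymm (fun x hx => ?_) (sup_le (iInf_le J n) (h.pow_le n))
  obtain ⟨L, hL, hLx⟩ := h.exists_limit n (fun _ => x) (fun j => by simp) 0 (by simpa using hx)
  rw [Submodule.mem_sup]
  refine ⟨x - L, Ideal.mem_iInf.mpr fun j => ?_, L, by simpa using hL, by ring⟩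
  rw [← neg_sub]
  exact neg_mem (h.antitone (Nat.le_add_left j n) (hLx j))

/-- The limit kernel. -/
def kerIdeal (_h : IsLimitSystem I J) : Ideal S := ⨅ j, J j

lemma map_mk_pow (n : ℕ) :
    (I.map (Ideal.Quotient.mk h.kerIdeal)) ^ (n + 1) = (J n).map (Ideal.Quotient.mk h.kerIdeal) := by
  rw [h.eq_iInf_sup n, Ideal.map_sup, ← Ideal.map_pow]
  have hb : (⨅ j, J j).map (Ideal.Quotient.mk h.kerIdeal) = ⊥ := Ideal.map_quotient_self _
  rw [hb, bot_sup_eq]

lemma mk_mem_pow_iff (n : ℕ) (x : S) :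
    Ideal.Quotient.mk h.kerIdeal x ∈ (I.map (Ideal.Quotient.mk h.kerIdeal)) ^ (n + 1) ↔ x ∈ J n := by
  rw [h.map_mk_pow]
  exact Ideal.mem_quotient_iff_mem (iInf_le J n)

/-- The limit ring is complete. -/
lemma isAdicComplete : IsAdicComplete (I.map (Ideal.Quotient.mk h.kerIdeal)) (S ⧸ h.kerIdeal) := by
  set P := I.map (Ideal.Quotient.mk h.kerIdeal)
  have hh : IsHausdorff P (S ⧸ h.kerIdeal) := ⟨fun y hy => by
    obtain ⟨x, rfl⟩ := Ideal.Quotient.mk_surjective y
    rw [Ideal.Quotient.eq_zero_iff_mem]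
    refine Ideal.mem_iInf.mpr fun j => (h.mk_mem_pow_iff j x).mp ?_
    have := hy (j + 1)
    rwa [SModEq.zero, smul_eq_mul, Ideal.mul_top] at this⟩
  have hp : IsPrecomplete P (S ⧸ h.kerIdeal) := ⟨fun f hf => by
    choose g hg using fun n => Ideal.Quotient.mk_surjective (f n)
    have hmem : ∀ {a b}, a ≤ b → f a - f b ∈ P ^ a := fun {a b} hab => by
      have := hf hab
      rwa [SModEq.sub_mem, smul_eq_mul, Ideal.mul_top] at this
    have hxJ : ∀ j, g (j + 1 + 1) - g (j + 1) ∈ J (0 + j) := by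
      intro j
      rw [zero_add, ← h.mk_mem_pow_iff, map_sub, hg, hg, ← neg_sub]
      exact neg_mem (hmem (Nat.le_succ _))
    obtain ⟨L, -, hL⟩ := h.exists_limit 0 (fun j => g (j + 1)) hxJ (g 1) (by simp)
    refine ⟨Ideal.Quotient.mk _ L, fun n => ?_⟩
    rw [SModEq.sub_mem, smul_eq_mul, Ideal.mul_top]
    rcases n with _ | n
    · simp
    · rw [← hg, ← map_sub, h.mk_mem_pow_iff, ← neg_sub]
      exact neg_mem (by simpa using hL n)⟩
  exact {}

lemma isMaximal_map (hmax : (J 0).IsMaximal) :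
    (I.map (Ideal.Quotient.mk h.kerIdeal)).IsMaximal := by
  have h1 := h.map_mk_pow 0
  rw [zero_add, pow_one] at h1
  rw [h1]
  exact hmax.map_of_surjective_of_ker_le Ideal.Quotient.mk_surjective (by
    rw [Ideal.mk_ker]; exact iInf_le J 0)

lemma isLocalRing (hmax : (J 0).IsMaximal) : IsLocalRing (S ⧸ h.kerIdeal) :=
  have := h.isAdicComplete
  have := h.isMaximal_map hmax
  isLocalRing_of_isAdicComplete_maximal (I.map (Ideal.Quotient.mk h.kerIdeal))

end IsLimitSystem

end FA.Deform
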