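import Fermat.Prelude.Def_GaloisRep_DeformationRingData
import Fermat.Agent.Deform.Generators
import Fermat.Agent.Deform.LimitRing
import Mathlib.RingTheory.MvPowerSeries.Equiv

/-!
# The universal deformation ring
-/

set_option autoImplicit false

noncomputable section

open IsLocalRing

namespace FA.Deform

section

variable {O : Type} [CommRing O] [IsLocalRing O] [Finite (ResidueField O)]
  {ρbar : ResidualGaloisRep (ResidueField O)} {D : DefPred O} {F : Frame O}
  (hD : GaloisRep.IsDeformationCondition O D)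
  (hbar : D (GaloisRepAdic.ofResidualGaloisRep ρbar)) (hF : F.Adapted (resMatrix ρbar))
  {Y : Finset (EntryRing O)} (hY : (↑Y : Set (EntryRing O)) ⊆ barIdeal ρbar)
  (hgen : ∀ I, IsKer ρbar D F I → barIdeal ρbar ≤ Ideal.span (↑Y : Set (EntryRing O)) ⊔ I)

include hY hgen in
/-- Uniformly finitely many representatives modulo every kernel. -/
lemma exists_finset_reps (n : ℕ) : ∃ T : Finset (EntryRing O), ∀ I, IsKer ρbar D F I →
    ∀ x, ∃ f ∈ T, x - f ∈ I ⊔ barIdeal ρbar ^ n := by
  classical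
  induction n with
  | zero => exact ⟨{0}, fun I _ x => ⟨0, Finset.mem_singleton_self 0, by simp⟩⟩
  | succ n ih =>
    obtain ⟨T, hT⟩ := ih
    choose s hs using residue_surjective (R := O)
    cases nonempty_fintype (ResidueField O)
    refine ⟨Finset.univ.image fun p : ResidueField O × (↥Y → ↥T) =>
      MvPolynomial.C (s p.1) + ∑ y : ↥Y, (y : EntryRing O) * (p.2 y : EntryRing O),
      fun I hI x => ?_⟩
    obtain ⟨c, hc⟩ := exists_C_sub_mem (ρbar := ρbar) x
    have hc' : x - MvPolynomial.C (s (residue O c)) ∈ barIdeal ρbar := by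
      have h1 : MvPolynomial.C (c - s (residue O c)) ∈ barIdeal ρbar :=
        (C_mem_barIdeal_iff _).mpr (by rw [← residue_eq_zero_iff, map_sub, hs, sub_self])
      simpa using add_mem hc h1
    obtain ⟨u, hu, i, hi, hui⟩ := Submodule.mem_sup.mp (hgen I hI hc')
    obtain ⟨a, ha⟩ : ∃ a : ↥Y → EntryRing O, ∑ y : ↥Y, (y : EntryRing O) * a y = u := by
      rw [show (↑Y : Set (EntryRing O)) = Set.range (Subtype.val : ↥Y → EntryRing O) by simp,
        Ideal.mem_span_range_iff_exists_fun] at hu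
      obtain ⟨a, ha⟩ := hu
      exact ⟨a, by rw [← ha]; exact Finset.sum_congr rfl fun y _ => mul_comm _ _⟩
    choose f hfT hf using fun y => hT I hI (a y)
    refine ⟨_, Finset.mem_image.mpr ⟨(residue O c, fun y => ⟨f y, hfT y⟩), Finset.mem_univ _, rfl⟩,
      ?_⟩
    have h : x - (MvPolynomial.C (s (residue O c)) + ∑ y : ↥Y, (y : EntryRing O) * f y) =
        i + ∑ y : ↥Y, (y : EntryRing O) * (a y - f y) := by
      simp only [mul_sub, Finset.sum_sub_distrib, ha]
      linear_combination -hui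
    rw [h]
    refine add_mem (Ideal.mem_sup_left hi) (Ideal.sum_mem _ fun y _ => ?_)
    obtain ⟨p, hp, q, hq, hpq⟩ := Submodule.mem_sup.mp (hf y)
    rw [← hpq, mul_add]
    exact add_mem (Ideal.mem_sup_left (I.mul_mem_left _ hp))
      (Ideal.mem_sup_right (by rw [pow_succ']; exact Ideal.mul_mem_mul (hY y.2) hq))

include hD hbar hF hY hgen in
/-- The smallest kernel of a given level. -/
lemma exists_least_kernel (n : ℕ) : ∃ I, IsKer ρbar D F I ∧ barIdeal ρbar ^ (n + 1) ≤ I ∧
    ∀ J, IsKer ρbar D F J → barIdeal ρbar ^ (n + 1) ≤ J → I ≤ J := by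
  obtain ⟨T, hT⟩ := exists_finset_reps hY hgen (n + 1)
  have hcard : ∀ I, IsKer ρbar D F I → barIdeal ρbar ^ (n + 1) ≤ I →
      Nat.card (EntryRing O ⧸ I) ≤ T.card := by
    intro I hI hn
    rw [← Nat.card_eq_finsetCard]
    refine Nat.card_le_card_of_surjective (fun f : ↥T => Ideal.Quotient.mk I f) fun y => ?_
    obtain ⟨x, rfl⟩ := Ideal.Quotient.mk_surjective y
    obtain ⟨f, hf, hx⟩ := hT I hI x
    rw [sup_eq_left.mpr hn] at hx
    exact ⟨⟨f, hf⟩, (Ideal.Quotient.eq.mpr hx).symm⟩
  classical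
  let P : ℕ → Prop := fun c => ∃ I, IsKer ρbar D F I ∧ barIdeal ρbar ^ (n + 1) ≤ I ∧
    Nat.card (EntryRing O ⧸ I) = c
  have h0 := isKer_barIdeal hD hbar hF
  have hne : P (Nat.card (EntryRing O ⧸ barIdeal ρbar)) :=
    ⟨_, h0, Ideal.pow_le_self n.succ_ne_zero, rfl⟩
  obtain ⟨I, hI, hIn, hIc⟩ := Nat.findGreatest_spec (P := P) (n := T.card)
    (hcard _ h0 (Ideal.pow_le_self n.succ_ne_zero)) hne
  refine ⟨I, hI, hIn, fun J hJ hJn => ?_⟩
  have hK := hI.inf hD hJ
  have := hI.fin
  have := hK.fin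
  have hle : Nat.card (EntryRing O ⧸ I ⊓ J) ≤ Nat.card (EntryRing O ⧸ I) := by
    rw [hIc]
    exact Nat.le_findGreatest (hcard _ hK (le_inf hIn hJn)) ⟨_, hK, le_inf hIn hJn, rfl⟩
  have hs : Function.Surjective (Ideal.Quotient.factor (inf_le_left : I ⊓ J ≤ I)) :=
    Ideal.Quotient.factor_surjective _
  cases nonempty_fintype (EntryRing O ⧸ I)
  cases nonempty_fintype (EntryRing O ⧸ I ⊓ J)
  simp only [Nat.card_eq_fintype_card] at hle
  have hbij := (Fintype.bijective_iff_surjective_and_card _).mpr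
    ⟨hs, le_antisymm hle (Fintype.card_le_of_surjective _ hs)⟩
  intro x hx
  have : Ideal.Quotient.mk (I ⊓ J) x = 0 := hbij.1 (by
    rw [map_zero, Ideal.Quotient.factor_mk, Ideal.Quotient.eq_zero_iff_mem]; exact hx)
  exact (inf_le_right : I ⊓ J ≤ J) (Ideal.Quotient.eq_zero_iff_mem.mp this)

end

/-- A universal deformation ring exists. -/
theorem nonempty_deformationRingData (O : Type) [CommRing O] [IsDomain O]
    [IsDiscreteValuationRing O] [IsAdicComplete (maximalIdeal O) O] [Finite (ResidueField O)]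
    (ρbar : ResidualGaloisRep (ResidueField O)) (D : DefPred O)
    (habs : ρbar.IsAbsolutelyIrreducible) (hD : GaloisRep.IsDeformationCondition O D)
    (hbar : D (GaloisRepAdic.ofResidualGaloisRep ρbar))
    (hfin : GaloisRep.TangentFinite O ρbar D) :
    Nonempty (GaloisRep.DeformationRingData O ρbar D) := by
  classical
  obtain ⟨F, hF⟩ := exists_frame habs
  obtain ⟨Y, hY, hgen⟩ := exists_generators hD hbar hF hfin
  choose In hIn hpow hmin using exists_least_kernel hD hbar hF hY hgen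
  have hloc : ∀ n, IsLocalRing (EntryRing O ⧸ In n) := fun n => quot_isLocalRing (hIn n).le (hIn n).nilp
  have hantit : ∀ n, In (n + 1) ≤ In n := fun n =>
    hmin (n + 1) _ (hIn n) ((Ideal.pow_le_pow_right (by omega)).trans (hpow n))
  have hstep : ∀ n, In n = In (n + 1) ⊔ barIdeal ρbar ^ (n + 1) := fun n =>
    le_antisymm
      (hmin n _ ((hIn (n + 1)).of_le hD le_sup_left
        (sup_le (hIn _).le (Ideal.pow_le_self n.succ_ne_zero))) le_sup_right)
      (sup_le (hantit n) (hpow n))
  have h0 : In 0 = barIdeal ρbar := le_antisymm (hIn 0).le (by simpa using hpow 0)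
  -- the presentation
  let S := MvPowerSeries ↥Y O
  let vars : ∀ n, MvPolynomial ↥Y O →ₐ[O] (EntryRing O ⧸ In n) := fun n =>
    MvPolynomial.aeval fun y => Ideal.Quotient.mk (In n) (y : EntryRing O)
  have hvars : ∀ n, ∀ p ∈ MvPolynomial.idealOfVars ↥Y O ^ (n + 1), vars n p = 0 := by
    intro n p hp
    have h1 : (MvPolynomial.idealOfVars ↥Y O).map (vars n) ≤
        (barIdeal ρbar).map (Ideal.Quotient.mk (In n)) := by
      rw [MvPolynomial.idealOfVars, Ideal.map_span, Ideal.span_le]
      rintro _ ⟨_, ⟨y, rfl⟩, rfl⟩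
      rw [show vars n (MvPolynomial.X y) = Ideal.Quotient.mk (In n) (y : EntryRing O) from
        MvPolynomial.aeval_X _ y]
      exact Ideal.mem_map_of_mem _ (hY y.2)
    have h2 := Ideal.mem_map_of_mem (vars n) hp
    rw [Ideal.map_pow] at h2
    have h3 := Ideal.pow_right_mono h1 (n + 1) h2
    rw [← Ideal.map_pow, Ideal.map_mk_eq_bot_of_le (hpow n)] at h3
    exact h3
  let ψ : ∀ n, S →+* (EntryRing O ⧸ In n) := fun n =>
    (Ideal.Quotient.lift (MvPolynomial.idealOfVars ↥Y O ^ (n + 1)) (vars n).toRingHom (hvars n)).comp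
      (MvPowerSeries.truncTotalAlgHom ↥Y O (n + 1)).toRingHom
  have hψ : ∀ n (s : S), ψ n s = vars n (MvPowerSeries.truncTotal (n + 1) s) := fun n s => rfl
  have hψpoly : ∀ n (p : MvPolynomial ↥Y O), ψ n (p : S) = vars n p := by
    intro n p
    rw [hψ, ← sub_eq_zero, ← map_sub]
    refine hvars n _ ((MvPolynomial.mem_pow_idealOfVars_iff' ..).mpr fun x hx => ?_)
    rw [MvPolynomial.coeff_sub, MvPowerSeries.coeff_truncTotal _ hx, MvPolynomial.coeff_coe,
      sub_self]
  have hψfac : ∀ n s, Ideal.Quotient.factor (hantit n) (ψ (n + 1) s) = ψ n s := by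
    intro n s
    have hc : ∀ p, Ideal.Quotient.factor (hantit n) (vars (n + 1) p) = vars n p := by
      intro p
      refine RingHom.congr_fun (f := (Ideal.Quotient.factor (hantit n)).comp (vars (n + 1)).toRingHom)
        (g := (vars n).toRingHom) (MvPolynomial.ringHom_ext (fun c => ?_) fun y => ?_) p
      · simp [vars]
        rfl
      · simp [vars]
    rw [hψ, hψ, hc, ← sub_eq_zero, ← map_sub]
    exact hvars n _
      (MvPowerSeries.truncTotal_sub_truncTotal_mem_pow_idealOfVars (Nat.le_succ _) le_rfl s)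
  let I : Ideal S := Ideal.span (Set.range MvPowerSeries.X)
  have hψI : ∀ n, I.map (ψ n) = (barIdeal ρbar).map (Ideal.Quotient.mk (In n)) := by
    intro n
    have hX : ∀ y : ↥Y, ψ n (MvPowerSeries.X y) = Ideal.Quotient.mk (In n) (y : EntryRing O) := by
      intro y
      rw [← MvPolynomial.coe_X, hψpoly]
      exact MvPolynomial.aeval_X _ y
    refine le_antisymm ?_ ?_
    · rw [Ideal.map_span, Ideal.span_le]
      rintro _ ⟨_, ⟨y, rfl⟩, rfl⟩
      rw [hX]
      exact Ideal.mem_map_of_mem _ (hY y.2)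
    · refine (Ideal.map_mono (hgen _ (hIn n))).trans ?_
      rw [Ideal.map_sup, Ideal.map_quotient_self, sup_bot_eq, Ideal.map_span, Ideal.span_le]
      rintro _ ⟨y, hy, rfl⟩
      rw [← hX ⟨y, hy⟩]
      exact Ideal.mem_map_of_mem _ (Ideal.subset_span ⟨_, rfl⟩)
  have hψsurj : ∀ n, Function.Surjective (ψ n) := by
    intro n x
    obtain ⟨p, rfl⟩ := Ideal.Quotient.mk_surjective x
    have key : ∀ m, ∀ q : EntryRing O, ∃ t : MvPolynomial ↥Y O,
        Ideal.Quotient.mk (In n) q - vars n t ∈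
          ((barIdeal ρbar).map (Ideal.Quotient.mk (In n))) ^ m := by
      intro m
      induction m with
      | zero => exact fun q => ⟨0, by simp⟩
      | succ m ih =>
        intro q
        obtain ⟨c, hc⟩ := exists_C_sub_mem (ρbar := ρbar) q
        obtain ⟨u, hu, i, hi, hui⟩ := Submodule.mem_sup.mp (hgen _ (hIn n) hc)
        rw [show (↑Y : Set (EntryRing O)) = Set.range (Subtype.val : ↥Y → EntryRing O) by simp,
          Ideal.mem_span_range_iff_exists_fun] at hu
        obtain ⟨a, ha⟩ := hu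
        choose t ht using fun y => ih (a y)
        refine ⟨MvPolynomial.C c + ∑ y : ↥Y, MvPolynomial.X y * t y, ?_⟩
        have hq : Ideal.Quotient.mk (In n) q - vars n (MvPolynomial.C c + ∑ y : ↥Y, MvPolynomial.X y * t y) =
            ∑ y : ↥Y, Ideal.Quotient.mk (In n) (y : EntryRing O) *
              (Ideal.Quotient.mk (In n) (a y) - vars n (t y)) := by
          have e1 : Ideal.Quotient.mk (In n) q = Ideal.Quotient.mk (In n) (MvPolynomial.C c) +
              ∑ y : ↥Y, Ideal.Quotient.mk (In n) (y : EntryRing O) * Ideal.Quotient.mk (In n) (a y) := by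
            simp only [← map_mul, ← map_sum, ← map_add, mul_comm _ (a _), ha]
            rw [Ideal.Quotient.eq]
            rw [show q - (MvPolynomial.C c + u) = i by linear_combination -hui]
            exact hi
          simp only [map_add, map_sum, map_mul, vars, MvPolynomial.aeval_C, MvPolynomial.aeval_X,
            mul_sub, Finset.sum_sub_distrib]
          rw [e1, show algebraMap O (EntryRing O ⧸ In n) c =
            Ideal.Quotient.mk (In n) (MvPolynomial.C c) from rfl]
          ring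
        rw [hq, pow_succ']
        exact Ideal.sum_mem _ fun y _ =>
          Ideal.mul_mem_mul (Ideal.mem_map_of_mem _ (hY y.2)) (ht y)
    obtain ⟨t, ht⟩ := key (n + 1) p
    rw [← Ideal.map_pow, Ideal.map_mk_eq_bot_of_le (hpow n)] at ht
    exact ⟨(t : S), by rw [hψpoly]; exact (sub_eq_zero.mp ht).symm⟩
  let J : ℕ → Ideal S := fun n => RingHom.ker (ψ n)
  have hsys : IsLimitSystem I J := by
    have hpl : ∀ n, I ^ (n + 1) ≤ J n := by
      intro n
      rw [show J n = (⊥ : Ideal _).comap (ψ n) from RingHom.ker_eq_comap_bot _,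
        ← Ideal.map_le_iff_le_comap, Ideal.map_pow, hψI, ← Ideal.map_pow,
        Ideal.map_mk_eq_bot_of_le (hpow n)]
    refine ⟨hpl, fun n => le_antisymm (fun s hs => ?_) (sup_le ?_ (hpl n))⟩
    · have h1 : ψ (n + 1) s ∈ (I ^ (n + 1)).map (ψ (n + 1)) := by
        obtain ⟨p, hp⟩ := Ideal.Quotient.mk_surjective (ψ (n + 1) s)
        have : p ∈ In n := by
          rw [← Ideal.Quotient.eq_zero_iff_mem, ← Ideal.Quotient.factor_mk (hantit n), hp, hψfac]
          exact hs
        rw [hstep n] at this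
        have h := Ideal.mem_map_of_mem (Ideal.Quotient.mk (In (n + 1))) this
        rw [Ideal.map_sup, Ideal.map_quotient_self, bot_sup_eq, hp, Ideal.map_pow, ← hψI,
          ← Ideal.map_pow] at h
        exact h
      obtain ⟨b, hb, hbs⟩ := (Ideal.mem_map_iff_of_surjective _ (hψsurj _)).mp h1
      rw [Submodule.mem_sup]
      exact ⟨s - b, RingHom.mem_ker.mpr (by rw [map_sub, hbs, sub_self]), b, hb, by ring⟩
    · intro s hs
      show ψ n s = 0
      rw [← hψfac, show ψ (n + 1) s = 0 from hs, map_zero]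
  -- the ring
  let R := S ⧸ hsys.kerIdeal
  let mkR : S →+* R := Ideal.Quotient.mk _
  let π : ∀ n, R →ₐ[O] (EntryRing O ⧸ In n) := fun n =>
    { Ideal.Quotient.lift hsys.kerIdeal (ψ n) (fun s hs => (iInf_le J n : hsys.kerIdeal ≤ J n) hs) with
      commutes' := fun c => by
        show ψ n (algebraMap O S c) = _
        rw [show algebraMap O S c = ((MvPolynomial.C c : MvPolynomial ↥Y O) : S) from
          (MvPolynomial.coe_C c).symm, hψpoly]
        exact MvPolynomial.aeval_C _ c }
  have hπmk : ∀ n s, π n (mkR s) = ψ n s := fun n s => rfl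
  have hπext : ∀ x : R, (∀ n, π n x = 0) → x = 0 := by
    intro x hx
    obtain ⟨s, rfl⟩ := Ideal.Quotient.mk_surjective x
    exact Ideal.Quotient.eq_zero_iff_mem.mpr (Ideal.mem_iInf.mpr fun n => RingHom.mem_ker.mpr (hx n))
  have hJ0 : (J 0).IsMaximal := by
    have : (In 0).IsMaximal := h0 ▸ barIdeal_isMaximal
    let := Ideal.Quotient.field (In 0)
    exact RingHom.ker_isMaximal_of_surjective (ψ 0) (hψsurj 0)
  have : IsLocalRing R := hsys.isLocalRing hJ0
  have hmR : maximalIdeal R = I.map mkR := (eq_maximalIdeal (hsys.isMaximal_map hJ0)).symm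
  have hker : ∀ n (x : R), π n x = 0 ↔ x ∈ maximalIdeal R ^ (n + 1) := by
    intro n x
    obtain ⟨s, rfl⟩ := Ideal.Quotient.mk_surjective x
    rw [hmR, hsys.mk_mem_pow_iff]
    exact RingHom.mem_ker.symm
  have : IsAdicComplete (maximalIdeal R) R := hmR ▸ hsys.isAdicComplete
  -- residue field
  have hres : Function.Surjective (residue R ∘ algebraMap O R) := by
    intro a
    obtain ⟨x, rfl⟩ := residue_surjective a
    obtain ⟨p, hp⟩ := Ideal.Quotient.mk_surjective (π 0 x)
    obtain ⟨c, hc⟩ := exists_C_sub_mem (ρbar := ρbar) p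
    refine ⟨c, ?_⟩
    rw [Function.comp_apply, eq_comm, ← sub_eq_zero, ← map_sub, residue_eq_zero_iff,
      ← pow_one (maximalIdeal R), ← hker 0, map_sub, AlgHom.commutes, ← hp]
    show Ideal.Quotient.mk _ p - Ideal.Quotient.mk _ (MvPolynomial.C c) = 0
    rw [← map_sub, Ideal.Quotient.eq_zero_iff_mem, h0]
    exact hc
  have hlocR : IsLocalHom (algebraMap O R) := ⟨fun c hc => by
    by_contra hcu
    have h := hc.map (π 0)
    rw [AlgHom.commutes] at h
    exact ((mk_mem_maximalIdeal_iff (hIn 0).le (hIn 0).nilp (MvPolynomial.C c)).mpr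
      ((C_mem_barIdeal_iff c).mpr hcu)) h⟩
  -- the representation
  choose rn hrn hgn using fun n => (hIn n).rep
  have hentry : ∀ σ i j, ∃ x : R, ∀ n, π n x = rn n σ i j := by
    intro σ i j
    choose x hx using fun n => hψsurj n (rn n σ i j)
    obtain ⟨L, -, hL⟩ := hsys.exists_limit 0 x (fun m => by
      rw [zero_add]
      refine RingHom.mem_ker.mpr ?_
      rw [map_sub, ← hψfac, hx, hx, hrn, hrn, Ideal.Quotient.factor_mk, sub_self]) (x 0) (by simp)
    refine ⟨mkR L, fun n => ?_⟩
    have := hL n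
    rw [zero_add] at this
    rw [hπmk, ← hx n, ← sub_eq_zero, ← map_sub]
    exact this
  choose ent hent using hentry
  let E : GQ → M2 R := fun σ => Matrix.of fun i j => ent σ i j
  have hEn : ∀ n σ, (π n : R →+* EntryRing O ⧸ In n).mapMatrix (E σ) = rn n σ := fun n σ =>
    Matrix.ext fun i j => hent σ i j n
  have hEext : ∀ M M' : M2 R, (∀ n, (π n : R →+* EntryRing O ⧸ In n).mapMatrix M =
      (π n : R →+* EntryRing O ⧸ In n).mapMatrix M') → M = M' := fun M M' h =>
    Matrix.ext fun i j => sub_eq_zero.mp (hπext _ fun n => by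
      rw [map_sub, sub_eq_zero]; exact congrFun (congrFun (h n) i) j)
  let rR : GQ →* M2 R :=
    { toFun := E
      map_one' := hEext _ _ fun n => by rw [hEn, map_one, map_one]
      map_mul' := fun σ τ => hEext _ _ fun n => by rw [map_mul, hEn, hEn, hEn, map_mul] }
  have hrRn : ∀ n, mapRep (π n : R →+* EntryRing O ⧸ In n) rR = rn n := fun n =>
    MonoidHom.ext (hEn n)
  have hcR : IsContRep rR := by
    intro n
    obtain ⟨L, hL, hL'⟩ := (hgn n).choose.exists_eq_one
      (quot_test (hIn n).le (hIn n).nilp (hIn n).fin).isArtinian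
    refine ⟨L, hL, fun σ hσ i j => Ideal.pow_le_pow_right (Nat.le_succ n) ((hker n _).mp ?_)⟩
    have : (π n : R →+* EntryRing O ⧸ In n).mapMatrix (rR σ - 1) = 0 := by
      rw [map_sub, map_one, show (π n : R →+* EntryRing O ⧸ In n).mapMatrix (rR σ) = rn n σ from hEn n σ,
        hL' σ hσ, sub_self]
    exact congrFun (congrFun this i) j
  have hnR : F.IsNormal rR := by
    have key : ∀ n (c : GQ →₀ O) i j, π n (evalComb c rR i j) = evalComb c (rn n) i j := by
      intro n c i j
      rw [← hrRn, evalComb_map _ (π n).comp_algebraMap]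
      rfl
    refine ⟨sub_eq_zero.mp (hπext _ fun n => ?_), sub_eq_zero.mp (hπext _ fun n => ?_),
      sub_eq_zero.mp (hπext _ fun n => ?_)⟩
    · rw [map_sub, key, map_zero, (hgn n).choose_spec.2.1, sub_self]
    · rw [map_sub, key, map_zero, (hgn n).choose_spec.2.2.1, sub_self]
    · rw [map_sub, key, map_one, (hgn n).choose_spec.2.2.2, sub_self]
  let hcoR : IsCoeff O R := ⟨hlocR, hres⟩
  have hevR : ∀ n p, π n (evalRep rR p) = Ideal.Quotient.mk (In n) p := by
    intro n p
    refine AlgHom.congr_fun (algHom_ext_entries (f := (π n).comp (evalRep rR))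
      (g := Ideal.Quotient.mkₐ O (In n)) fun σ i j => ?_) p
    rw [AlgHom.comp_apply, evalRep_X, Ideal.Quotient.mkₐ_eq_mk, ← hrn]
    exact hent σ i j n
  have hliftR : IsLift ρbar hcoR rR := by
    refine MonoidHom.ext fun σ => Matrix.ext fun i j => ?_
    obtain ⟨c, hc⟩ := residue_surjective (resMatrix ρbar σ i j)
    rw [mapRep_apply, mapRep_apply, ← hc, resMap_residue, ← sub_eq_zero, ← map_sub,
      residue_eq_zero_iff, ← pow_one (maximalIdeal R), ← hker 0, map_sub, AlgHom.commutes,
      ← evalRep_X (O := O) rR σ i j, hevR]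
    show Ideal.Quotient.mk _ _ - Ideal.Quotient.mk _ (MvPolynomial.C c) = 0
    rw [← map_sub, Ideal.Quotient.eq_zero_iff_mem, h0, barIdeal, RingHom.mem_ker, map_sub, evalBar,
      MvPolynomial.aeval_X, MvPolynomial.aeval_C, ← hc]
    exact sub_self _
  have happrox : ∀ n (x : R), ∃ p : EntryRing O, x - evalRep rR p ∈ maximalIdeal R ^ (n + 1) := by
    intro n x
    obtain ⟨p, hp⟩ := Ideal.Quotient.mk_surjective (π n x)
    exact ⟨p, (hker n _).mp (by rw [map_sub, hevR, hp, sub_self])⟩
  have hDR : D (ofMatrix rR hcR) := by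
    refine (hD.iff_forall_surjective hlocR hres _).mpr fun B _ _ _ hB q hq hqs => ?_
    obtain ⟨n, hn⟩ := exists_maximalIdeal_pow_eq_bot B hB.isArtinian
    have hqk : ∀ x ∈ maximalIdeal R ^ (n + 1), q x = 0 := by
      intro x hx
      rw [← Ideal.mem_bot, ← hn]
      have h1 := Ideal.mem_map_of_mem (q : R →+* B) hx
      rw [Ideal.map_pow] at h1
      exact Ideal.pow_right_mono (((local_hom_TFAE (q : R →+* B)).out 0 2).mp hq) (n + 1) h1
    let g : (EntryRing O ⧸ In n) →ₐ[O] B := Ideal.Quotient.liftₐ (In n) (q.comp (evalRep rR))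
      fun p hp => hqk _ ((hker n _).mp ((hevR n p).trans (Ideal.Quotient.eq_zero_iff_mem.mpr hp)))
    have tn := quot_test (hIn n).le (hIn n).nilp (hIn n).fin
    obtain ⟨hcB, hdB, -⟩ := (hgn n).map hD tn hB g
    have e : mapRep (q : R →+* B) rR = mapRep (g : (EntryRing O ⧸ In n) →+* B) (rn n) := by
      refine MonoidHom.ext fun σ => Matrix.ext fun i j => ?_
      rw [mapRep_apply, mapRep_apply, hrn]
      show q _ = q (evalRep rR (MvPolynomial.X (σ, i, j)))
      rw [evalRep_X]
    obtain ⟨e'⟩ := baseChange_ofMatrix_isEquiv (q : R →+* B) hq hcR (e ▸ hcB)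
    refine hD.of_isEquiv hB ⟨e'.symm⟩ ?_
    convert hdB using 2
  refine ⟨{
    R := R
    residue_surjective := hres
    absIrr := habs
    ρ := ofMatrix rR hcR
    isOfType := hDR
    residual_isEquiv := residual_ofMatrix_isEquiv ρbar (resMap R hlocR) hcR hliftR
    universal := ?_ }⟩
  intro A _ _ _ _ _ hlocA hresA ρA hρA hρres
  let hcoA : IsCoeff O A := ⟨hlocA, hresA⟩
  obtain ⟨r₁, hc₁, ⟨e₁⟩, hl₁⟩ := exists_conj_of_residual ρbar (resMap A hlocA) ρA hρres
  obtain ⟨rA, hcA, ⟨e₂⟩, hlA', hnA⟩ :=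
    exists_isNormal (F := F) hc₁ (IsLift.adapted (hA := hcoA) hF hl₁)
  have hlA : IsLift ρbar hcoA rA := hlA'.trans hl₁
  let eA := e₁.trans e₂
  -- the Artinian quotients of `A`
  have hfinkA : Finite (ResidueField A) :=
    Finite.of_surjective (resMap A hlocA) fun a => by
      obtain ⟨c, hc⟩ := hresA a
      exact ⟨residue O c, hc⟩
  have : Finite (A ⧸ maximalIdeal A) := hfinkA
  have hAne : ∀ n : ℕ, maximalIdeal A ^ (n + 1) ≠ ⊤ := fun n h =>
    (maximalIdeal.isMaximal A).ne_top (top_le_iff.mp (h ▸ Ideal.pow_le_self n.succ_ne_zero))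
  have hkerA : ∀ n, ∀ p ∈ In n, evalRep (O := O) rA p ∈ maximalIdeal A ^ (n + 1) := by
    intro n
    have : Nontrivial (A ⧸ maximalIdeal A ^ (n + 1)) := Ideal.Quotient.nontrivial_iff.mpr (hAne n)
    have : IsLocalRing (A ⧸ maximalIdeal A ^ (n + 1)) :=
      IsLocalRing.of_surjective' (Ideal.Quotient.mk _) Ideal.Quotient.mk_surjective
    let mkA : A →ₐ[O] A ⧸ maximalIdeal A ^ (n + 1) := Ideal.Quotient.mkₐ O _
    have hlm : IsLocalHom (mkA : A →+* A ⧸ maximalIdeal A ^ (n + 1)) :=
      IsLocalHom.of_surjective _ Ideal.Quotient.mk_surjective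
    have hfinQ : Finite (A ⧸ maximalIdeal A ^ (n + 1)) :=
      Ideal.finite_quotient_pow ((isNoetherianRing_iff_ideal_fg A).mp inferInstance _) (n + 1)
    have hQ : GaloisRep.IsArtinianTestAlgebra O (A ⧸ maximalIdeal A ^ (n + 1)) := by
      refine ⟨?_, ?_, inferInstance⟩
      · rw [← mkA.comp_algebraMap]
        exact RingHom.isLocalHom_comp _ _
      · intro a
        obtain ⟨x, rfl⟩ := residue_surjective a
        obtain ⟨y, rfl⟩ := Ideal.Quotient.mk_surjective x
        obtain ⟨c, hc⟩ := hresA (residue A y)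
        refine ⟨c, ?_⟩
        have := congrArg (ResidueField.map (mkA : A →+* A ⧸ maximalIdeal A ^ (n + 1))) hc
        rw [Function.comp_apply, ResidueField.map_residue, ResidueField.map_residue] at this
        rw [Function.comp_apply, ← mkA.commutes c]
        exact this
    have hdQ : D (ρA.baseChangeAlong (mkA : A →+* A ⧸ maximalIdeal A ^ (n + 1)) hlm) :=
      (hD.iff_forall_surjective hlocA hresA ρA).mp hρA hQ mkA hlm Ideal.Quotient.mk_surjective
    have hcQ := hcA.map (mkA : A →+* A ⧸ maximalIdeal A ^ (n + 1))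
    have hgQ : IsGood D F (mapRep (mkA : A →+* A ⧸ maximalIdeal A ^ (n + 1)) rA) := by
      obtain ⟨e₃⟩ := baseChange_ofMatrix_isEquiv _ hlm hcA hcQ
      exact ⟨hcQ, hD.of_isEquiv hQ ⟨(eA.baseChangeAlong _ hlm).trans e₃⟩ hdQ,
        hnA.map _ mkA.comp_algebraMap⟩
    have hK := isKer_ker hD hQ (IsLift.map (hB := isCoeff_of_test hQ) mkA hlA) hgQ
    have hev : ∀ p, evalRep (O := O) (mapRep (mkA : A →+* A ⧸ maximalIdeal A ^ (n + 1)) rA) p =
        mkA (evalRep rA p) := fun p => by
      refine AlgHom.congr_fun (algHom_ext_entries (g := mkA.comp (evalRep rA)) fun σ i j => ?_) p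
      rw [evalRep_X, AlgHom.comp_apply, evalRep_X]
      rfl
    have hle : barIdeal ρbar ^ (n + 1) ≤
        RingHom.ker (evalRep (O := O) (mapRep (mkA : A →+* A ⧸ maximalIdeal A ^ (n + 1)) rA)) := by
      intro p hp
      rw [RingHom.mem_ker, hev]
      refine Ideal.Quotient.eq_zero_iff_mem.mpr ?_
      have h1 : (barIdeal ρbar).map (evalRep (O := O) rA : EntryRing O →+* A) ≤ maximalIdeal A := by
        refine Ideal.map_le_iff_le_comap.mpr fun q hq => ?_
        rw [Ideal.mem_comap, ← residue_eq_zero_iff]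
        exact (residue_evalRep hlA q).trans (by rw [show evalBar ρbar q = 0 from hq, map_zero])
      have h2 := Ideal.mem_map_of_mem (evalRep (O := O) rA : EntryRing O →+* A) hp
      rw [Ideal.map_pow] at h2
      exact Ideal.pow_right_mono h1 (n + 1) h2
    intro p hp
    have := RingHom.mem_ker.mp (hmin n _ hK hle hp)
    rw [hev] at this
    exact Ideal.Quotient.eq_zero_iff_mem.mp this
  let φn : ∀ n, R →ₐ[O] A ⧸ maximalIdeal A ^ (n + 1) := fun n =>
    (Ideal.Quotient.liftₐ (In n) ((Ideal.Quotient.mkₐ O _).comp (evalRep rA)) fun p hp =>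
      Ideal.Quotient.eq_zero_iff_mem.mpr (hkerA n p hp)).comp (π n)
  have hφnker : ∀ n (x : R), x ∈ maximalIdeal R ^ (n + 1) → φn n x = 0 := fun n x hx => by
    simp only [φn, AlgHom.comp_apply]
    rw [(hker n x).mpr hx, map_zero]
  have hφnev : ∀ n p, φn n (evalRep rR p) = Ideal.Quotient.mk _ (evalRep (O := O) rA p) := by
    intro n p
    simp only [φn, AlgHom.comp_apply]
    rw [hevR]
    rfl
  have hφnmk : ∀ n (x : R) p, x - evalRep rR p ∈ maximalIdeal R ^ (n + 1) →
      φn n x = Ideal.Quotient.mk _ (evalRep (O := O) rA p) := fun n x p hp => by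
    rw [← hφnev, ← sub_eq_zero, ← map_sub]
    exact hφnker n _ hp
  let fQ : ∀ n, R →+* A ⧸ maximalIdeal A ^ n := fun n =>
    (Ideal.Quotient.factorPow (maximalIdeal A) (Nat.le_succ n)).comp (φn n).toRingHom
  have hfQ : ∀ {m n : ℕ} (hle : m ≤ n),
      (Ideal.Quotient.factorPow (maximalIdeal A) hle).comp (fQ n) = fQ m := by
    intro m n hle
    ext x
    obtain ⟨p, hp⟩ := happrox n x
    have hp' := Ideal.pow_le_pow_right (show m + 1 ≤ n + 1 by omega) hp
    simp only [fQ, RingHom.comp_apply, AlgHom.toRingHom_eq_coe, RingHom.coe_coe]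
    rw [hφnmk n x p hp, hφnmk m x p hp']
    rfl
  let φ₀ : R →+* A := IsAdicComplete.liftRingHom (maximalIdeal A) fQ hfQ
  have hφ₀ : ∀ n (x : R), Ideal.Quotient.mk (maximalIdeal A ^ n) (φ₀ x) = fQ n x := fun n x =>
    IsAdicComplete.mk_liftRingHom _ fQ hfQ n x
  have hzero : ∀ a : A, (∀ n, a ∈ maximalIdeal A ^ n) → a = 0 := fun a ha =>
    IsHausdorff.haus' (I := maximalIdeal A) a fun n => by
      rw [SModEq.zero, smul_eq_mul, Ideal.mul_top]; exact ha n
  let φ : R →ₐ[O] A :=
    { φ₀ with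
      commutes' := fun c => sub_eq_zero.mp (hzero _ fun n => by
        rw [← Ideal.Quotient.eq]
        show Ideal.Quotient.mk _ (φ₀ (algebraMap O R c)) = _
        rw [hφ₀]
        simp only [fQ, RingHom.comp_apply, AlgHom.toRingHom_eq_coe, RingHom.coe_coe, AlgHom.commutes]
        rfl) }
  have hφev : ∀ p, φ (evalRep rR p) = evalRep (O := O) rA p := fun p =>
    sub_eq_zero.mp (hzero _ fun n => by
      rw [← Ideal.Quotient.eq]
      show Ideal.Quotient.mk _ (φ₀ (evalRep rR p)) = _
      rw [hφ₀]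
      simp only [fQ, RingHom.comp_apply, AlgHom.toRingHom_eq_coe, RingHom.coe_coe, hφnev]
      rfl)
  have hφr : mapRep (φ : R →+* A) rR = rA := MonoidHom.ext fun σ => Matrix.ext fun i j => by
    rw [mapRep_apply, ← evalRep_X (O := O) rR σ i j]
    exact (hφev _).trans (evalRep_X rA σ i j)
  have hφloc : IsLocalHom (φ : R →+* A) := ⟨fun x hx => by
    by_contra hxn
    obtain ⟨c, hc⟩ := hres (residue R x)
    have hxc : x - algebraMap O R c ∈ maximalIdeal R := by
      rw [← residue_eq_zero_iff, map_sub, sub_eq_zero]; exact hc.symm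
    have hcm : c ∈ maximalIdeal O := by
      by_contra hcu
      exact ((mem_maximalIdeal (algebraMap O R c)).mp (by
        simpa using sub_mem (show x ∈ maximalIdeal R from hxn) hxc)) ((not_not.mp hcu).map _)
    have h2 : φ x - algebraMap O A c ∈ maximalIdeal A := by
      rw [← pow_one (maximalIdeal A), ← Ideal.Quotient.eq, ← φ.commutes c]
      show Ideal.Quotient.mk _ (φ₀ x) = Ideal.Quotient.mk _ (φ₀ (algebraMap O R c))
      rw [hφ₀, hφ₀, ← sub_eq_zero, ← map_sub]
      simp only [fQ, RingHom.comp_apply, AlgHom.toRingHom_eq_coe, RingHom.coe_coe]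
      obtain ⟨p, hp⟩ := happrox 1 (x - algebraMap O R c)
      rw [hφnmk 1 _ p hp]
      show Ideal.Quotient.factorPow _ _ (Ideal.Quotient.mk _ _) = 0
      rw [Ideal.Quotient.factor_mk, Ideal.Quotient.eq_zero_iff_mem, pow_one,
        ← residue_eq_zero_iff, residue_evalRep hlA]
      have hp0 : π 0 (evalRep rR p) = 0 := by
        have e1 := (hker 0 _).mpr (show x - algebraMap O R c ∈ maximalIdeal R ^ (0 + 1) by
          simpa using hxc)
        have e2 := (hker 0 _).mpr (Ideal.pow_le_pow_right (show 0 + 1 ≤ 1 + 1 by omega) hp)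
        rw [map_sub, e1, zero_sub, neg_eq_zero] at e2
        exact e2
      rw [hevR, Ideal.Quotient.eq_zero_iff_mem, h0] at hp0
      rw [show evalBar ρbar p = 0 from hp0, map_zero]
    have h4 : algebraMap O A c ∈ maximalIdeal A := by
      rw [mem_maximalIdeal, mem_nonunits_iff]
      exact fun hu => hcm (hlocA.map_nonunit c hu)
    have h5 : φ x ∈ maximalIdeal A := by simpa using add_mem h2 h4
    exact h5 hx⟩
  refine ⟨φ, ⟨hφloc, ?_⟩, ?_⟩
  · obtain ⟨e⟩ := baseChange_ofMatrix_isEquiv (φ : R →+* A) hφloc hcR (hcR.map _)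
    have : (ofMatrix (mapRep (φ : R →+* A) rR) (hcR.map _)).IsEquiv (ofMatrix rA hcA) := by
      rw [isEquiv_ofMatrix_iff]
      exact ⟨1, isUnit_one, fun σ => by rw [hφr, one_mul, mul_one]⟩
    exact ⟨(e.trans this.some).trans eA.symm⟩
  · rintro φ' ⟨hφ', ⟨e'⟩⟩
    obtain ⟨e⟩ := baseChange_ofMatrix_isEquiv (φ' : R →+* A) hφ' hcR (hcR.map _)
    obtain ⟨U, hU, hUr⟩ := (isEquiv_ofMatrix_iff (hcR.map (φ' : R →+* A)) hcA).mp
      ⟨(e.symm.trans e').trans eA⟩
    have heq : mapRep (φ' : R →+* A) rR = rA :=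
      eq_of_isNormal (IsLift.adapted hF (IsLift.map (hB := hcoA) φ' hliftR)) (hlA.adapted hF)
        (hnR.map _ φ'.comp_algebraMap) hnA hU hUr
    have hagree : ∀ p, φ' (evalRep rR p) = evalRep (O := O) rA p := fun p => by
      refine AlgHom.congr_fun (algHom_ext_entries (f := φ'.comp (evalRep rR)) fun σ i j => ?_) p
      rw [AlgHom.comp_apply, evalRep_X, evalRep_X, ← heq]
      rfl
    refine AlgHom.ext fun x => sub_eq_zero.mp (hzero _ fun n => ?_)
    obtain ⟨p, hp⟩ := happrox n x
    have hmap : ∀ ψ' : R →ₐ[O] A, IsLocalHom (ψ' : R →+* A) →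
        ψ' x - ψ' (evalRep rR p) ∈ maximalIdeal A ^ n := fun ψ' hψ' => by
      rw [← map_sub]
      have h1 := Ideal.mem_map_of_mem (ψ' : R →+* A) (Ideal.pow_le_pow_right (Nat.le_succ n) hp)
      rw [Ideal.map_pow] at h1
      exact Ideal.pow_right_mono (((local_hom_TFAE (ψ' : R →+* A)).out 0 2).mp hψ') n h1
    have := sub_mem (hmap φ' hφ') (hmap φ hφloc)
    rw [hagree, hφev] at this
    simpa using this

end FA.Deform
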